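import Mathlib

/-!
# Fermat's Last Theorem for the exponents 5, 7, 11, 13 (Kummer's proof, class number one):
common definitions
-/

set_option autoImplicit false

namespace Fermat.Agent.FLTSmall

open NumberField

/-- **Kummer's lemma** for the prime `p` and the number field `K`: a unit of `𝓞 K` which is
congruent to a rational integer modulo `p` is the `p`-th power of a unit. -/
def KL (p : ℕ) (K : Type*) [Field K] [NumberField K] : Prop :=
  ∀ u : (𝓞 K)ˣ, (∃ n : ℤ, ((p : ℕ) : 𝓞 K) ∣ (u : 𝓞 K) - (n : 𝓞 K)) → ∃ v : (𝓞 K)ˣ, u = v ^ p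

end Fermat.Agent.FLTSmall
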