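import Mathlib
import Fermat.Agent.FLTSmall.Defs

/-!
# Fermat's Last Theorem for a prime exponent from its two classical cases

`flt_of_cases`: if every primitive solution of `a ^ p + b ^ p = c ^ p` has `p ∣ a * b * c`
(first case) and there is no solution with `a`, `b` coprime, `c ≠ 0` and `p ∣ c` (second case),
then Fermat's Last Theorem holds for the odd prime `p`.
-/

set_option autoImplicit false

namespace Fermat.Agent.FLTSmall

/-- A primitive solution of the Fermat equation is pairwise coprime. -/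
theorem pairwise_isCoprime_of_gcd_eq_one {p : ℕ} (hp0 : p ≠ 0) {a b c : ℤ} (ha : a ≠ 0)
    (hb : b ≠ 0) (hgcd : ({a, b, c} : Finset ℤ).gcd id = 1) (h : a ^ p + b ^ p = c ^ p) :
    IsCoprime a b ∧ IsCoprime a c ∧ IsCoprime b c := by
  have key : ∀ q : ℤ, Prime q → q ∣ a → q ∣ b → q ∣ c → False := by
    intro q hq hqa hqb hqc
    apply hq.not_dvd_one
    rw [← hgcd]
    refine Finset.dvd_gcd_iff.mpr fun x hx ↦ ?_
    simp only [Finset.mem_insert, Finset.mem_singleton] at hx
    rcases hx with rfl | rfl | rfl <;> simpa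
  refine ⟨isCoprime_of_prime_dvd (fun h0 => ha h0.1) ?_,
    isCoprime_of_prime_dvd (fun h0 => ha h0.1) ?_, isCoprime_of_prime_dvd (fun h0 => hb h0.1) ?_⟩
  · intro q hq hqa hqb
    refine key q hq hqa hqb (hq.dvd_of_dvd_pow (n := p) ?_)
    rw [← h]
    exact dvd_add (dvd_pow hqa hp0) (dvd_pow hqb hp0)
  · intro q hq hqa hqc
    refine key q hq hqa (hq.dvd_of_dvd_pow (n := p) ?_) hqc
    have : b ^ p = c ^ p - a ^ p := by linarith
    rw [this]
    exact dvd_sub (dvd_pow hqc hp0) (dvd_pow hqa hp0)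
  · intro q hq hqb hqc
    refine key q hq (hq.dvd_of_dvd_pow (n := p) ?_) hqb hqc
    have : a ^ p = c ^ p - b ^ p := by linarith
    rw [this]
    exact dvd_sub (dvd_pow hqc hp0) (dvd_pow hqb hp0)

/-- Fermat's Last Theorem for an odd prime exponent `p` follows from its first case (`hI`:
a primitive solution has `p ∣ a * b * c`) and its second case (`hII`: there is no solution with
`a`, `b` coprime, `c ≠ 0` and `p ∣ c`). -/
theorem flt_of_cases {p : ℕ} (hp : p.Prime) (hp2 : p ≠ 2)
    (hI : ∀ a b c : ℤ, ({a, b, c} : Finset ℤ).gcd id = 1 → a ^ p + b ^ p = c ^ p →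
      (p : ℤ) ∣ a * b * c)
    (hII : ∀ a b c : ℤ, IsCoprime a b → c ≠ 0 → (p : ℤ) ∣ c → a ^ p + b ^ p = c ^ p → False) :
    FermatLastTheoremFor p := by
  have hodd : Odd p := hp.odd_of_ne_two hp2
  rw [fermatLastTheoremFor_iff_int]
  refine fermatLastTheoremWith_of_fermatLastTheoremWith_coprime (fun a b c ha hb hc hgcd h => ?_)
  obtain ⟨hab, hac, hbc⟩ := pairwise_isCoprime_of_gcd_eq_one hp.ne_zero ha hb hgcd h
  have hpZ : Prime (p : ℤ) := Nat.prime_iff_prime_int.mp hp
  rcases hpZ.dvd_or_dvd (hI a b c hgcd h) with h1 | h1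
  · rcases hpZ.dvd_or_dvd h1 with h2 | h2
    · exact hII c (-b) a hbc.symm.neg_right ha h2 (by rw [hodd.neg_pow]; linarith)
    · exact hII c (-a) b hac.symm.neg_right hb h2 (by rw [hodd.neg_pow]; linarith)
  · exact hII a b c hab hc h1 h

/-- A nontrivial integer solution of the Fermat equation contradicts Fermat's Last Theorem for
that exponent. -/
theorem false_of_flt {p : ℕ} (h : FermatLastTheoremFor p) {a b c : ℤ} (ha : a ≠ 0) (hb : b ≠ 0)
    (hc : c ≠ 0) (heq : a ^ p + b ^ p = c ^ p) : False :=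
  (fermatLastTheoremFor_iff_int.mp h) a b c ha hb hc heq

end Fermat.Agent.FLTSmall
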