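import Mathlib

set_option autoImplicit false

/-!
# Sophie Germain's theorem and the first case of Fermat's Last Theorem for `p = 5, 7, 11, 13`

Let `p` be an odd prime and `q` an auxiliary prime such that
(i) `a ^ p + b ^ p + c ^ p = 0` in `ZMod q` forces `a b c = 0`, and
(ii) `p` is not a `p`-th power in `ZMod q`.
Then `x ^ p + y ^ p + z ^ p = 0` has no solution in pairwise coprime integers prime to `p`.
-/

namespace Fermat.Agent.FLTSmall

namespace SophieGermain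

/-- the cofactor of `y + z` in `y ^ p + z ^ p` (for odd `p`) -/
def cof (p : ℕ) (y z : ℤ) : ℤ := ∑ i ∈ Finset.range p, y ^ i * (-z) ^ (p - 1 - i)

theorem cof_mul (p : ℕ) (hp : Odd p) (y z : ℤ) : cof p y z * (y + z) = y ^ p + z ^ p := by
  have h := geom_sum₂_mul y (-z) p
  rw [hp.neg_pow, sub_neg_eq_add, sub_neg_eq_add] at h
  exact h

theorem dvd_cof_sub (p : ℕ) (y z : ℤ) : (y + z) ∣ cof p y z - p * y ^ (p - 1) := by
  have h1 : (p : ℤ) * y ^ (p - 1) = ∑ i ∈ Finset.range p, y ^ i * y ^ (p - 1 - i) := by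
    have h2 : ∀ i ∈ Finset.range p, y ^ i * y ^ (p - 1 - i) = y ^ (p - 1) := by
      intro i hi
      rw [← pow_add]
      congr 1
      have := Finset.mem_range.mp hi
      omega
    rw [Finset.sum_congr rfl h2, Finset.sum_const, Finset.card_range, nsmul_eq_mul]
  rw [cof, h1, ← Finset.sum_sub_distrib]
  refine Finset.dvd_sum fun i _ => ?_
  rw [← mul_sub]
  refine Dvd.dvd.mul_left ?_ _
  have h3 := sub_dvd_pow_sub_pow (-z) y (p - 1 - i)
  have h4 : y + z ∣ -z - y := ⟨-1, by ring⟩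
  exact h4.trans h3

/-- If `x ^ p + y ^ p + z ^ p = 0` with `y, z` coprime and `p ∤ x`, then `y + z` and its cofactor
are `p`-th powers. -/
theorem exists_pow_eq {p : ℕ} (hp : p.Prime) (hodd : Odd p) {x y z : ℤ} (hyz : IsCoprime y z)
    (h : x ^ p + y ^ p + z ^ p = 0) (hpx : ¬ (p : ℤ) ∣ x) :
    ∃ a α : ℤ, y + z = a ^ p ∧ cof p y z = α ^ p := by
  have hprod : (y + z) * cof p y z = (-x) ^ p := by
    rw [mul_comm, cof_mul p hodd, hodd.neg_pow]
    linarith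
  have hcop : IsCoprime (y + z) (cof p y z) := by
    rw [Int.isCoprime_iff_gcd_eq_one]
    by_contra hg
    obtain ⟨r, hr, hrd⟩ := Nat.exists_prime_and_dvd hg
    have hr1 : (r : ℤ) ∣ y + z := (Int.natCast_dvd_natCast.mpr hrd).trans (Int.gcd_dvd_left _ _)
    have hr2 : (r : ℤ) ∣ cof p y z :=
      (Int.natCast_dvd_natCast.mpr hrd).trans (Int.gcd_dvd_right _ _)
    have hr3 : (r : ℤ) ∣ p * y ^ (p - 1) := by
      have h5 := dvd_sub hr2 (hr1.trans (dvd_cof_sub p y z))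
      rwa [sub_sub_cancel] at h5
    have hrp : Prime (r : ℤ) := Nat.prime_iff_prime_int.mp hr
    rcases hrp.dvd_or_dvd hr3 with h4 | h4
    · have hrp' : r = p := (Nat.prime_dvd_prime_iff_eq hr hp).mp (Int.natCast_dvd_natCast.mp h4)
      subst hrp'
      have h5 : (r : ℤ) ∣ (-x) ^ r := by
        rw [← hprod]
        exact Dvd.dvd.mul_right hr1 _
      exact hpx ((dvd_neg).mp (hrp.dvd_of_dvd_pow h5))
    · have h5 : (r : ℤ) ∣ y := hrp.dvd_of_dvd_pow h4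
      have h6 : (r : ℤ) ∣ z := by
        have h7 := dvd_sub hr1 h5
        rwa [add_sub_cancel_left] at h7
      exact hrp.not_isUnit (hyz.isUnit_of_dvd' h5 h6)
  obtain ⟨a, ha⟩ := Int.eq_pow_of_mul_eq_pow_odd_left hcop hodd hprod
  obtain ⟨α, hα⟩ := Int.eq_pow_of_mul_eq_pow_odd_right hcop hodd hprod
  exact ⟨a, α, ha, hα⟩

/-- The main step of Sophie Germain's argument, assuming `q ∣ x`. -/
theorem false_of_dvd {p q : ℕ} (hp : p.Prime) (hodd : Odd p) (hq : q.Prime)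
    (h1 : ∀ a b c : ZMod q, a ^ p + b ^ p + c ^ p = 0 → a = 0 ∨ b = 0 ∨ c = 0)
    (h2 : ∀ a : ZMod q, a ^ p ≠ (p : ZMod q))
    {x y z : ℤ} (hxy : IsCoprime x y) (hyz : IsCoprime y z) (hzx : IsCoprime z x)
    (h : x ^ p + y ^ p + z ^ p = 0)
    (hpx : ¬ (p : ℤ) ∣ x) (hpy : ¬ (p : ℤ) ∣ y) (hpz : ¬ (p : ℤ) ∣ z)
    (hqx : (q : ℤ) ∣ x) : False := by
  have : Fact q.Prime := Fact.mk hq
  obtain ⟨a, α, ha, hα⟩ := exists_pow_eq hp hodd hyz h hpx
  obtain ⟨b, β, hb, -⟩ := exists_pow_eq hp hodd hzx (by linarith : y ^ p + z ^ p + x ^ p = 0) hpy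
  obtain ⟨c, γ, hc, -⟩ := exists_pow_eq hp hodd hxy (by linarith : z ^ p + x ^ p + y ^ p = 0) hpz
  have hx0 : (x : ZMod q) = 0 := (ZMod.intCast_zmod_eq_zero_iff_dvd x q).mpr hqx
  have hqprime : Prime (q : ℤ) := Nat.prime_iff_prime_int.mp hq
  have hy0 : (y : ZMod q) ≠ 0 := by
    intro hy
    exact hqprime.not_isUnit
      (hxy.isUnit_of_dvd' hqx ((ZMod.intCast_zmod_eq_zero_iff_dvd y q).mp hy))
  have hz0 : (z : ZMod q) ≠ 0 := by
    intro hz
    exact hqprime.not_isUnit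
      (hzx.isUnit_of_dvd' ((ZMod.intCast_zmod_eq_zero_iff_dvd z q).mp hz) hqx)
  have ha' : (y : ZMod q) + (z : ZMod q) = (a : ZMod q) ^ p := by
    have h3 := congrArg (Int.cast : ℤ → ZMod q) ha
    push_cast at h3
    exact h3
  have hb' : (z : ZMod q) = (b : ZMod q) ^ p := by
    have h3 := congrArg (Int.cast : ℤ → ZMod q) hb
    push_cast at h3
    rw [hx0, add_zero] at h3
    exact h3
  have hc' : (y : ZMod q) = (c : ZMod q) ^ p := by
    have h3 := congrArg (Int.cast : ℤ → ZMod q) hc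
    push_cast at h3
    rw [hx0, zero_add] at h3
    exact h3
  have hb0 : (b : ZMod q) ≠ 0 := by
    intro h0
    rw [h0, zero_pow hp.ne_zero] at hb'
    exact hz0 hb'
  have hc0 : (c : ZMod q) ≠ 0 := by
    intro h0
    rw [h0, zero_pow hp.ne_zero] at hc'
    exact hy0 hc'
  have e1 : (b : ZMod q) ^ p + (c : ZMod q) ^ p + (-(a : ZMod q)) ^ p = 0 := by
    rw [hodd.neg_pow, ← ha', ← hb', ← hc']
    ring
  rcases h1 _ _ _ e1 with hb'' | hc'' | ha''
  · exact hb0 hb''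
  · exact hc0 hc''
  · have ha0 : (a : ZMod q) = 0 := neg_eq_zero.mp ha''
    have hyz0 : (y : ZMod q) + (z : ZMod q) = 0 := by
      rw [ha', ha0, zero_pow hp.ne_zero]
    have hcof : ((cof p y z : ℤ) : ZMod q) = (p : ZMod q) * (y : ZMod q) ^ (p - 1) := by
      obtain ⟨k, hk⟩ := dvd_cof_sub p y z
      have h3 : cof p y z = p * y ^ (p - 1) + (y + z) * k := by linarith
      rw [h3]
      push_cast
      rw [hyz0, zero_mul, add_zero]
    have h3 : (α : ZMod q) ^ p = (p : ZMod q) * ((c : ZMod q) ^ (p - 1)) ^ p := by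
      have h4 := congrArg (Int.cast : ℤ → ZMod q) hα
      push_cast at h4
      rw [← h4, hcof, hc', ← pow_mul, ← pow_mul, Nat.mul_comm (p - 1) p]
    apply h2 ((α : ZMod q) * ((c : ZMod q) ^ (p - 1))⁻¹)
    rw [mul_pow, h3, inv_pow, mul_assoc,
      mul_inv_cancel₀ (pow_ne_zero _ (pow_ne_zero _ hc0)), mul_one]

/-- **Sophie Germain's theorem**, symmetric form. -/
theorem caseI_of_aux {p q : ℕ} (hp : p.Prime) (hodd : Odd p) (hq : q.Prime)
    (h1 : ∀ a b c : ZMod q, a ^ p + b ^ p + c ^ p = 0 → a = 0 ∨ b = 0 ∨ c = 0)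
    (h2 : ∀ a : ZMod q, a ^ p ≠ (p : ZMod q))
    {x y z : ℤ} (hxy : IsCoprime x y) (hyz : IsCoprime y z) (hzx : IsCoprime z x)
    (h : x ^ p + y ^ p + z ^ p = 0)
    (hpx : ¬ (p : ℤ) ∣ x) (hpy : ¬ (p : ℤ) ∣ y) (hpz : ¬ (p : ℤ) ∣ z) : False := by
  have : Fact q.Prime := Fact.mk hq
  have e : (x : ZMod q) ^ p + (y : ZMod q) ^ p + (z : ZMod q) ^ p = 0 := by
    have h3 := congrArg (Int.cast : ℤ → ZMod q) h
    push_cast at h3
    exact h3
  rcases h1 _ _ _ e with hx | hy | hz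
  · exact false_of_dvd hp hodd hq h1 h2 hxy hyz hzx h hpx hpy hpz
      ((ZMod.intCast_zmod_eq_zero_iff_dvd x q).mp hx)
  · exact false_of_dvd hp hodd hq h1 h2 hyz hzx hxy (by linarith) hpy hpz hpx
      ((ZMod.intCast_zmod_eq_zero_iff_dvd y q).mp hy)
  · exact false_of_dvd hp hodd hq h1 h2 hzx hxy hyz (by linarith) hpz hpx hpy
      ((ZMod.intCast_zmod_eq_zero_iff_dvd z q).mp hz)

/-- coprimality of the other pairs in a solution of the Fermat equation -/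
theorem isCoprime_of_eq {p : ℕ} (hp : p ≠ 0) {x y z : ℤ} (hxy : IsCoprime x y)
    (h : x ^ p + y ^ p = z ^ p) : IsCoprime y z ∧ IsCoprime z x := by
  constructor
  · rw [Int.isCoprime_iff_gcd_eq_one]
    by_contra hg
    obtain ⟨r, hr, hrd⟩ := Nat.exists_prime_and_dvd hg
    have hrp : Prime (r : ℤ) := Nat.prime_iff_prime_int.mp hr
    have hr1 : (r : ℤ) ∣ y := (Int.natCast_dvd_natCast.mpr hrd).trans (Int.gcd_dvd_left _ _)
    have hr2 : (r : ℤ) ∣ z := (Int.natCast_dvd_natCast.mpr hrd).trans (Int.gcd_dvd_right _ _)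
    have hr3 : (r : ℤ) ∣ x ^ p := by
      have h3 : x ^ p = z ^ p - y ^ p := by linarith
      rw [h3]
      exact dvd_sub (dvd_pow hr2 hp) (dvd_pow hr1 hp)
    exact hrp.not_isUnit (hxy.isUnit_of_dvd' (hrp.dvd_of_dvd_pow hr3) hr1)
  · rw [Int.isCoprime_iff_gcd_eq_one]
    by_contra hg
    obtain ⟨r, hr, hrd⟩ := Nat.exists_prime_and_dvd hg
    have hrp : Prime (r : ℤ) := Nat.prime_iff_prime_int.mp hr
    have hr1 : (r : ℤ) ∣ z := (Int.natCast_dvd_natCast.mpr hrd).trans (Int.gcd_dvd_left _ _)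
    have hr2 : (r : ℤ) ∣ x := (Int.natCast_dvd_natCast.mpr hrd).trans (Int.gcd_dvd_right _ _)
    have hr3 : (r : ℤ) ∣ y ^ p := by
      have h3 : y ^ p = z ^ p - x ^ p := by linarith
      rw [h3]
      exact dvd_sub (dvd_pow hr1 hp) (dvd_pow hr2 hp)
    exact hrp.not_isUnit (hxy.isUnit_of_dvd' hr2 (hrp.dvd_of_dvd_pow hr3))

/-- **Sophie Germain's theorem** for the Fermat equation `x ^ p + y ^ p = z ^ p`. -/
theorem dvd_of_aux {p q : ℕ} (hp : p.Prime) (hodd : Odd p) (hq : q.Prime)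
    (h1 : ∀ a b c : ZMod q, a ^ p + b ^ p + c ^ p = 0 → a = 0 ∨ b = 0 ∨ c = 0)
    (h2 : ∀ a : ZMod q, a ^ p ≠ (p : ZMod q))
    {x y z : ℤ} (hxy : IsCoprime x y) (h : x ^ p + y ^ p = z ^ p) :
    (p : ℤ) ∣ x ∨ (p : ℤ) ∣ y ∨ (p : ℤ) ∣ z := by
  by_contra hcon
  have hpx : ¬ (p : ℤ) ∣ x := fun h3 => hcon (Or.inl h3)
  have hpy : ¬ (p : ℤ) ∣ y := fun h3 => hcon (Or.inr (Or.inl h3))
  have hpz : ¬ (p : ℤ) ∣ -z := fun h3 => hcon (Or.inr (Or.inr ((dvd_neg).mp h3)))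
  obtain ⟨hyz, hzx⟩ := isCoprime_of_eq hp.ne_zero hxy h
  refine caseI_of_aux hp hodd hq h1 h2 hxy hyz.neg_right hzx.neg_left ?_ hpx hpy hpz
  rw [hodd.neg_pow, h]
  ring

/-- condition (i) of Sophie Germain's theorem from a list of the `p`-th power residues -/
theorem h1_of_three {p q : ℕ} (hq : q.Prime)
    (hS : ∀ a : ZMod q, a ^ p = 0 ∨ a ^ p = 1 ∨ a ^ p = -1)
    (hsum : ∀ r s t : ZMod q, (r = 1 ∨ r = -1) → (s = 1 ∨ s = -1) →
      (t = 1 ∨ t = -1) → r + s + t ≠ 0) (hp : p ≠ 0) :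
    ∀ a b c : ZMod q, a ^ p + b ^ p + c ^ p = 0 → a = 0 ∨ b = 0 ∨ c = 0 := by
  intro a b c h
  have : Fact q.Prime := Fact.mk hq
  have key : ∀ t : ZMod q, t ^ p = 0 → t = 0 := fun t ht => pow_eq_zero_iff hp |>.mp ht
  by_contra hcon
  have ha : a ^ p ≠ 0 := fun h0 => hcon (Or.inl (key a h0))
  have hb : b ^ p ≠ 0 := fun h0 => hcon (Or.inr (Or.inl (key b h0)))
  have hc : c ^ p ≠ 0 := fun h0 => hcon (Or.inr (Or.inr (key c h0)))
  exact hsum _ _ _ ((hS a).resolve_left ha) ((hS b).resolve_left hb) ((hS c).resolve_left hc) h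

/-- condition (i) of Sophie Germain's theorem from a list of the `p`-th power residues,
five-element version -/
theorem h1_of_five {p q : ℕ} (hq : q.Prime) (u v : ZMod q)
    (hS : ∀ a : ZMod q, a ^ p = 0 ∨ a ^ p = 1 ∨ a ^ p = -1 ∨ a ^ p = u ∨ a ^ p = v)
    (hsum : ∀ r s t : ZMod q, (r = 1 ∨ r = -1 ∨ r = u ∨ r = v) → (s = 1 ∨ s = -1 ∨ s = u ∨ s = v) →
      (t = 1 ∨ t = -1 ∨ t = u ∨ t = v) → r + s + t ≠ 0) (hp : p ≠ 0) :
    ∀ a b c : ZMod q, a ^ p + b ^ p + c ^ p = 0 → a = 0 ∨ b = 0 ∨ c = 0 := by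
  intro a b c h
  have : Fact q.Prime := Fact.mk hq
  have key : ∀ t : ZMod q, t ^ p = 0 → t = 0 := fun t ht => pow_eq_zero_iff hp |>.mp ht
  by_contra hcon
  have ha : a ^ p ≠ 0 := fun h0 => hcon (Or.inl (key a h0))
  have hb : b ^ p ≠ 0 := fun h0 => hcon (Or.inr (Or.inl (key b h0)))
  have hc : c ^ p ≠ 0 := fun h0 => hcon (Or.inr (Or.inr (key c h0)))
  exact hsum _ _ _ ((hS a).resolve_left ha) ((hS b).resolve_left hb) ((hS c).resolve_left hc) h

theorem five_h1 : ∀ a b c : ZMod 11, a ^ 5 + b ^ 5 + c ^ 5 = 0 → a = 0 ∨ b = 0 ∨ c = 0 :=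
  h1_of_three (by norm_num) (by decide) (by
    rintro r s t (rfl | rfl) (rfl | rfl) (rfl | rfl) <;> decide) (by norm_num)

theorem five_h2 : ∀ a : ZMod 11, a ^ 5 ≠ ((5 : ℕ) : ZMod 11) := by decide

theorem eleven_h1 : ∀ a b c : ZMod 23, a ^ 11 + b ^ 11 + c ^ 11 = 0 → a = 0 ∨ b = 0 ∨ c = 0 :=
  h1_of_three (by norm_num) (by decide) (by
    rintro r s t (rfl | rfl) (rfl | rfl) (rfl | rfl) <;> decide) (by norm_num)

theorem eleven_h2 : ∀ a : ZMod 23, a ^ 11 ≠ ((11 : ℕ) : ZMod 23) := by decide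

theorem seven_h1 : ∀ a b c : ZMod 29, a ^ 7 + b ^ 7 + c ^ 7 = 0 → a = 0 ∨ b = 0 ∨ c = 0 :=
  h1_of_five (by norm_num) 12 17 (by decide) (by
    rintro r s t (rfl | rfl | rfl | rfl) (rfl | rfl | rfl | rfl) (rfl | rfl | rfl | rfl) <;>
      decide) (by norm_num)

theorem seven_h2 : ∀ a : ZMod 29, a ^ 7 ≠ ((7 : ℕ) : ZMod 29) := by decide

theorem thirteen_h1 :
    ∀ a b c : ZMod 53, a ^ 13 + b ^ 13 + c ^ 13 = 0 → a = 0 ∨ b = 0 ∨ c = 0 :=
  h1_of_five (by norm_num) 23 30 (by decide) (by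
    rintro r s t (rfl | rfl | rfl | rfl) (rfl | rfl | rfl | rfl) (rfl | rfl | rfl | rfl) <;>
      decide) (by norm_num)

theorem thirteen_h2 : ∀ a : ZMod 53, a ^ 13 ≠ ((13 : ℕ) : ZMod 53) := by decide

end SophieGermain

open SophieGermain in
/-- **First case of Fermat's Last Theorem for `p = 5, 7, 11, 13`** (coprime form): in a solution
of `x ^ p + y ^ p = z ^ p` with `x, y` coprime, `p` divides one of `x, y, z`. -/
theorem caseI_coprime (p : ℕ) (hp : p = 5 ∨ p = 7 ∨ p = 11 ∨ p = 13) (x y z : ℤ)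
    (hxy : IsCoprime x y) (h : x ^ p + y ^ p = z ^ p) :
    (p : ℤ) ∣ x ∨ (p : ℤ) ∣ y ∨ (p : ℤ) ∣ z := by
  rcases hp with rfl | rfl | rfl | rfl
  · exact dvd_of_aux (q := 11) (by norm_num) (by decide) (by norm_num) five_h1 five_h2 hxy h
  · exact dvd_of_aux (q := 29) (by norm_num) (by decide) (by norm_num) seven_h1 seven_h2 hxy h
  · exact dvd_of_aux (q := 23) (by norm_num) (by decide) (by norm_num) eleven_h1 eleven_h2 hxy h
  · exact dvd_of_aux (q := 53) (by norm_num) (by decide) (by norm_num) thirteen_h1 thirteen_h2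
      hxy h

/-- **First case of Fermat's Last Theorem for `p = 5, 7, 11, 13`**: in any integer solution
of `x ^ p + y ^ p = z ^ p`, `p` divides `x * y * z`. -/
theorem caseI_dvd_mul (p : ℕ) (hp : p = 5 ∨ p = 7 ∨ p = 11 ∨ p = 13) (x y z : ℤ)
    (h : x ^ p + y ^ p = z ^ p) : (p : ℤ) ∣ x * y * z := by
  have hp0 : p ≠ 0 := by rcases hp with rfl | rfl | rfl | rfl <;> norm_num
  by_cases hd : Int.gcd x y = 0
  · rw [Int.gcd_eq_zero_iff] at hd
    rw [hd.1, zero_mul, zero_mul]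
    exact dvd_zero _
  · obtain ⟨x', hx'⟩ := Int.gcd_dvd_left x y
    obtain ⟨y', hy'⟩ := Int.gcd_dvd_right x y
    set d : ℤ := (Int.gcd x y : ℤ) with hd_def
    have hd0 : d ≠ 0 := by
      rw [hd_def]
      exact_mod_cast hd
    have hdz : d ∣ z := by
      rw [← Int.pow_dvd_pow_iff hp0, ← h]
      exact dvd_add (pow_dvd_pow_of_dvd (Int.gcd_dvd_left x y) p)
        (pow_dvd_pow_of_dvd (Int.gcd_dvd_right x y) p)
    obtain ⟨z', hz'⟩ := hdz
    have hcop : IsCoprime x' y' := by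
      rw [Int.isCoprime_iff_gcd_eq_one]
      have h3 : Int.gcd x y = Int.gcd x y * Int.gcd x' y' := by
        conv_lhs => rw [hx', hy', Int.gcd_mul_left]
        simp [hd_def]
      have h4 : 0 < Int.gcd x y := Nat.pos_of_ne_zero hd
      exact (Nat.eq_of_mul_eq_mul_left h4 (by rw [mul_one]; exact h3)).symm
    have h' : x' ^ p + y' ^ p = z' ^ p := by
      have h3 : d ^ p * (x' ^ p + y' ^ p) = d ^ p * z' ^ p := by
        rw [mul_add, ← mul_pow, ← mul_pow, ← mul_pow, ← hx', ← hy', ← hz']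
        exact h
      exact mul_left_cancel₀ (pow_ne_zero p hd0) h3
    rcases caseI_coprime p hp x' y' z' hcop h' with h3 | h3 | h3
    · rw [hx']
      exact Dvd.dvd.mul_right (Dvd.dvd.mul_right (Dvd.dvd.mul_left h3 _) _) _
    · rw [hy']
      exact Dvd.dvd.mul_right (Dvd.dvd.mul_left (Dvd.dvd.mul_left h3 _) _) _
    · rw [hz']
      exact Dvd.dvd.mul_left (Dvd.dvd.mul_left h3 _) _

end Fermat.Agent.FLTSmall
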