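import Mathlib

/-!
# Kummer's descent (Case II of Fermat's Last Theorem) in an abstract principal ideal domain

Let `R` be a principal ideal domain containing a primitive `p`-th root of unity `ζ` (`p` an odd
prime) such that `λ = ζ - 1` is prime, `p` is associated to `λ ^ (p - 1)`, every element of `R` is
congruent to a rational integer modulo `λ`, and Kummer's lemma holds (a unit congruent to a
rational integer modulo `p` is a `p`-th power).  Then the equation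
`x ^ p + y ^ p = ε * λ ^ (p * m) * z ^ p` (`ε` a unit, `m ≥ 1`, `x`, `y` coprime, `λ ∤ x y z`)
has no solution.
-/

namespace Fermat.Agent.FLTSmall

open Finset

namespace DescentCore

section CommRing

variable {R : Type*} [CommRing R] {p : ℕ} {ζ : R}

theorem lam_dvd_p (hp : p.Prime) (hass : Associated (p : R) ((ζ - 1) ^ (p - 1))) :
    (ζ - 1) ∣ (p : R) :=
  (dvd_pow_self _ (by have := hp.two_le; omega)).trans hass.symm.dvd

theorem int_dvd_of_lam_dvd (hp : p.Prime) (hprime : Prime (ζ - 1)) (hlp : (ζ - 1) ∣ (p : R))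
    {n : ℤ} (h : (ζ - 1) ∣ (n : R)) : (p : ℤ) ∣ n := by
  by_contra hn
  have hcop : IsCoprime (p : ℤ) n := (Nat.prime_iff_prime_int.mp hp).coprime_iff_not_dvd.mpr hn
  obtain ⟨a, b, hab⟩ := hcop
  have h1 : (a : R) * (p : R) + (b : R) * (n : R) = 1 := by
    exact_mod_cast congrArg (Int.cast : ℤ → R) hab
  have hd : (ζ - 1) ∣ (a : R) * (p : R) + (b : R) * (n : R) :=
    dvd_add (hlp.mul_left _) (h.mul_left _)
  rw [h1] at hd
  exact hprime.not_dvd_one hd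

theorem lam_dvd_of_int_dvd (hlp : (ζ - 1) ∣ (p : R)) {n : ℤ} (h : (p : ℤ) ∣ n) :
    (ζ - 1) ∣ (n : R) := by
  obtain ⟨k, rfl⟩ := h
  push_cast
  exact hlp.mul_right _

theorem lam_dvd_geom_sub (ζ : R) (i : ℕ) : (ζ - 1) ∣ (∑ k ∈ range i, ζ ^ k) - (i : R) := by
  have e : (∑ k ∈ range i, ζ ^ k) - (i : R) = ∑ k ∈ range i, (ζ ^ k - 1) := by
    simp [Finset.sum_sub_distrib]
  rw [e]
  refine Finset.dvd_sum fun k _ => ?_
  simpa using sub_dvd_pow_sub_pow ζ 1 k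

/-- `x ^ p` is congruent to a rational integer modulo `p`. -/
theorem pow_congr_int (hp : p.Prime) (hass : Associated (p : R) ((ζ - 1) ^ (p - 1)))
    (hres : ∀ x : R, ∃ n : ℤ, (ζ - 1) ∣ x - n) (x : R) : ∃ n : ℤ, (p : R) ∣ x ^ p - n := by
  obtain ⟨n, s, hs⟩ := hres x
  have hx : x = (ζ - 1) * s + n := by linear_combination hs
  have h1 : (p : R) ∣ ((ζ - 1) * s) ^ p := by
    have e : ((ζ - 1) * s) ^ p = (ζ - 1) ^ (p - 1) * ((ζ - 1) * s ^ p) := by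
      have hp1 : p = (p - 1) + 1 := by have := hp.two_le; omega
      rw [mul_pow]
      nth_rewrite 1 [hp1]
      rw [pow_succ]
      ring
    rw [e]
    exact hass.dvd.mul_right _
  have h2 : (p : R) ∣ (p : R) * ((ζ - 1) * s) := dvd_mul_right _ _
  have := hp.dvd_add_pow_sub_pow_of_dvd ((ζ - 1) * s) (n : R) h1 h2
  refine ⟨n ^ p, ?_⟩
  rw [hx]
  push_cast
  exact this

end CommRing

variable {R : Type*} [CommRing R] [IsDomain R]

/-- product formula over `range n` -/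
theorem pow_add_pow_eq_prod_range {ζ : R} {n : ℕ} (hodd : Odd n) (h : IsPrimitiveRoot ζ n)
    (x y : R) : x ^ n + y ^ n = ∏ i ∈ range n, (x + ζ ^ i * y) := by
  have : NeZero n := ⟨hodd.pos.ne'⟩
  rw [h.pow_add_pow_eq_prod_add_mul x y hodd]
  symm
  refine Finset.prod_nbij (fun i => ζ ^ i) ?_ ?_ ?_ (fun _ _ => rfl)
  · intro i _
    rw [Polynomial.mem_nthRootsFinset hodd.pos]
    rw [← pow_mul, mul_comm, pow_mul, h.pow_eq_one, one_pow]
  · intro i hi j hj hij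
    exact h.pow_inj (mem_range.mp hi) (mem_range.mp hj) hij
  · intro μ hμ
    rw [Finset.mem_coe, Polynomial.mem_nthRootsFinset hodd.pos] at hμ
    obtain ⟨i, hi, rfl⟩ := h.eq_pow_of_pow_eq_one hμ
    exact ⟨i, mem_coe.mpr (mem_range.mpr hi), rfl⟩

variable {p : ℕ} {ζ : R}

/-- `λ` divides `x + y` for a solution. -/
theorem lam_dvd_add (hp : p.Prime) (hp2 : p ≠ 2) (hζ : IsPrimitiveRoot ζ p)
    (hprime : Prime (ζ - 1)) {m : ℕ} (hm : 1 ≤ m) {x y z : R} {ε : Rˣ}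
    (H : x ^ p + y ^ p = ε * (ζ - 1) ^ (p * m) * z ^ p) : (ζ - 1) ∣ x + y := by
  have hodd : Odd p := hp.odd_of_ne_two hp2
  have h1 : (ζ - 1) ∣ ∏ i ∈ range p, (x + ζ ^ i * y) := by
    rw [← pow_add_pow_eq_prod_range hodd hζ, H]
    have hpm : p * m ≠ 0 := Nat.mul_ne_zero hp.ne_zero (by omega)
    exact Dvd.dvd.mul_right (Dvd.dvd.mul_left (dvd_pow_self _ hpm) _) _
  obtain ⟨i, -, hi⟩ := hprime.exists_mem_finset_dvd h1
  have h2 : (ζ - 1) ∣ (ζ ^ i - 1) * y :=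
    Dvd.dvd.mul_right (by simpa using sub_dvd_pow_sub_pow ζ 1 i) y
  have e : x + y = (x + ζ ^ i * y) - (ζ ^ i - 1) * y := by ring
  rw [e]
  exact dvd_sub hi h2

omit [IsDomain R] in
/-- After multiplying `y` by a suitable power of `ζ`, `λ ^ 2` divides `x + y`. -/
theorem exists_sq_dvd (hp : p.Prime) (hlp : (ζ - 1) ∣ (p : R))
    (hres : ∀ x : R, ∃ n : ℤ, (ζ - 1) ∣ x - n) {x y : R} (hxy : (ζ - 1) ∣ x + y)
    (hy : ¬ (ζ - 1) ∣ y) : ∃ i : ℕ, (ζ - 1) ^ 2 ∣ x + ζ ^ i * y := by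
  obtain ⟨t, ht⟩ := hxy
  obtain ⟨a, ha⟩ := hres t
  obtain ⟨b, hb⟩ := hres y
  have hpb : ¬ (p : ℤ) ∣ b := by
    intro h
    apply hy
    have h1 : (ζ - 1) ∣ (b : R) := lam_dvd_of_int_dvd hlp h
    have h2 := dvd_add hb h1
    simpa using h2
  have : Fact p.Prime := ⟨hp⟩
  have hb0 : (b : ZMod p) ≠ 0 := by rwa [Ne, ZMod.intCast_zmod_eq_zero_iff_dvd]
  obtain ⟨i, hi⟩ : ∃ i : ℕ, (i : ZMod p) = (-(a : ZMod p)) * (b : ZMod p)⁻¹ :=
    ⟨((-(a : ZMod p)) * (b : ZMod p)⁻¹).val, ZMod.natCast_zmod_val _⟩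
  have hdvd : (p : ℤ) ∣ a + i * b := by
    rw [← ZMod.intCast_zmod_eq_zero_iff_dvd]
    push_cast
    rw [hi]
    field_simp
    ring
  refine ⟨i, ?_⟩
  have hg : (ζ - 1) * ∑ k ∈ range i, ζ ^ k = ζ ^ i - 1 := mul_geom_sum ζ i
  have e : x + ζ ^ i * y = (ζ - 1) * (t + (∑ k ∈ range i, ζ ^ k) * y) := by
    linear_combination ht - y * hg
  rw [e, pow_two]
  apply mul_dvd_mul_left
  have h3 : (ζ - 1) ∣ ((a + i * b : ℤ) : R) := lam_dvd_of_int_dvd hlp hdvd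
  have h4 := lam_dvd_geom_sub ζ i
  have e2 : t + (∑ k ∈ range i, ζ ^ k) * y =
      (t - a) + ((∑ k ∈ range i, ζ ^ k) - i) * y + i * (y - b) + ((a + i * b : ℤ) : R) := by
    push_cast; ring
  rw [e2]
  exact dvd_add (dvd_add (dvd_add ha (h4.mul_right _)) (hb.mul_left _)) h3

/-- The quotients by `λ` of two distinct factors are coprime. -/
theorem isCoprime_quot (hp : p.Prime) (hζ : IsPrimitiveRoot ζ p) {x y a b : R}
    (hxy : IsCoprime x y) {i j : ℕ} (hij : i < j) (hj : j < p)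
    (ha : x + ζ ^ i * y = (ζ - 1) * a) (hb : x + ζ ^ j * y = (ζ - 1) * b) : IsCoprime a b := by
  have hlam : ζ - 1 ≠ 0 := sub_ne_zero.mpr (hζ.ne_one hp.one_lt)
  obtain ⟨k, hk⟩ : ∃ k, j = i + k := ⟨j - i, by omega⟩
  have hk0 : 0 < k := by omega
  have hkp : k < p := by omega
  have hcop : k.Coprime p := (Nat.coprime_of_lt_prime hk0.ne' hkp hp).symm
  have hgu : IsUnit (∑ l ∈ range k, ζ ^ l) := hζ.geom_sum_isUnit hp.two_le hcop
  have hζu : IsUnit ζ := hζ.isUnit hp.ne_zero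
  have hg : (ζ - 1) * ∑ l ∈ range k, ζ ^ l = ζ ^ k - 1 := mul_geom_sum ζ k
  set g := ∑ l ∈ range k, ζ ^ l with hgdef
  have hu : IsUnit (ζ ^ i * g) := (hζu.pow i).mul hgu
  -- `u * y = b - a` and `u * x = ζ ^ j * a - ζ ^ i * b`
  have e1 : ζ ^ i * g * y = b - a := by
    apply mul_left_cancel₀ hlam
    rw [hk, pow_add] at hb
    linear_combination hb - ha + ζ ^ i * y * hg
  have e2 : ζ ^ i * g * x = ζ ^ j * a - ζ ^ i * b := by
    apply mul_left_cancel₀ hlam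
    rw [hk, pow_add] at hb ⊢
    linear_combination ζ ^ i * ζ ^ k * ha - ζ ^ i * hb + ζ ^ i * x * hg
  have h1 : IsCoprime (ζ ^ i * g * x) (ζ ^ i * g * y) :=
    (isCoprime_mul_unit_left hu x y).mpr hxy
  rw [e1, e2] at h1
  obtain ⟨r, s, hrs⟩ := h1
  exact ⟨r * ζ ^ j - s, s - r * ζ ^ i, by linear_combination hrs⟩


/-- The descent step, assuming `λ ^ 2 ∣ x + y`. -/
theorem step_aux [IsPrincipalIdealRing R] (hp : p.Prime) (hp2 : p ≠ 2)
    (hζ : IsPrimitiveRoot ζ p) (hprime : Prime (ζ - 1))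
    (hass : Associated (p : R) ((ζ - 1) ^ (p - 1)))
    (hres : ∀ x : R, ∃ n : ℤ, (ζ - 1) ∣ x - n)
    (hK : ∀ u : Rˣ, (∃ n : ℤ, (p : R) ∣ (u : R) - n) → ∃ v : Rˣ, u = v ^ p)
    {m : ℕ} (hm : 1 ≤ m) {x y z : R} {ε : Rˣ} (hxy : IsCoprime x y)
    (hy : ¬ (ζ - 1) ∣ y) (hz : ¬ (ζ - 1) ∣ z) (hsq : (ζ - 1) ^ 2 ∣ x + y)
    (H : x ^ p + y ^ p = ε * (ζ - 1) ^ (p * m) * z ^ p) :
    2 ≤ m ∧ ∃ (x' y' z' : R) (ε' : Rˣ), IsCoprime x' y' ∧ ¬ (ζ - 1) ∣ x' ∧ ¬ (ζ - 1) ∣ y' ∧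
      ¬ (ζ - 1) ∣ z' ∧ x' ^ p + y' ^ p = ε' * (ζ - 1) ^ (p * (m - 1)) * z' ^ p := by
  have hodd : Odd p := hp.odd_of_ne_two hp2
  have hp3 : 3 ≤ p := by have := hp.two_le; omega
  have hlam : ζ - 1 ≠ 0 := hprime.ne_zero
  have hlp := lam_dvd_p hp hass
  obtain ⟨w, hw⟩ := hsq
  -- the geometric sums
  obtain ⟨g, hgdef⟩ : ∃ g : ℕ → R, ∀ i, g i = ∑ k ∈ range i, ζ ^ k := ⟨_, fun _ => rfl⟩
  have hg : ∀ i, (ζ - 1) * g i = ζ ^ i - 1 := fun i => by rw [hgdef]; exact mul_geom_sum ζ i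
  have hgu : ∀ i, 0 < i → i < p → IsUnit (g i) := fun i h0 hi => by
    rw [hgdef]
    exact hζ.geom_sum_isUnit hp.two_le (Nat.coprime_of_lt_prime h0.ne' hi hp).symm
  -- the quotients
  obtain ⟨B, hBdef⟩ : ∃ B : ℕ → R, ∀ i, B i = (ζ - 1) * w + g i * y := ⟨_, fun _ => rfl⟩
  have hF : ∀ i, x + ζ ^ i * y = (ζ - 1) * B i := by
    intro i
    rw [hBdef]
    linear_combination hw - y * hg i
  have hBnd : ∀ i, 0 < i → i < p → ¬ (ζ - 1) ∣ B i := by
    intro i h0 hi hd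
    have h1 : (ζ - 1) ∣ g i * y := by
      have h2 := dvd_sub hd (dvd_mul_right (ζ - 1) w)
      rw [hBdef] at h2
      simpa using h2
    rcases hprime.dvd_or_dvd h1 with h | h
    · exact hprime.not_isUnit (isUnit_of_dvd_unit h (hgu i h0 hi))
    · exact hy h
  -- the product formula
  have hprod : ∏ i ∈ range p, (x + ζ ^ i * y) = ε * (ζ - 1) ^ (p * m) * z ^ p := by
    rw [← pow_add_pow_eq_prod_range hodd hζ, H]
  have h0mem : 0 ∈ range p := mem_range.mpr hp.pos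
  obtain ⟨PB, hPBdef⟩ : ∃ PB : R, PB = ∏ i ∈ (range p).erase 0, B i := ⟨_, rfl⟩
  have hPBnd : ¬ (ζ - 1) ∣ PB := by
    intro hd
    rw [hPBdef] at hd
    obtain ⟨i, hi, hdi⟩ := hprime.exists_mem_finset_dvd hd
    rw [mem_erase, mem_range] at hi
    exact hBnd i (Nat.pos_of_ne_zero hi.1) hi.2 hdi
  have hprod2 : (x + y) * ((ζ - 1) ^ (p - 1) * PB) = ε * (ζ - 1) ^ (p * m) * z ^ p := by
    rw [← hprod, ← Finset.mul_prod_erase _ _ h0mem]
    congr 1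
    · simp
    · rw [hPBdef, Finset.prod_congr rfl (fun i _ => hF i), Finset.prod_mul_distrib,
        Finset.prod_const, Finset.card_erase_of_mem h0mem, Finset.card_range]
  have hexp : p * m = (p - 1) + (p * (m - 1) + 1) := by
    obtain ⟨m', rfl⟩ : ∃ m', m = m' + 1 := ⟨m - 1, by omega⟩
    have h2 := hp.two_le
    rw [Nat.add_sub_cancel, Nat.mul_succ]
    omega
  have hprod3 : (x + y) * PB = ε * (ζ - 1) ^ (p * (m - 1) + 1) * z ^ p := by
    apply mul_left_cancel₀ (pow_ne_zero (p - 1) hlam)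
    rw [hexp, pow_add] at hprod2
    linear_combination hprod2
  have hdvd : (ζ - 1) ^ (p * (m - 1) + 1) ∣ x + y :=
    hprime.pow_dvd_of_dvd_mul_right _ hPBnd ⟨ε * z ^ p, by rw [hprod3]; ring⟩
  obtain ⟨B0, hB0⟩ := hdvd
  have hB0PB : B0 * PB = ε * z ^ p := by
    apply mul_left_cancel₀ (pow_ne_zero (p * (m - 1) + 1) hlam)
    rw [hB0] at hprod3
    linear_combination hprod3
  have hB0nd : ¬ (ζ - 1) ∣ B0 := by
    intro hd
    have h1 : (ζ - 1) ∣ (ε : R) * z ^ p := hB0PB ▸ hd.mul_right PB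
    have h2 : (ζ - 1) ∣ z ^ p := (Units.dvd_mul_left).mp h1
    exact hz (hprime.dvd_of_dvd_pow h2)
  -- `m ≥ 2`
  have hm2 : 2 ≤ m := by
    by_contra hlt
    have hm1 : m = 1 := by omega
    rw [hm1] at hB0
    simp only [Nat.sub_self, mul_zero, zero_add, pow_one] at hB0
    apply hB0nd
    refine ⟨w, mul_left_cancel₀ hlam ?_⟩
    rw [← hB0, hw]
    ring
  -- coprimality
  have hB00 : B 0 = (ζ - 1) ^ (p * (m - 1)) * B0 := by
    apply mul_left_cancel₀ hlam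
    have h1 := hF 0
    rw [pow_zero, one_mul, hB0] at h1
    rw [← h1]
    ring
  have hcopB : ∀ i j, i < j → j < p → IsCoprime (B i) (B j) := fun i j hij hj =>
    isCoprime_quot hp hζ hxy hij hj (hF i) (hF j)
  have hcop0 : ∀ j, 0 < j → j < p → IsCoprime B0 (B j) := by
    intro j h0 hj
    have h1 := hcopB 0 j h0 hj
    rw [hB00] at h1
    exact h1.of_mul_left_right
  obtain ⟨B', hB'0, hB'pos⟩ : ∃ B' : ℕ → R, B' 0 = B0 ∧ ∀ i, i ≠ 0 → B' i = B i :=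
    ⟨fun i => if i = 0 then B0 else B i, by simp, fun i hi => by simp [hi]⟩
  have hcop' : ∀ i ∈ range p, ∀ j ∈ range p, i ≠ j → IsCoprime (B' i) (B' j) := by
    intro i hi j hj hij
    rw [mem_range] at hi hj
    rcases Nat.eq_zero_or_pos i with rfl | hi0
    · rw [hB'0, hB'pos j (Ne.symm hij)]
      exact hcop0 j (Nat.pos_of_ne_zero (Ne.symm hij)) hj
    · rcases Nat.eq_zero_or_pos j with rfl | hj0
      · rw [hB'0, hB'pos i hi0.ne']
        exact (hcop0 i hi0 hi).symm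
      · rw [hB'pos i hi0.ne', hB'pos j hj0.ne']
        rcases lt_or_gt_of_ne hij with h | h
        · exact hcopB i j h hj
        · exact (hcopB j i h hi).symm
  have hprod' : ∏ i ∈ range p, B' i = ε * z ^ p := by
    rw [← Finset.mul_prod_erase _ _ h0mem, hB'0, ← hB0PB, hPBdef]
    congr 1
    exact Finset.prod_congr rfl fun i hi => hB'pos i (ne_of_mem_erase hi)
  have hpow : ∀ i ∈ range p, ∃ d : R, Associated (d ^ p) (B' i) := by
    intro i hi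
    refine exists_associated_pow_of_associated_pow_mul (c := z)
      (IsCoprime.prod_right (fun j hj => hcop' i hi j (mem_of_mem_erase hj)
        (ne_of_mem_erase hj).symm)) ?_
    rw [Finset.mul_prod_erase _ _ hi, hprod']
    exact ⟨ε, by ring⟩
  have h1mem : 1 ∈ range p := mem_range.mpr (by omega)
  have hpmem : p - 1 ∈ range p := mem_range.mpr (by omega)
  obtain ⟨ρ0, u0, h0⟩ := hpow 0 h0mem
  obtain ⟨ρ1, u1, h1⟩ := hpow 1 h1mem
  obtain ⟨ρ2, u2, h2⟩ := hpow (p - 1) hpmem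
  rw [hB'0] at h0
  rw [hB'pos 1 one_ne_zero] at h1
  rw [hB'pos (p - 1) (by omega)] at h2
  -- the linear relation
  have hζp : ζ * ζ ^ (p - 1) = 1 := by
    rw [← pow_succ', Nat.sub_add_cancel hp.pos, hζ.pow_eq_one]
  have hrel : B 1 + ζ * B (p - 1) = (1 + ζ) * (ζ - 1) ^ (p * (m - 1)) * B0 := by
    apply mul_left_cancel₀ hlam
    have e1 := hF 1
    have e2 := hF (p - 1)
    rw [pow_one] at e1
    have e3 : (x + ζ * y) + ζ * (x + ζ ^ (p - 1) * y) = (1 + ζ) * (x + y) := by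
      linear_combination y * hζp
    rw [e1, e2, hB0] at e3
    linear_combination e3
  -- the units
  obtain ⟨ζu, hζu⟩ := hζ.isUnit hp.ne_zero
  have h2cop : Nat.Coprime 2 p := (Nat.coprime_primes Nat.prime_two hp).mpr (Ne.symm hp2)
  obtain ⟨su, hsu⟩ := hζ.geom_sum_isUnit hp.two_le h2cop
  have hsu' : (su : R) = 1 + ζ := by rw [hsu]; simp [Finset.sum_range_succ]
  obtain ⟨η, hη⟩ : ∃ η : Rˣ, η = u1⁻¹ * ζu * u2 := ⟨_, rfl⟩
  obtain ⟨ε', hε'⟩ : ∃ ε' : Rˣ, ε' = u1⁻¹ * su * u0 := ⟨_, rfl⟩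
  have hkey : ρ1 ^ p + (η : R) * ρ2 ^ p = ε' * (ζ - 1) ^ (p * (m - 1)) * ρ0 ^ p := by
    rw [← h1, ← h2, ← h0] at hrel
    have hu1 : ((u1⁻¹ : Rˣ) : R) * (u1 : R) = 1 := by rw [← Units.val_mul]; simp
    rw [hη, hε']
    simp only [Units.val_mul, hζu, hsu']
    linear_combination ((u1⁻¹ : Rˣ) : R) * hrel - (ρ1 ^ p) * hu1
  -- Kummer's lemma applies to `η`
  have hpdvd : (p : R) ∣ (ζ - 1) ^ (p * (m - 1)) := by
    refine hass.dvd.trans (pow_dvd_pow _ ?_)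
    have h3 : 1 ≤ m - 1 := by omega
    calc p - 1 ≤ p := Nat.sub_le _ _
      _ = p * 1 := (mul_one p).symm
      _ ≤ p * (m - 1) := Nat.mul_le_mul_left p h3
  obtain ⟨a, ha⟩ := pow_congr_int hp hass hres ρ1
  obtain ⟨b, hb⟩ := pow_congr_int hp hass hres ρ2
  have hρ2 : ¬ (ζ - 1) ∣ ρ2 := by
    intro hd
    apply hBnd (p - 1) (by omega) (by omega)
    rw [← h2]
    exact (hd.pow hp.ne_zero).mul_right _
  have hpb : ¬ (p : ℤ) ∣ b := by
    intro hd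
    apply hρ2
    apply hprime.dvd_of_dvd_pow (n := p)
    have h3 : (ζ - 1) ∣ (b : R) := lam_dvd_of_int_dvd hlp hd
    have h4 : (ζ - 1) ∣ ρ2 ^ p - b := hlp.trans hb
    have h5 := dvd_add h4 h3
    simpa using h5
  obtain ⟨s, c, hsc⟩ : IsCoprime (p : ℤ) b :=
    (Nat.prime_iff_prime_int.mp hp).coprime_iff_not_dvd.mpr hpb
  have hsc' : (s : R) * (p : R) + (c : R) * (b : R) = 1 := by
    exact_mod_cast congrArg (Int.cast : ℤ → R) hsc
  have hηint : (p : R) ∣ (η : R) - ((-(a * c) : ℤ) : R) := by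
    have h5 : (p : R) ∣ ρ1 ^ p + (η : R) * ρ2 ^ p := by
      rw [hkey]
      exact (hpdvd.mul_left _).mul_right _
    obtain ⟨k1, hk1⟩ := ha
    obtain ⟨k2, hk2⟩ := hb
    obtain ⟨k5, hk5⟩ := h5
    refine ⟨(k5 - k1 - η * k2) * c + η * s, ?_⟩
    push_cast
    linear_combination (c : R) * hk5 - (c : R) * hk1 - (η : R) * (c : R) * hk2 - (η : R) * hsc'
  obtain ⟨v, hv⟩ := hK η ⟨-(a * c), hηint⟩
  have hv' : (η : R) = (v : R) ^ p := by rw [hv]; simp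
  refine ⟨hm2, ρ1, v * ρ2, ρ0, ε', ?_, ?_, ?_, ?_, ?_⟩
  · have hc := hcopB 1 (p - 1) (by omega) (by omega)
    rw [← h1, ← h2] at hc
    have hc2 : IsCoprime (ρ1 ^ p) (ρ2 ^ p) :=
      (isCoprime_mul_unit_right_left u1.isUnit _ _).mp
        ((isCoprime_mul_unit_right_right u2.isUnit _ _).mp hc)
    have hc3 : IsCoprime ρ1 ρ2 := (IsCoprime.pow_iff hp.pos hp.pos).mp hc2
    exact (isCoprime_mul_unit_left_right v.isUnit _ _).mpr hc3
  · intro hd
    apply hBnd 1 one_pos (by omega)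
    rw [← h1]
    exact (hd.pow hp.ne_zero).mul_right _
  · intro hd
    exact hρ2 ((Units.dvd_mul_left).mp hd)
  · intro hd
    apply hB0nd
    rw [← h0]
    exact (hd.pow hp.ne_zero).mul_right _
  · rw [mul_pow, ← hv']
    exact hkey


/-- The descent step. -/
theorem step [IsPrincipalIdealRing R] (hp : p.Prime) (hp2 : p ≠ 2)
    (hζ : IsPrimitiveRoot ζ p) (hprime : Prime (ζ - 1))
    (hass : Associated (p : R) ((ζ - 1) ^ (p - 1)))
    (hres : ∀ x : R, ∃ n : ℤ, (ζ - 1) ∣ x - n)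
    (hK : ∀ u : Rˣ, (∃ n : ℤ, (p : R) ∣ (u : R) - n) → ∃ v : Rˣ, u = v ^ p)
    {m : ℕ} (hm : 1 ≤ m) {x y z : R} {ε : Rˣ} (hxy : IsCoprime x y)
    (hy : ¬ (ζ - 1) ∣ y) (hz : ¬ (ζ - 1) ∣ z)
    (H : x ^ p + y ^ p = ε * (ζ - 1) ^ (p * m) * z ^ p) :
    2 ≤ m ∧ ∃ (x' y' z' : R) (ε' : Rˣ), IsCoprime x' y' ∧ ¬ (ζ - 1) ∣ x' ∧ ¬ (ζ - 1) ∣ y' ∧
      ¬ (ζ - 1) ∣ z' ∧ x' ^ p + y' ^ p = ε' * (ζ - 1) ^ (p * (m - 1)) * z' ^ p := by
  have hlp := lam_dvd_p hp hass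
  have hadd := lam_dvd_add hp hp2 hζ hprime hm H
  obtain ⟨i, hi⟩ := exists_sq_dvd hp hlp hres hadd hy
  have hζu : IsUnit (ζ ^ i) := (hζ.isUnit hp.ne_zero).pow i
  have hζi : (ζ ^ i) ^ p = 1 := by rw [← pow_mul, mul_comm, pow_mul, hζ.pow_eq_one, one_pow]
  refine step_aux hp hp2 hζ hprime hass hres hK hm (y := ζ ^ i * y) (ε := ε)
    ((isCoprime_mul_unit_left_right hζu _ _).mpr hxy) ?_ hz hi ?_
  · intro hd
    exact hy (hζu.dvd_mul_left.mp hd)
  · rw [mul_pow, hζi, one_mul]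
    exact H

end DescentCore

open DescentCore in
/-- **Kummer's descent.**  In a principal ideal domain `R` containing a primitive `p`-th root of
unity `ζ` (`p` an odd prime) such that `ζ - 1` is prime, `p` is associated to `(ζ - 1) ^ (p - 1)`,
every element is congruent to a rational integer modulo `ζ - 1`, and every unit congruent to a
rational integer modulo `p` is a `p`-th power, the equation
`x ^ p + y ^ p = ε * (ζ - 1) ^ (p * m) * z ^ p` has no solution with `m ≥ 1`, `x`, `y` coprime and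
`y`, `z` prime to `ζ - 1`. -/
theorem descent_core {R : Type*} [CommRing R] [IsDomain R] [IsPrincipalIdealRing R] {p : ℕ}
    (hp : p.Prime) (hp2 : p ≠ 2) {ζ : R} (hζ : IsPrimitiveRoot ζ p) (hprime : Prime (ζ - 1))
    (hass : Associated (p : R) ((ζ - 1) ^ (p - 1)))
    (hres : ∀ x : R, ∃ n : ℤ, (ζ - 1) ∣ x - n)
    (hK : ∀ u : Rˣ, (∃ n : ℤ, (p : R) ∣ (u : R) - n) → ∃ v : Rˣ, u = v ^ p) :
    ∀ (m : ℕ) (x y z : R) (ε : Rˣ), 1 ≤ m → IsCoprime x y → ¬ (ζ - 1) ∣ y → ¬ (ζ - 1) ∣ z →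
      x ^ p + y ^ p ≠ ε * (ζ - 1) ^ (p * m) * z ^ p := by
  intro m
  induction m with
  | zero => intro x y z ε hm; omega
  | succ k ih =>
    intro x y z ε hm hxy hy hz H
    obtain ⟨h2, x', y', z', ε', hxy', -, hy', hz', H'⟩ :=
      step hp hp2 hζ hprime hass hres hK hm hxy hy hz H
    rw [Nat.add_sub_cancel] at H'
    exact ih x' y' z' ε' (by omega) hxy' hy' hz' H'

open DescentCore in
/-- **Case II of Fermat's Last Theorem** for an odd prime `p`, given a principal ideal domain `R`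
as in `descent_core`: there are no coprime integers `a`, `b` and nonzero `c` divisible by `p`
with `a ^ p + b ^ p = c ^ p`. -/
theorem caseII_int {R : Type*} [CommRing R] [IsDomain R] [IsPrincipalIdealRing R] {p : ℕ}
    (hp : p.Prime) (hp2 : p ≠ 2) {ζ : R} (hζ : IsPrimitiveRoot ζ p) (hprime : Prime (ζ - 1))
    (hass : Associated (p : R) ((ζ - 1) ^ (p - 1)))
    (hres : ∀ x : R, ∃ n : ℤ, (ζ - 1) ∣ x - n)
    (hK : ∀ u : Rˣ, (∃ n : ℤ, (p : R) ∣ (u : R) - n) → ∃ v : Rˣ, u = v ^ p)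
    (a b c : ℤ) (hab : IsCoprime a b) (hc : c ≠ 0) (hpc : (p : ℤ) ∣ c) :
    a ^ p + b ^ p ≠ c ^ p := by
  intro H
  have hlp := lam_dvd_p hp hass
  have hpZ : Prime (p : ℤ) := Nat.prime_iff_prime_int.mp hp
  have hpb : ¬ (p : ℤ) ∣ b := by
    intro hd
    have h1 : (p : ℤ) ∣ a ^ p := by
      have e : a ^ p = c ^ p - b ^ p := by linarith
      rw [e]
      exact dvd_sub (dvd_pow hpc hp.ne_zero) (dvd_pow hd hp.ne_zero)
    have h2 := hpZ.dvd_of_dvd_pow h1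
    exact hpZ.not_isUnit (hab.isUnit_of_dvd' h2 hd)
  -- `c = p ^ k * c0`
  obtain ⟨k, c0, hc0, hck⟩ : ∃ (k : ℕ) (c0 : ℤ), ¬ (p : ℤ) ∣ c0 ∧ c = (p : ℤ) ^ k * c0 := by
    have hfin : FiniteMultiplicity (p : ℤ) c :=
      FiniteMultiplicity.of_not_isUnit hpZ.not_isUnit hc
    obtain ⟨c0, h1, h2⟩ := hfin.exists_eq_pow_mul_and_not_dvd
    exact ⟨_, c0, h2, h1⟩
  have hk : 1 ≤ k := by
    by_contra h
    have hk0 : k = 0 := by omega
    rw [hk0, pow_zero, one_mul] at hck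
    exact hc0 (hck ▸ hpc)
  obtain ⟨u, hu⟩ := hass
  have hpR : (p : R) = ((u⁻¹ : Rˣ) : R) * (ζ - 1) ^ (p - 1) := by
    rw [← hu]
    have hu1 : ((u⁻¹ : Rˣ) : R) * (u : R) = 1 := by rw [← Units.val_mul]; simp
    linear_combination (-(p : R)) * hu1
  refine descent_core hp hp2 hζ hprime ⟨u, hu⟩ hres hK ((p - 1) * k) (a : R) (b : R) (c0 : R)
    (u⁻¹ ^ (k * p)) ?_ ?_ ?_ ?_ ?_
  · exact Nat.mul_pos (by have := hp.two_le; omega) hk
  · exact hab.intCast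
  · exact fun h => hpb (int_dvd_of_lam_dvd hp hprime hlp h)
  · exact fun h => hc0 (int_dvd_of_lam_dvd hp hprime hlp h)
  · have h1 := congrArg (Int.cast : ℤ → R) H
    push_cast at h1
    rw [h1, hck]
    push_cast
    rw [hpR]
    ring

end Fermat.Agent.FLTSmall
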