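import Mathlib
import Fermat.Agent.FLTSmall.Defs
import Fermat.Agent.FLTSmall.DescentCore

/-!
# Case II of Fermat's Last Theorem for a regular prime with class number one

We instantiate the abstract Kummer descent of `DescentCore.lean` with the ring of integers of the
`p`-th cyclotomic field: if `𝓞 K` is a principal ideal ring and Kummer's lemma `KL p K` holds,
then `a ^ p + b ^ p = c ^ p` has no solution with `a`, `b` coprime, `c ≠ 0` and `p ∣ c`.
-/

set_option autoImplicit false

namespace Fermat.Agent.FLTSmall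

open NumberField

/-- Every element of the ring of integers of the `p`-th cyclotomic field is congruent to a
rational integer modulo `ζ - 1`. -/
theorem exists_int_sub_dvd_zeta_sub_one (p : ℕ) [hp : Fact p.Prime] (K : Type*) [Field K]
    [NumberField K] [IsCyclotomicExtension {p} ℚ K] {ζ : K} (hζ : IsPrimitiveRoot ζ p)
    (x : 𝓞 K) : ∃ n : ℤ, (hζ.toInteger - 1) ∣ x - (n : 𝓞 K) := by
  have hcard : Nat.card (𝓞 K ⧸ Ideal.span {hζ.toInteger - 1}) = p := by
    rw [← Submodule.cardQuot_apply, ← Ideal.absNorm_apply]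
    have hK : IsCyclotomicExtension {p ^ (0 + 1)} ℚ K := by
      simpa using ‹IsCyclotomicExtension {p} ℚ K›
    have hζ' : IsPrimitiveRoot ζ (p ^ (0 + 1)) := by simpa using hζ
    exact IsCyclotomicExtension.Rat.absNorm_span_zeta_sub_one p 0 hζ'
  have hfin : Finite (𝓞 K ⧸ Ideal.span {hζ.toInteger - 1}) :=
    hζ.finite_quotient_toInteger_sub_one hp.out.one_lt
  let g : Fin p → 𝓞 K ⧸ Ideal.span {hζ.toInteger - 1} :=
    fun i => Ideal.Quotient.mk _ (((i : ℕ) : ℤ) : 𝓞 K)
  have hg : Function.Injective g := by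
    intro i j hij
    have h1 : (hζ.toInteger - 1) ∣ ((((i : ℕ) : ℤ) - ((j : ℕ) : ℤ) : ℤ) : 𝓞 K) := by
      rw [← Ideal.mem_span_singleton, ← Ideal.Quotient.eq_zero_iff_mem, Int.cast_sub, map_sub,
        sub_eq_zero]
      exact hij
    rw [IsCyclotomicExtension.Rat.zeta_sub_one_dvd_intCast_iff' p hζ] at h1
    have hi := i.2
    have hj := j.2
    obtain ⟨t, ht⟩ := h1
    have ht0 : t = 0 := by
      by_contra hne
      rcases lt_or_gt_of_ne hne with hlt | hgt
      · have : t ≤ -1 := by omega
        nlinarith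
      · have : 1 ≤ t := by omega
        nlinarith
    rw [ht0, mul_zero] at ht
    exact Fin.ext (by omega)
  have hbij : Function.Bijective g := by
    rw [Nat.bijective_iff_injective_and_card]
    exact ⟨hg, by rw [hcard]; simp⟩
  obtain ⟨i, hi⟩ := hbij.2 (Ideal.Quotient.mk _ x)
  refine ⟨((i : ℕ) : ℤ), ?_⟩
  rw [← Ideal.mem_span_singleton, ← Ideal.Quotient.eq_zero_iff_mem, map_sub, sub_eq_zero]
  exact hi.symm

/-- Every element of the ring of integers of the `p`-th cyclotomic field is congruent to a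
rational integer modulo `ζ - 1`, for `ζ` the chosen primitive root. -/
theorem exists_int_sub_dvd (p : ℕ) [Fact p.Prime] (K : Type*) [Field K] [NumberField K]
    [IsCyclotomicExtension {p} ℚ K] (x : 𝓞 K) :
    ∃ n : ℤ, ((IsCyclotomicExtension.zeta_spec p ℚ K).toInteger - 1) ∣ x - (n : 𝓞 K) :=
  exists_int_sub_dvd_zeta_sub_one p K (IsCyclotomicExtension.zeta_spec p ℚ K) x

/-- The `p`-th power of an element of the ring of integers of the `p`-th cyclotomic field is
congruent to a rational integer modulo `p`. -/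
theorem exists_int_pow_sub_dvd (p : ℕ) [hp : Fact p.Prime] (K : Type*) [Field K] [NumberField K]
    [IsCyclotomicExtension {p} ℚ K] (x : 𝓞 K) :
    ∃ n : ℤ, ((p : ℕ) : 𝓞 K) ∣ x ^ p - (n : 𝓞 K) := by
  have hζ := IsCyclotomicExtension.zeta_spec p ℚ K
  exact DescentCore.pow_congr_int (ζ := hζ.toInteger) hp.out
    (IsCyclotomicExtension.Rat.associated_zeta_sub_one_pow_prime p hζ).symm
    (exists_int_sub_dvd_zeta_sub_one p K hζ) x

/-- **Case II of Fermat's Last Theorem** for an odd prime `p` such that the ring of integers of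
the `p`-th cyclotomic field is principal and Kummer's lemma holds. -/
theorem caseII (p : ℕ) [Fact p.Prime] (hp2 : p ≠ 2) (K : Type*) [Field K] [NumberField K]
    [IsCyclotomicExtension {p} ℚ K] [IsPrincipalIdealRing (𝓞 K)] (hKL : KL p K) {a b c : ℤ}
    (hab : IsCoprime a b) (hc : c ≠ 0) (hpc : (p : ℤ) ∣ c) (h : a ^ p + b ^ p = c ^ p) :
    False := by
  have hζ := IsCyclotomicExtension.zeta_spec p ℚ K
  exact caseII_int (R := 𝓞 K) (ζ := hζ.toInteger) (Fact.out : p.Prime) hp2
    hζ.toInteger_isPrimitiveRoot hζ.zeta_sub_one_prime'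
    (IsCyclotomicExtension.Rat.associated_zeta_sub_one_pow_prime p hζ).symm
    (exists_int_sub_dvd_zeta_sub_one p K hζ) hKL a b c hab hc hpc h

end Fermat.Agent.FLTSmall
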