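import Mathlib

/-!
# Index of the `p`-th powers in the unit group of a cyclotomic field

For `p` an odd prime and `K = ℚ(ζ_p)`, Dirichlet's unit theorem gives
`[E : E ^ p] ≤ p ^ ((p - 1) / 2)` where `E = (𝓞 K)ˣ`.  As a consequence, a homomorphism
`D : E → V` into a group of exponent `p` whose image has at least `p ^ ((p - 1) / 2)` elements
has kernel exactly `E ^ p`.
-/

set_option autoImplicit false

open NumberField NumberField.Units

namespace Fermat.Agent.FLTSmall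

namespace UnitIndex

/-- Euclidean division of the exponent. -/
theorem zpow_eq_pow_mul_pow {G : Type*} [CommGroup G] (p : ℕ) (hp : p ≠ 0) (g : G) (n : ℤ) :
    g ^ n = g ^ (n % (p : ℤ)).toNat * (g ^ (n / (p : ℤ))) ^ p := by
  have hp0 : (p : ℤ) ≠ 0 := by exact_mod_cast hp
  have h1 : 0 ≤ n % (p : ℤ) := Int.emod_nonneg _ hp0
  have h2 : n = ((n % (p : ℤ)).toNat : ℤ) + (n / (p : ℤ)) * (p : ℤ) := by
    rw [Int.toNat_of_nonneg h1]
    have := Int.emod_add_mul_ediv n (p : ℤ)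
    linarith [mul_comm (p : ℤ) (n / (p : ℤ))]
  conv_lhs => rw [h2]
  rw [zpow_add, zpow_natCast, zpow_mul, zpow_natCast]

theorem toNat_emod_lt (p : ℕ) (hp : p ≠ 0) (n : ℤ) : (n % (p : ℤ)).toNat < p := by
  have hp0 : (p : ℤ) ≠ 0 := by exact_mod_cast hp
  have hpos : (0 : ℤ) < p := by exact_mod_cast Nat.pos_of_ne_zero hp
  have h1 : 0 ≤ n % (p : ℤ) := Int.emod_nonneg _ hp0
  have h2 : n % (p : ℤ) < p := Int.emod_lt_of_pos _ hpos
  have h3 : ((n % (p : ℤ)).toNat : ℤ) < p := by rw [Int.toNat_of_nonneg h1]; exact h2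
  exact_mod_cast h3

end UnitIndex

section General

variable (p : ℕ) (K : Type*) [Field K] [NumberField K]

/-- Every unit is, modulo `p`-th powers, a product of small powers of a generator of the torsion
and of the fundamental units. -/
theorem UnitIndex.exists_rep (hp : p ≠ 0) (g : torsion K)
    (hg : ∀ t : torsion K, t ∈ Subgroup.zpowers g) (x : (𝓞 K)ˣ) :
    ∃ (k : Fin p) (e : Fin (rank K) → Fin p) (y : (𝓞 K)ˣ),
      x = ((g : (𝓞 K)ˣ) ^ (k : ℕ) * ∏ i, fundSystem K i ^ ((e i : Fin p) : ℕ)) * y ^ p := by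
  obtain ⟨⟨τ, n⟩, hx, -⟩ := exist_unique_eq_mul_prod K x
  obtain ⟨j, hj⟩ := Subgroup.mem_zpowers_iff.mp (hg τ)
  have hτ : (τ : (𝓞 K)ˣ) = (g : (𝓞 K)ˣ) ^ j := by
    rw [← hj]
    simp
  refine ⟨⟨(j % (p : ℤ)).toNat, UnitIndex.toNat_emod_lt p hp j⟩,
    fun i => ⟨(n i % (p : ℤ)).toNat, UnitIndex.toNat_emod_lt p hp (n i)⟩,
    (g : (𝓞 K)ˣ) ^ (j / (p : ℤ)) * ∏ i, fundSystem K i ^ (n i / (p : ℤ)), ?_⟩
  simp only at hx
  rw [hx, hτ, UnitIndex.zpow_eq_pow_mul_pow p hp (g : (𝓞 K)ˣ) j, mul_pow, ← Finset.prod_pow]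
  have hprod : ∏ i, fundSystem K i ^ n i =
      (∏ i, fundSystem K i ^ (n i % (p : ℤ)).toNat) *
        ∏ i, (fundSystem K i ^ (n i / (p : ℤ))) ^ p := by
    rw [← Finset.prod_mul_distrib]
    exact Finset.prod_congr rfl fun i _ => UnitIndex.zpow_eq_pow_mul_pow p hp _ (n i)
  rw [hprod]
  simp only [mul_assoc, mul_left_comm]

/-- The quotient of the units by the `p`-th powers is finite of order at most
`p ^ (rank K + 1)`. -/
theorem UnitIndex.finite_and_card_le (hp : p ≠ 0) :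
    Finite ((𝓞 K)ˣ ⧸ (powMonoidHom p : (𝓞 K)ˣ →* (𝓞 K)ˣ).range) ∧
      Nat.card ((𝓞 K)ˣ ⧸ (powMonoidHom p : (𝓞 K)ˣ →* (𝓞 K)ˣ).range) ≤ p ^ (rank K + 1) := by
  obtain ⟨g, hg⟩ := IsCyclic.exists_generator (α := torsion K)
  let Φ : Fin p × (Fin (rank K) → Fin p) →
      (𝓞 K)ˣ ⧸ (powMonoidHom p : (𝓞 K)ˣ →* (𝓞 K)ˣ).range := fun ke =>
    QuotientGroup.mk ((g : (𝓞 K)ˣ) ^ (ke.1 : ℕ) * ∏ i, fundSystem K i ^ ((ke.2 i : Fin p) : ℕ))
  have hΦ : Function.Surjective Φ := by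
    intro q
    obtain ⟨x, rfl⟩ := QuotientGroup.mk_surjective q
    obtain ⟨k, e, y, hx⟩ := UnitIndex.exists_rep p K hp g hg x
    refine ⟨(k, e), ?_⟩
    show QuotientGroup.mk _ = QuotientGroup.mk x
    rw [QuotientGroup.eq, hx]
    refine ⟨y, ?_⟩
    simp only [powMonoidHom_apply]
    rw [inv_mul_cancel_left]
  refine ⟨Finite.of_surjective Φ hΦ, ?_⟩
  have h1 := Nat.card_le_card_of_surjective Φ hΦ
  have h2 : Nat.card (Fin p × (Fin (rank K) → Fin p)) = p ^ (rank K + 1) := by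
    rw [Nat.card_prod, Nat.card_fun, Nat.card_fin, Nat.card_fin, pow_succ, mul_comm]
  rw [h2] at h1
  exact h1

/-- If a homomorphism from the units to a group of exponent `p` has an image of at least
`p ^ (rank K + 1)` elements, then its kernel consists of the `p`-th powers. -/
theorem UnitIndex.eq_pow_of_card_le (hp : p ≠ 0) {V : Type*} [AddCommGroup V]
    (D : (𝓞 K)ˣ →* Multiplicative V) (hV : ∀ v : V, p • v = 0)
    (hD : p ^ (rank K + 1) ≤ Nat.card D.range) (u : (𝓞 K)ˣ) (hu : D u = 1) :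
    ∃ v : (𝓞 K)ˣ, u = v ^ p := by
  obtain ⟨hfin, hcard⟩ := UnitIndex.finite_and_card_le p K hp
  set H : Subgroup (𝓞 K)ˣ := (powMonoidHom p : (𝓞 K)ˣ →* (𝓞 K)ˣ).range with hH
  have hHN : H ≤ D.ker := by
    rintro _ ⟨v, rfl⟩
    rw [MonoidHom.mem_ker, powMonoidHom_apply, map_pow]
    have := hV (D v).toAdd
    rw [← toAdd_pow] at this
    exact Multiplicative.toAdd.injective this
  have hindex : H.index ≤ p ^ (rank K + 1) := hcard
  have hindex0 : H.index ≠ 0 := by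
    have : Finite ((𝓞 K)ˣ ⧸ H) := hfin
    exact Subgroup.index_ne_zero_of_finite
  have hmul := Subgroup.relIndex_mul_index hHN
  rw [Subgroup.index_ker] at hmul
  have hrel0 : H.relIndex D.ker ≠ 0 := by
    intro h0
    rw [h0, zero_mul] at hmul
    exact hindex0 hmul.symm
  have hrel1 : H.relIndex D.ker = 1 := by
    by_contra hne
    have h2 : 2 ≤ H.relIndex D.ker := by omega
    have hpos : 0 < p ^ (rank K + 1) := Nat.pos_of_ne_zero (pow_ne_zero _ hp)
    have h3 : 2 * p ^ (rank K + 1) ≤ H.relIndex D.ker * Nat.card D.range :=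
      Nat.mul_le_mul h2 hD
    omega
  have hle : D.ker ≤ H := Subgroup.relIndex_eq_one.mp hrel1
  obtain ⟨v, hv⟩ := hle (MonoidHom.mem_ker.mpr hu)
  exact ⟨v, hv.symm⟩

end General

section Cyclotomic

variable (p : ℕ) [hp : Fact p.Prime] (K : Type*) [Field K] [NumberField K]
  [IsCyclotomicExtension {p} ℚ K]

/-- The unit rank of the `p`-th cyclotomic field. -/
theorem rank_add_one (hp2 : p ≠ 2) : rank K + 1 = (p - 1) / 2 := by
  have hp3 : 2 < p := lt_of_le_of_ne hp.out.two_le (Ne.symm hp2)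
  have : NeZero p := ⟨hp.out.ne_zero⟩
  have h1 : Fintype.card (InfinitePlace K) = (p - 1) / 2 := by
    rw [InfinitePlace.card_eq_nrRealPlaces_add_nrComplexPlaces,
      IsCyclotomicExtension.Rat.nrRealPlaces_eq_zero K hp3,
      IsCyclotomicExtension.Rat.nrComplexPlaces_eq_totient_div_two p K, Nat.totient_prime hp.out,
      zero_add]
  unfold rank
  rw [h1]
  have : 1 ≤ (p - 1) / 2 := by omega
  omega

omit [IsCyclotomicExtension {p} ℚ K] in
/-- (C1a) The `p`-th powers have finite index in the unit group. -/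
theorem finite_units_quot_pow :
    Finite ((𝓞 K)ˣ ⧸ (powMonoidHom p : (𝓞 K)ˣ →* (𝓞 K)ˣ).range) :=
  (UnitIndex.finite_and_card_le p K hp.out.ne_zero).1

/-- (C1a) **Index bound**: `[E : E ^ p] ≤ p ^ ((p - 1) / 2)` for the units of `ℚ(ζ_p)`. -/
theorem card_units_quot_pow_le (hp2 : p ≠ 2) :
    Nat.card ((𝓞 K)ˣ ⧸ (powMonoidHom p : (𝓞 K)ˣ →* (𝓞 K)ˣ).range) ≤ p ^ ((p - 1) / 2) := by
  rw [← rank_add_one p K hp2]
  exact (UnitIndex.finite_and_card_le p K hp.out.ne_zero).2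

/-- (C1b) If a homomorphism `D` from the units of `ℚ(ζ_p)` to a group of exponent `p` has an
image with at least `p ^ ((p - 1) / 2)` elements, its kernel consists of `p`-th powers. -/
theorem eq_pow_of_log_eq_one (hp2 : p ≠ 2) {V : Type*} [AddCommGroup V]
    (D : (𝓞 K)ˣ →* Multiplicative V) (hV : ∀ v : V, p • v = 0)
    (hD : p ^ ((p - 1) / 2) ≤ Nat.card D.range) (u : (𝓞 K)ˣ) (hu : D u = 1) :
    ∃ v : (𝓞 K)ˣ, u = v ^ p := by
  rw [← rank_add_one p K hp2] at hD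
  exact UnitIndex.eq_pow_of_card_le p K hp.out.ne_zero D hV hD u hu

omit [IsCyclotomicExtension {p} ℚ K] in
/-- (C1c) Units with linearly independent values give a large image. -/
theorem pow_le_card_range {V : Type*} [AddCommGroup V] [Module (ZMod p) V]
    (D : (𝓞 K)ˣ →* Multiplicative V) {m : ℕ} (η : Fin m → (𝓞 K)ˣ)
    (hη : LinearIndependent (ZMod p) (fun k => (D (η k)).toAdd)) :
    p ^ m ≤ Nat.card D.range := by
  have : NeZero p := ⟨hp.out.ne_zero⟩
  have hV : ∀ v : V, p • v = 0 := by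
    intro v
    rw [← Nat.cast_smul_eq_nsmul (ZMod p), ZMod.natCast_self, zero_smul]
  -- the range is finite
  have hHN : (powMonoidHom p : (𝓞 K)ˣ →* (𝓞 K)ˣ).range ≤ D.ker := by
    rintro _ ⟨v, rfl⟩
    rw [MonoidHom.mem_ker, powMonoidHom_apply, map_pow]
    have := hV (D v).toAdd
    rw [← toAdd_pow] at this
    exact Multiplicative.toAdd.injective this
  have hfin : Finite ((𝓞 K)ˣ ⧸ (powMonoidHom p : (𝓞 K)ˣ →* (𝓞 K)ˣ).range) :=
    finite_units_quot_pow p K
  have hidx : (powMonoidHom p : (𝓞 K)ˣ →* (𝓞 K)ˣ).range.index ≠ 0 :=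
    Subgroup.index_ne_zero_of_finite
  have hker : D.ker.index ≠ 0 := fun h0 => by
    have hdvd := Subgroup.index_dvd_of_le hHN
    rw [h0, zero_dvd_iff] at hdvd
    exact hidx hdvd
  rw [Subgroup.index_ker] at hker
  have hfinR : Finite D.range := Nat.finite_of_card_ne_zero hker
  -- the injection
  let f : (Fin m → ZMod p) → D.range := fun c =>
    ⟨D (∏ k, η k ^ (c k).val), ⟨_, rfl⟩⟩
  have hf : ∀ c : Fin m → ZMod p,
      ((f c : D.range) : Multiplicative V).toAdd = ∑ k, c k • (D (η k)).toAdd := by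
    intro c
    show (D (∏ k, η k ^ (c k).val)).toAdd = _
    rw [map_prod, toAdd_prod]
    refine Finset.sum_congr rfl fun k _ => ?_
    rw [map_pow, toAdd_pow, ← Nat.cast_smul_eq_nsmul (ZMod p), ZMod.natCast_zmod_val]
  have hinj : Function.Injective f := by
    intro c c' hcc
    have h1 : ∑ k, c k • (D (η k)).toAdd = ∑ k, c' k • (D (η k)).toAdd := by
      rw [← hf c, ← hf c', hcc]
    exact hη.fintypeLinearCombination_injective h1
  have h2 := Nat.card_le_card_of_injective f hinj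
  rw [Nat.card_fun, Nat.card_fin, Nat.card_zmod] at h2
  exact h2

/-- **Criterion for Kummer's lemma.** If `D` is a homomorphism from the units of `ℚ(ζ_p)` to a
`ZMod p`-vector space and there are `(p - 1) / 2` units with linearly independent values, then
every unit killed by `D` is a `p`-th power. -/
theorem eq_pow_of_linearIndependent (hp2 : p ≠ 2) {V : Type*} [AddCommGroup V]
    [Module (ZMod p) V] (D : (𝓞 K)ˣ →* Multiplicative V) (η : Fin ((p - 1) / 2) → (𝓞 K)ˣ)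
    (hη : LinearIndependent (ZMod p) (fun k => (D (η k)).toAdd)) (u : (𝓞 K)ˣ) (hu : D u = 1) :
    ∃ v : (𝓞 K)ˣ, u = v ^ p := by
  have hV : ∀ v : V, p • v = 0 := by
    intro v
    rw [← Nat.cast_smul_eq_nsmul (ZMod p), ZMod.natCast_self, zero_smul]
  exact eq_pow_of_log_eq_one p K hp2 D hV (pow_le_card_range p K D η hη) u hu

end Cyclotomic

/-- (C1, basis form) If `η 1, …, η ((p-1)/2)` are units of `ℚ(ζ_p)` which are independent modulo
`p`-th powers, then every unit is a product of powers of the `η i` times a `p`-th power. -/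
theorem exists_eq_prod_zpow_mul_pow (p : ℕ) [Fact p.Prime] (hp2 : p ≠ 2) (K : Type*) [Field K]
    [NumberField K] [IsCyclotomicExtension {p} ℚ K] (η : Fin ((p - 1) / 2) → (𝓞 K)ˣ)
    (hη : ∀ a : Fin ((p - 1) / 2) → ℤ, (∃ v : (𝓞 K)ˣ, ∏ i, η i ^ a i = v ^ p) →
      ∀ i, (p : ℤ) ∣ a i) (u : (𝓞 K)ˣ) :
    ∃ (a : Fin ((p - 1) / 2) → ℤ) (v : (𝓞 K)ˣ), u = (∏ i, η i ^ a i) * v ^ p := by
  have hp : p.Prime := Fact.out
  have : NeZero p := ⟨hp.ne_zero⟩
  have hfin : Finite ((𝓞 K)ˣ ⧸ (powMonoidHom p : (𝓞 K)ˣ →* (𝓞 K)ˣ).range) :=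
    finite_units_quot_pow p K
  let Ψ : (Fin ((p - 1) / 2) → ZMod p) →
      (𝓞 K)ˣ ⧸ (powMonoidHom p : (𝓞 K)ˣ →* (𝓞 K)ˣ).range := fun c =>
    QuotientGroup.mk (∏ i, η i ^ (c i).val)
  have hinj : Function.Injective Ψ := by
    intro c c' hcc
    have h1 : (∏ i, η i ^ (c i).val)⁻¹ * ∏ i, η i ^ (c' i).val ∈
        (powMonoidHom p : (𝓞 K)ˣ →* (𝓞 K)ˣ).range := QuotientGroup.eq.mp hcc
    obtain ⟨v, hv⟩ := h1
    have h2 : ∏ i, η i ^ (((c' i).val : ℤ) - ((c i).val : ℤ)) = v ^ p := by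
      rw [← powMonoidHom_apply, hv, ← Finset.prod_inv_distrib, ← Finset.prod_mul_distrib]
      refine Finset.prod_congr rfl fun i _ => ?_
      rw [zpow_sub, zpow_natCast, zpow_natCast, mul_comm]
    have h3 := hη _ ⟨v, h2⟩
    funext i
    have h4 : (((c' i).val : ℤ) : ZMod p) = (((c i).val : ℤ) : ZMod p) := by
      have := (ZMod.intCast_zmod_eq_zero_iff_dvd _ p).mpr (h3 i)
      push_cast at this
      push_cast
      exact sub_eq_zero.mp this
    push_cast at h4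
    rw [ZMod.natCast_zmod_val, ZMod.natCast_zmod_val] at h4
    exact h4.symm
  have hcard : Nat.card ((𝓞 K)ˣ ⧸ (powMonoidHom p : (𝓞 K)ˣ →* (𝓞 K)ˣ).range) ≤
      Nat.card (Fin ((p - 1) / 2) → ZMod p) := by
    rw [Nat.card_fun, Nat.card_fin, Nat.card_zmod]
    exact card_units_quot_pow_le p K hp2
  have hbij := hinj.bijective_of_nat_card_le hcard
  obtain ⟨c, hc⟩ := hbij.2 (QuotientGroup.mk u)
  have h5 : (∏ i, η i ^ (c i).val)⁻¹ * u ∈ (powMonoidHom p : (𝓞 K)ˣ →* (𝓞 K)ˣ).range :=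
    QuotientGroup.eq.mp hc
  obtain ⟨v, hv⟩ := h5
  refine ⟨fun i => ((c i).val : ℤ), v, ?_⟩
  rw [powMonoidHom_apply] at hv
  rw [hv]
  simp only [zpow_natCast]
  rw [mul_inv_cancel_left]

end Fermat.Agent.FLTSmall
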