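import Mathlib
import Fermat.Agent.FLTSmall.Defs
import Fermat.Agent.FLTSmall.UnitIndex

/-!
# Kummer's lemma from explicit units with prescribed leading terms

Let `p` be an odd prime, `K = ℚ(ζ_p)`, `λ = ζ - 1`.  Suppose we are given units `η_k` with
`η_k ≡ n_k + c_k λ^(j_k) mod λ^(j_k + 1)`, `p ∤ n_k c_k`, `1 ≤ j_1 < j_2 < ... ≤ p - 2`.
Then a product `∏ η_k ^ a_k * w ^ p` which is congruent to a rational integer modulo `λ^(p-1)`
has all exponents divisible by `p`.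
-/

set_option autoImplicit false
set_option linter.unusedSectionVars false

namespace Fermat.Agent.FLTSmall.Kummer

open NumberField IsCyclotomicExtension.Rat

section Ring

variable {R : Type*} [CommRing R]

/-- The subring of elements congruent to a rational integer modulo `a`. -/
def intMod (a : R) : Subring R :=
  (Int.castRingHom (R ⧸ Ideal.span {a})).range.comap (Ideal.Quotient.mk (Ideal.span {a}))

theorem mem_intMod {a x : R} : x ∈ intMod a ↔ ∃ N : ℤ, a ∣ x - N := by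
  unfold intMod
  rw [Subring.mem_comap, RingHom.mem_range]
  constructor
  · rintro ⟨N, hN⟩
    refine ⟨N, ?_⟩
    rw [← Ideal.mem_span_singleton, ← Ideal.Quotient.eq, ← hN]
    simp
  · rintro ⟨N, hN⟩
    refine ⟨N, ?_⟩
    rw [← Ideal.mem_span_singleton, ← Ideal.Quotient.eq] at hN
    rw [hN]
    simp

theorem intMod_mono {a b : R} (h : a ∣ b) : intMod b ≤ intMod a := by
  intro x hx
  rw [mem_intMod] at hx ⊢
  obtain ⟨N, hN⟩ := hx
  exact ⟨N, h.trans hN⟩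

theorem add_pow_of_mul_self_eq_zero (n e : R) (he : e * e = 0) (a : ℕ) :
    (n + e) ^ a = n ^ a + a * n ^ (a - 1) * e := by
  induction a with
  | zero => simp
  | succ a ih =>
    rw [pow_succ, ih]
    rcases Nat.eq_zero_or_pos a with ha | ha
    · subst ha; simp
    · have h1 : n ^ a = n ^ (a - 1) * n := by
        rw [← pow_succ, Nat.sub_add_cancel ha]
      have h2 : a + 1 - 1 = a := by omega
      rw [h2]
      push_cast
      linear_combination (n ^ (a - 1) * (a : R)) * he - ((a : R) * e) * h1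

end Ring

section Cyclotomic

variable {p : ℕ} [hp : Fact p.Prime] {K : Type*} [Field K] [NumberField K]
  [IsCyclotomicExtension {p} ℚ K] {ζ : K} (hζ : IsPrimitiveRoot ζ p)

/-- `λ = ζ - 1`. -/
noncomputable def lam : 𝓞 K := hζ.toInteger - 1

theorem lam_prime : Prime (lam hζ) := hζ.zeta_sub_one_prime'

theorem lam_dvd_intCast_iff {n : ℤ} : lam hζ ∣ (n : 𝓞 K) ↔ (p : ℤ) ∣ n :=
  zeta_sub_one_dvd_intCast_iff' p hζ

theorem lam_pow_dvd_p : lam hζ ^ (p - 1) ∣ ((p : ℕ) : 𝓞 K) :=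
  (associated_zeta_sub_one_pow_prime p hζ).dvd

theorem lam_pow_dvd_p' {t : ℕ} (ht : t + 1 ≤ p) : lam hζ ^ t ∣ ((p : ℕ) : 𝓞 K) :=
  (pow_dvd_pow _ (by omega)).trans (lam_pow_dvd_p hζ)

theorem adjoin_toInteger_eq_top : Algebra.adjoin ℤ {hζ.toInteger} = ⊤ := by
  have h := hζ.integralPowerBasis.adjoin_gen_eq_top
  rwa [hζ.integralPowerBasis_gen] at h

include hζ in
/-- `p`-th powers are congruent to rational integers modulo `p`. -/
theorem pow_mem_intMod (x : 𝓞 K) : x ^ p ∈ intMod (((p : ℕ) : 𝓞 K)) := by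
  have hx : x ∈ Algebra.adjoin ℤ {hζ.toInteger} := by
    rw [adjoin_toInteger_eq_top hζ]; trivial
  induction hx using Algebra.adjoin_induction with
  | mem y hy =>
    rw [Set.mem_singleton_iff] at hy
    subst hy
    have h1 : hζ.toInteger ^ p = 1 := hζ.toInteger_isPrimitiveRoot.pow_eq_one
    rw [h1]
    exact Subring.one_mem _
  | algebraMap r =>
    rw [← map_pow, eq_intCast]
    exact intCast_mem _ _
  | add y z _ _ hy hz =>
    obtain ⟨r, hr⟩ := exists_add_pow_prime_eq hp.out y z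
    rw [hr]
    refine Subring.add_mem _ (Subring.add_mem _ hy hz) ?_
    rw [mem_intMod]
    exact ⟨0, by simp [mul_assoc]⟩
  | mul y z _ _ hy hz =>
    rw [mul_pow]
    exact Subring.mul_mem _ hy hz

theorem pow_mem_intMod_lam (x : 𝓞 K) {t : ℕ} (ht : t + 1 ≤ p) :
    x ^ p ∈ intMod (lam hζ ^ t) :=
  intMod_mono (lam_pow_dvd_p' hζ ht) (pow_mem_intMod hζ x)

/-- Level data: `η ≡ n + c λ^j mod λ^(j+1)`. -/
def HasLevel (η : 𝓞 K) (n c : ℤ) (j : ℕ) : Prop :=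
  lam hζ ^ (j + 1) ∣ η - n - c * lam hζ ^ j

variable {hζ}

theorem HasLevel.dvd_sub_of_le {η : 𝓞 K} {n c : ℤ} {j : ℕ} (h : HasLevel hζ η n c j) {t : ℕ}
    (ht : t ≤ j) : lam hζ ^ t ∣ η - n := by
  have h1 : lam hζ ^ t ∣ η - n - c * lam hζ ^ j := (pow_dvd_pow _ (by omega)).trans h
  have h2 : lam hζ ^ t ∣ (c : 𝓞 K) * lam hζ ^ j := Dvd.dvd.mul_left (pow_dvd_pow _ ht) _
  have := dvd_add h1 h2
  simpa using this

theorem HasLevel.not_dvd {η : 𝓞 K} {n c : ℤ} {j : ℕ} (h : HasLevel hζ η n c j) (hj : 1 ≤ j)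
    (hn : ¬ (p : ℤ) ∣ n) : ¬ lam hζ ∣ η := by
  intro hdvd
  apply hn
  rw [← lam_dvd_intCast_iff hζ]
  have h1 : lam hζ ^ 1 ∣ η - n := h.dvd_sub_of_le hj
  rw [pow_one] at h1
  have := dvd_sub hdvd h1
  simpa using this

theorem HasLevel.pow {η : 𝓞 K} {n c : ℤ} {j : ℕ} (h : HasLevel hζ η n c j) (hj : 1 ≤ j)
    (a : ℕ) :
    lam hζ ^ (j + 1) ∣
      η ^ a - ((n : 𝓞 K) ^ a + a * (n : 𝓞 K) ^ (a - 1) * (c * lam hζ ^ j)) := by
  set I := Ideal.span {lam hζ ^ (j + 1)} with hI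
  have key : ∀ x y : 𝓞 K, lam hζ ^ (j + 1) ∣ x - y ↔
      Ideal.Quotient.mk I x = Ideal.Quotient.mk I y := by
    intro x y
    rw [Ideal.Quotient.eq, Ideal.mem_span_singleton]
  rw [key]
  have h1 : Ideal.Quotient.mk I η = Ideal.Quotient.mk I ((n : 𝓞 K) + c * lam hζ ^ j) := by
    rw [← key]
    have h' : lam hζ ^ (j + 1) ∣ η - n - c * lam hζ ^ j := h
    convert h' using 1
    ring
  have he : Ideal.Quotient.mk I (c * lam hζ ^ j) * Ideal.Quotient.mk I (c * lam hζ ^ j) = 0 := by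
    rw [← map_mul, Ideal.Quotient.eq_zero_iff_mem, Ideal.mem_span_singleton]
    have e : ((c : 𝓞 K) * lam hζ ^ j) * (c * lam hζ ^ j) =
        lam hζ ^ (j + 1) * (c * c * lam hζ ^ (j - 1)) := by
      have e1 : j + j = (j + 1) + (j - 1) := by omega
      calc ((c : 𝓞 K) * lam hζ ^ j) * (c * lam hζ ^ j) = c * c * lam hζ ^ (j + j) := by ring
        _ = lam hζ ^ (j + 1) * (c * c * lam hζ ^ (j - 1)) := by rw [e1, pow_add]; ring
    rw [e]
    exact dvd_mul_right _ _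
  rw [map_pow, h1, map_add, add_pow_of_mul_self_eq_zero _ _ he a]
  simp [map_add, map_mul, map_pow]

variable (hζ)

/-- **Independence of units with distinct levels.** -/
theorem dvd_of_prod_mem_intMod {m : ℕ} (η : Fin m → 𝓞 K) (n c : Fin m → ℤ)
    (j : Fin m → ℕ) (hj : StrictMono j) (hj1 : ∀ k, 1 ≤ j k) (hj2 : ∀ k, j k + 2 ≤ p)
    (hn : ∀ k, ¬ (p : ℤ) ∣ n k) (hc : ∀ k, ¬ (p : ℤ) ∣ c k)
    (hlev : ∀ k, HasLevel hζ (η k) (n k) (c k) (j k))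
    (a : Fin m → ℕ) (w : 𝓞 K) (hw : ¬ lam hζ ∣ w) (N : ℤ)
    (h : lam hζ ^ (p - 1) ∣ (∏ k, η k ^ a k) * w ^ p - N) : ∀ k, p ∣ a k := by
  classical
  by_contra hcon
  push Not at hcon
  -- minimal bad index
  obtain ⟨k₀, hk₀, hmin⟩ : ∃ k₀, ¬ p ∣ a k₀ ∧ ∀ k, k < k₀ → p ∣ a k := by
    let S := Finset.univ.filter (fun k : Fin m => ¬ p ∣ a k)
    have hS : S.Nonempty := by
      obtain ⟨k, hk⟩ := hcon
      exact ⟨k, by simp [S, hk]⟩
    refine ⟨S.min' hS, ?_, ?_⟩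
    · have := S.min'_mem hS
      simpa [S] using this
    · intro k hk
      by_contra hkn
      have hkS : k ∈ S := by simp [S, hkn]
      exact absurd (S.min'_le k hkS) (not_le.mpr hk)
  set j₀ := j k₀ with hj₀
  set t := j₀ + 1 with ht
  have hj₀1 : 1 ≤ j₀ := hj1 k₀
  have htp : t + 1 ≤ p := by have := hj2 k₀; omega
  set T := intMod (lam hζ ^ t) with hT
  have hA : ∀ k, k ≠ k₀ → η k ^ a k ∈ T := by
    intro k hk
    rcases lt_or_gt_of_ne hk with hlt | hgt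
    · obtain ⟨b, hb⟩ := hmin k hlt
      rw [hb, pow_mul']
      exact pow_mem_intMod_lam hζ _ htp
    · have hjk : t ≤ j k := hj hgt
      refine Subring.pow_mem _ ?_ _
      rw [hT, mem_intMod]
      exact ⟨n k, (hlev k).dvd_sub_of_le hjk⟩
  have hB : w ^ p ∈ T := pow_mem_intMod_lam hζ _ htp
  set Q := (∏ k ∈ Finset.univ.erase k₀, η k ^ a k) * w ^ p with hQ
  have hQT : Q ∈ T :=
    Subring.mul_mem _ (Subring.prod_mem _ (fun k hk => hA k (Finset.ne_of_mem_erase hk))) hB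
  obtain ⟨M, hM⟩ := mem_intMod.mp hQT
  have hprod : (∏ k, η k ^ a k) * w ^ p = η k₀ ^ a k₀ * Q := by
    rw [hQ, ← mul_assoc,
      Finset.mul_prod_erase Finset.univ (fun k => η k ^ a k) (Finset.mem_univ k₀)]
  have hQl : ¬ lam hζ ∣ Q := by
    intro hdvd
    rw [hQ] at hdvd
    rcases (lam_prime hζ).dvd_or_dvd hdvd with h1 | h1
    · obtain ⟨k, -, hk⟩ := (lam_prime hζ).exists_mem_finset_dvd h1
      exact (hlev k).not_dvd (hj1 k) (hn k) ((lam_prime hζ).dvd_of_dvd_pow hk)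
    · exact hw ((lam_prime hζ).dvd_of_dvd_pow h1)
  have hMp : ¬ (p : ℤ) ∣ M := by
    intro hpM
    apply hQl
    have h1 : lam hζ ∣ (M : 𝓞 K) := (lam_dvd_intCast_iff hζ).mpr hpM
    have h2 : lam hζ ∣ Q - M := (dvd_pow_self _ (by omega)).trans hM
    have := dvd_add h2 h1
    simpa using this
  have hpow := (hlev k₀).pow hj₀1 (a k₀)
  have h1 : lam hζ ^ t ∣ η k₀ ^ a k₀ * Q - N := by
    rw [← hprod]
    exact (pow_dvd_pow _ (by omega)).trans h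
  have h2 : lam hζ ^ t ∣ ((n k₀ : 𝓞 K) ^ a k₀ +
      a k₀ * (n k₀ : 𝓞 K) ^ (a k₀ - 1) * (c k₀ * lam hζ ^ j₀)) * M - N := by
    have e : ((n k₀ : 𝓞 K) ^ a k₀ +
        a k₀ * (n k₀ : 𝓞 K) ^ (a k₀ - 1) * (c k₀ * lam hζ ^ j₀)) * M - N
        = (η k₀ ^ a k₀ * Q - N)
          - (η k₀ ^ a k₀ - ((n k₀ : 𝓞 K) ^ a k₀ +
              a k₀ * (n k₀ : 𝓞 K) ^ (a k₀ - 1) * (c k₀ * lam hζ ^ j₀))) * Q
          - ((n k₀ : 𝓞 K) ^ a k₀ +
              a k₀ * (n k₀ : 𝓞 K) ^ (a k₀ - 1) * (c k₀ * lam hζ ^ j₀)) * (Q - M) := by ring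
    rw [e]
    exact dvd_sub (dvd_sub h1 (Dvd.dvd.mul_right hpow _)) (Dvd.dvd.mul_left hM _)
  set D : ℤ := n k₀ ^ a k₀ * M - N with hD
  set E : ℤ := a k₀ * n k₀ ^ (a k₀ - 1) * c k₀ * M with hE
  have h3 : lam hζ ^ t ∣ (D : 𝓞 K) + E * lam hζ ^ j₀ := by
    convert h2 using 1
    rw [hD, hE]
    push_cast
    ring
  have h6' : lam hζ ∣ (E : 𝓞 K) * lam hζ ^ j₀ :=
    Dvd.dvd.mul_left (dvd_pow_self _ (by omega)) _
  have h4 : lam hζ ∣ (D : 𝓞 K) := by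
    have h5 : lam hζ ∣ (D : 𝓞 K) + E * lam hζ ^ j₀ := (dvd_pow_self _ (by omega)).trans h3
    exact (dvd_add_left h6').mp h5
  have h5 : (p : ℤ) ∣ D := (lam_dvd_intCast_iff hζ).mp h4
  have h6 : lam hζ ^ t ∣ (D : 𝓞 K) := by
    obtain ⟨d, hd⟩ := h5
    rw [hd]
    push_cast
    exact Dvd.dvd.mul_right (lam_pow_dvd_p' hζ htp) _
  have h7 : lam hζ ^ t ∣ (E : 𝓞 K) * lam hζ ^ j₀ := (dvd_add_right h6).mp h3
  have h8 : lam hζ ∣ (E : 𝓞 K) := by
    rw [ht, pow_succ, mul_comm (E : 𝓞 K)] at h7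
    exact (mul_dvd_mul_iff_left (pow_ne_zero _ (lam_prime hζ).ne_zero)).mp h7
  have h9 : (p : ℤ) ∣ E := (lam_dvd_intCast_iff hζ).mp h8
  have hpZ : Prime (p : ℤ) := Nat.prime_iff_prime_int.mp hp.out
  rw [hE] at h9
  rcases hpZ.dvd_or_dvd h9 with h10 | h10
  · rcases hpZ.dvd_or_dvd h10 with h11 | h11
    · rcases hpZ.dvd_or_dvd h11 with h12 | h12
      · exact hk₀ (by exact_mod_cast h12)
      · exact hn k₀ (hpZ.dvd_of_dvd_pow h12)
    · exact hc k₀ h11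
  · exact hMp h10

/-- Version of the independence lemma for units and integer exponents. -/
theorem dvd_of_prod_zpow_mem_intMod {m : ℕ} (η : Fin m → (𝓞 K)ˣ) (n c : Fin m → ℤ)
    (j : Fin m → ℕ) (hj : StrictMono j) (hj1 : ∀ k, 1 ≤ j k) (hj2 : ∀ k, j k + 2 ≤ p)
    (hn : ∀ k, ¬ (p : ℤ) ∣ n k) (hc : ∀ k, ¬ (p : ℤ) ∣ c k)
    (hlev : ∀ k, HasLevel hζ (η k : 𝓞 K) (n k) (c k) (j k))
    (a : Fin m → ℤ) (w : (𝓞 K)ˣ) (N : ℤ)
    (h : lam hζ ^ (p - 1) ∣ (((∏ k, η k ^ a k) * w ^ p : (𝓞 K)ˣ) : 𝓞 K) - N) :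
    ∀ k, (p : ℤ) ∣ a k := by
  have hp0 : p ≠ 0 := hp.out.ne_zero
  set r : Fin m → ℕ := fun k => (a k % (p : ℤ)).toNat with hr
  set W : (𝓞 K)ˣ := (∏ k, η k ^ (a k / (p : ℤ))) * w with hW
  have e1 : (∏ k, η k ^ a k) * w ^ p = (∏ k, η k ^ r k) * W ^ p := by
    rw [hW, mul_pow, ← mul_assoc, ← Finset.prod_pow, ← Finset.prod_mul_distrib]
    congr 1
    refine Finset.prod_congr rfl fun k _ => ?_
    exact UnitIndex.zpow_eq_pow_mul_pow p hp0 (η k) (a k)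
  have e2 : (((∏ k, η k ^ a k) * w ^ p : (𝓞 K)ˣ) : 𝓞 K) =
      (∏ k, (η k : 𝓞 K) ^ r k) * (W : 𝓞 K) ^ p := by
    rw [e1]
    simp [Units.coe_prod]
  rw [e2] at h
  have hWl : ¬ lam hζ ∣ (W : 𝓞 K) := fun hd =>
    (lam_prime hζ).not_isUnit (isUnit_of_dvd_unit hd W.isUnit)
  have key := dvd_of_prod_mem_intMod hζ (fun k => (η k : 𝓞 K)) n c j hj hj1 hj2 hn hc hlev r
    (W : 𝓞 K) hWl N h
  intro k
  have h1 : r k = 0 := Nat.eq_zero_of_dvd_of_lt (key k) (UnitIndex.toNat_emod_lt p hp0 (a k))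
  have hp0' : (p : ℤ) ≠ 0 := by exact_mod_cast hp0
  have h2 : a k % (p : ℤ) = 0 := by
    have h3 : 0 ≤ a k % (p : ℤ) := Int.emod_nonneg _ hp0'
    have h4 : ((a k % (p : ℤ)).toNat : ℤ) = 0 := by exact_mod_cast h1
    rwa [Int.toNat_of_nonneg h3] at h4
  exact Int.dvd_of_emod_eq_zero h2

/-- **Kummer's lemma** from explicit units with distinct leading levels. -/
theorem kummer_of_levels (hp2 : p ≠ 2) {m : ℕ} (hm : (p - 1) / 2 = m)
    (η : Fin m → (𝓞 K)ˣ) (n c : Fin m → ℤ)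
    (j : Fin m → ℕ) (hj : StrictMono j) (hj1 : ∀ k, 1 ≤ j k) (hj2 : ∀ k, j k + 2 ≤ p)
    (hn : ∀ k, ¬ (p : ℤ) ∣ n k) (hc : ∀ k, ¬ (p : ℤ) ∣ c k)
    (hlev : ∀ k, HasLevel hζ (η k : 𝓞 K) (n k) (c k) (j k)) : KL p K := by
  subst hm
  have star := dvd_of_prod_zpow_mem_intMod hζ η n c j hj hj1 hj2 hn hc hlev
  have hη : ∀ a : Fin ((p - 1) / 2) → ℤ, (∃ v : (𝓞 K)ˣ, ∏ i, η i ^ a i = v ^ p) →
      ∀ i, (p : ℤ) ∣ a i := by
    rintro a ⟨v, hv⟩
    refine star a v⁻¹ 1 ?_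
    have : (∏ k, η k ^ a k) * v⁻¹ ^ p = 1 := by
      rw [hv, inv_pow, mul_inv_cancel]
    rw [this]
    simp
  intro u hu
  obtain ⟨N, hN⟩ := hu
  obtain ⟨a, v, huv⟩ := exists_eq_prod_zpow_mul_pow p hp2 K η hη u
  have h1 : lam hζ ^ (p - 1) ∣ (((∏ k, η k ^ a k) * v ^ p : (𝓞 K)ˣ) : 𝓞 K) - N := by
    rw [← huv]
    exact (lam_pow_dvd_p hζ).trans hN
  have h2 := star a v N h1
  choose b hb using h2
  refine ⟨(∏ k, η k ^ b k) * v, ?_⟩
  rw [huv, mul_pow, ← Finset.prod_pow]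
  congr 1
  refine Finset.prod_congr rfl fun k _ => ?_
  rw [hb k, mul_comm, zpow_mul, zpow_natCast]

/-- Version of `kummer_of_levels` where the units are given by explicit elements with explicit
inverses and explicit level certificates. -/
theorem kummer_of_levels' (hp2 : p ≠ 2) {m : ℕ} (hm : (p - 1) / 2 = m)
    (v iv : Fin m → 𝓞 K) (huv : ∀ k, v k * iv k = 1) (n c : Fin m → ℤ)
    (j : Fin m → ℕ) (hj : StrictMono j) (hj1 : ∀ k, 1 ≤ j k) (hj2 : ∀ k, j k + 2 ≤ p)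
    (hn : ∀ k, ¬ (p : ℤ) ∣ n k) (hc : ∀ k, ¬ (p : ℤ) ∣ c k)
    (hlev : ∀ k, ∃ w : 𝓞 K, v k - (n k : 𝓞 K) - (c k : 𝓞 K) * (hζ.toInteger - 1) ^ j k =
      (hζ.toInteger - 1) ^ (j k + 1) * w) : KL p K := by
  refine kummer_of_levels hζ hp2 hm (fun k => Units.mkOfMulEqOne (v k) (iv k) (huv k)) n c j
    hj hj1 hj2 hn hc ?_
  intro k
  obtain ⟨w, hw⟩ := hlev k
  exact ⟨w, hw⟩

/-- The cyclotomic relation `1 + ζ + ... + ζ^(p-1) = 0` in the ring of integers. -/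
theorem toInteger_geom_sum : ∑ i ∈ Finset.range p, hζ.toInteger ^ i = 0 :=
  hζ.toInteger_isPrimitiveRoot.geom_sum_eq_zero hp.out.one_lt

end Cyclotomic

end Fermat.Agent.FLTSmall.Kummer
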