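import Mathlib
import Fermat.Agent.FLTSmall.KummerGeneric

/-!
# Kummer's lemma for the prime 11

Explicit units of `ℤ[ζ_11]` with leading levels [1, 2, 4, 6, 8] (certificates generated by computer).
-/

set_option autoImplicit false

namespace Fermat.Agent.FLTSmall

open NumberField

namespace Kummer11

variable {R : Type*} [CommRing R]

/-- The unit `η_0`. -/
def v0 (z : R) : R := z

/-- The inverse of `η_0`. -/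
def i0 (z : R) : R := -1 - z - z ^ 2 - z ^ 3 - z ^ 4 - z ^ 5 - z ^ 6 - z ^ 7 - z ^ 8 - z ^ 9

/-- The cofactor in the level certificate of `η_0`. -/
def w0 (_z : R) : R := 0

theorem u0 (z : R) (h : 1 + z + z ^ 2 + z ^ 3 + z ^ 4 + z ^ 5 + z ^ 6 + z ^ 7 + z ^ 8 + z ^ 9 + z ^ 10 = 0) : v0 z * i0 z = 1 := by
  unfold v0 i0
  linear_combination (-1) * h

theorem l0 (z : R) (h : 1 + z + z ^ 2 + z ^ 3 + z ^ 4 + z ^ 5 + z ^ 6 + z ^ 7 + z ^ 8 + z ^ 9 + z ^ 10 = 0) :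
    v0 z - ((1 : ℤ) : R) - ((1 : ℤ) : R) * (z - 1) ^ 1 = (z - 1) ^ (1 + 1) * w0 z := by
  unfold v0 w0
  push_cast
  linear_combination (0) * h

/-- The unit `η_1`. -/
def v1 (z : R) : R := z ^ 5 + z ^ 6

/-- The inverse of `η_1`. -/
def i1 (z : R) : R := -1 - z ^ 2 - z ^ 4 - z ^ 7 - z ^ 9

/-- The cofactor in the level certificate of `η_1`. -/
def w1 (z : R) : R := 1 + z ^ 3 + 3 * z ^ 4 + 5 * z ^ 5 + 6 * z ^ 6 + 6 * z ^ 7 + 5 * z ^ 8 + 3 * z ^ 9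

theorem u1 (z : R) (h : 1 + z + z ^ 2 + z ^ 3 + z ^ 4 + z ^ 5 + z ^ 6 + z ^ 7 + z ^ 8 + z ^ 9 + z ^ 10 = 0) : v1 z * i1 z = 1 := by
  unfold v1 i1
  linear_combination (-1 + z - z ^ 5) * h

theorem l1 (z : R) (h : 1 + z + z ^ 2 + z ^ 3 + z ^ 4 + z ^ 5 + z ^ 6 + z ^ 7 + z ^ 8 + z ^ 9 + z ^ 10 = 0) :
    v1 z - ((2 : ℤ) : R) - ((3 : ℤ) : R) * (z - 1) ^ 2 = (z - 1) ^ (2 + 1) * w1 z := by
  unfold v1 w1
  push_cast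
  linear_combination (-4 + 7 * z - 3 * z ^ 2) * h

/-- The unit `η_2`. -/
def v2 (z : R) : R := z ^ 4 + 2 * z ^ 5 + 2 * z ^ 6 + z ^ 7

/-- The inverse of `η_2`. -/
def i2 (z : R) : R := z ^ 2 - z ^ 3 + z ^ 4 + z ^ 7 - z ^ 8 + z ^ 9

/-- The cofactor in the level certificate of `η_2`. -/
def w2 (z : R) : R := 17 + 13 * z - z ^ 2 - 21 * z ^ 3 - 41 * z ^ 4 - 55 * z ^ 5 - 59 * z ^ 6 - 52 * z ^ 7 - 36 * z ^ 8 - 16 * z ^ 9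

theorem u2 (z : R) (h : 1 + z + z ^ 2 + z ^ 3 + z ^ 4 + z ^ 5 + z ^ 6 + z ^ 7 + z ^ 8 + z ^ 9 + z ^ 10 = 0) : v2 z * i2 z = 1 := by
  unfold v2 i2
  linear_combination (-1 + z + z ^ 6) * h

theorem l2 (z : R) (h : 1 + z + z ^ 2 + z ^ 3 + z ^ 4 + z ^ 5 + z ^ 6 + z ^ 7 + z ^ 8 + z ^ 9 + z ^ 10 = 0) :
    v2 z - ((6 : ℤ) : R) - ((10 : ℤ) : R) * (z - 1) ^ 4 = (z - 1) ^ (4 + 1) * w2 z := by
  unfold v2 w2
  push_cast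
  linear_combination (1 - 33 * z + 76 * z ^ 2 - 60 * z ^ 3 + 16 * z ^ 4) * h

/-- The unit `η_3`. -/
def v3 (z : R) : R := -27 - 25 * z ^ 2 - 4 * z ^ 3 - 19 * z ^ 4 - 11 * z ^ 5 - 11 * z ^ 6 - 19 * z ^ 7 - 4 * z ^ 8 - 25 * z ^ 9

/-- The inverse of `η_3`. -/
def i3 (z : R) : R := 3 - 2 * z ^ 2 + z ^ 3 + 2 * z ^ 4 + 2 * z ^ 7 + z ^ 8 - 2 * z ^ 9

/-- The cofactor in the level certificate of `η_3`. -/
def w3 (z : R) : R := 17 + 52 * z + 103 * z ^ 2 + 154 * z ^ 3 + 189 * z ^ 4 + 197 * z ^ 5 + 174 * z ^ 6 + 127 * z ^ 7 + 70 * z ^ 8 + 23 * z ^ 9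

theorem u3 (z : R) (h : 1 + z + z ^ 2 + z ^ 3 + z ^ 4 + z ^ 5 + z ^ 6 + z ^ 7 + z ^ 8 + z ^ 9 + z ^ 10 = 0) : v3 z * i3 z = 1 := by
  unfold v3 i3
  linear_combination (-82 + 82 * z - 21 * z ^ 2 - 18 * z ^ 3 - 22 * z ^ 4 + 11 * z ^ 5 + z ^ 6 - 67 * z ^ 7 + 50 * z ^ 8) * h

theorem l3 (z : R) (h : 1 + z + z ^ 2 + z ^ 3 + z ^ 4 + z ^ 5 + z ^ 6 + z ^ 7 + z ^ 8 + z ^ 9 + z ^ 10 = 0) :
    v3 z - ((9 : ℤ) : R) - ((9 : ℤ) : R) * (z - 1) ^ 6 = (z - 1) ^ (6 + 1) * w3 z := by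
  unfold v3 w3
  push_cast
  linear_combination (-28 + 15 * z - 51 * z ^ 2 + 170 * z ^ 3 - 211 * z ^ 4 + 114 * z ^ 5 - 23 * z ^ 6) * h

/-- The unit `η_4`. -/
def v4 (z : R) : R := -108 + 289 * z ^ 2 + 668 * z ^ 3 + 1016 * z ^ 4 + 1223 * z ^ 5 + 1223 * z ^ 6 + 1016 * z ^ 7 + 668 * z ^ 8 + 289 * z ^ 9

/-- The inverse of `η_4`. -/
def i4 (z : R) : R := 9 - 4 * z ^ 2 + 4 * z ^ 3 + 2 * z ^ 4 + z ^ 5 + z ^ 6 + 2 * z ^ 7 + 4 * z ^ 8 - 4 * z ^ 9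

/-- The cofactor in the level certificate of `η_4`. -/
def w4 (z : R) : R := -43807 - 107995 * z - 172183 * z ^ 2 - 215992 * z ^ 3 - 225513 * z ^ 4 - 197723 * z ^ 5 - 141445 * z ^ 6 - 74547 * z ^ 7 - 18269 * z ^ 8 + 9521 * z ^ 9

theorem u4 (z : R) (h : 1 + z + z ^ 2 + z ^ 3 + z ^ 4 + z ^ 5 + z ^ 6 + z ^ 7 + z ^ 8 + z ^ 9 + z ^ 10 = 0) : v4 z * i4 z = 1 := by
  unfold v4 i4
  linear_combination (-973 + 973 * z + 3033 * z ^ 2 + 2547 * z ^ 3 + 2192 * z ^ 4 + 1611 * z ^ 5 + 702 * z ^ 6 - 360 * z ^ 7 - 1156 * z ^ 8) * h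

theorem l4 (z : R) (h : 1 + z + z ^ 2 + z ^ 3 + z ^ 4 + z ^ 5 + z ^ 6 + z ^ 7 + z ^ 8 + z ^ 9 + z ^ 10 = 0) :
    v4 z - ((3 : ℤ) : R) - ((2 : ℤ) : R) * (z - 1) ^ 8 = (z - 1) ^ (8 + 1) * w4 z := by
  unfold v4 w4
  push_cast
  linear_combination (-43920 + 330204 * z - 1063331 * z ^ 2 + 1903450 * z ^ 3 - 2053802 * z ^ 4 + 1360600 * z ^ 5 - 536588 * z ^ 6 + 113479 * z ^ 7 - 9521 * z ^ 8) * h

end Kummer11

/-- **Kummer's lemma** for `p = 11`. -/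
theorem kummer_eleven (K : Type*) [Field K] [NumberField K] [IsCyclotomicExtension {11} ℚ K] :
    KL 11 K := by
  have : Fact (Nat.Prime 11) := ⟨by norm_num⟩
  have hζ := IsCyclotomicExtension.zeta_spec 11 ℚ K
  have hs : 1 + hζ.toInteger + hζ.toInteger ^ 2 + hζ.toInteger ^ 3 + hζ.toInteger ^ 4 + hζ.toInteger ^ 5 + hζ.toInteger ^ 6 + hζ.toInteger ^ 7 + hζ.toInteger ^ 8 + hζ.toInteger ^ 9 + hζ.toInteger ^ 10 = 0 := by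
    simpa [Finset.sum_range_succ] using Kummer.toInteger_geom_sum hζ
  refine Kummer.kummer_of_levels' hζ (by norm_num) (m := 5) (by norm_num)
    ![Kummer11.v0 hζ.toInteger, Kummer11.v1 hζ.toInteger, Kummer11.v2 hζ.toInteger, Kummer11.v3 hζ.toInteger, Kummer11.v4 hζ.toInteger]
    ![Kummer11.i0 hζ.toInteger, Kummer11.i1 hζ.toInteger, Kummer11.i2 hζ.toInteger, Kummer11.i3 hζ.toInteger, Kummer11.i4 hζ.toInteger]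
    ?_ ![1, 2, 6, 9, 3] ![1, 3, 10, 9, 2] ![1, 2, 4, 6, 8]
    (Fin.strictMono_iff_lt_succ.mpr (by decide)) (by decide) (by decide) (by decide) (by decide) ?_
  · intro k
    fin_cases k
    · exact Kummer11.u0 _ hs
    · exact Kummer11.u1 _ hs
    · exact Kummer11.u2 _ hs
    · exact Kummer11.u3 _ hs
    · exact Kummer11.u4 _ hs
  · intro k
    fin_cases k
    · exact ⟨Kummer11.w0 hζ.toInteger, Kummer11.l0 _ hs⟩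
    · exact ⟨Kummer11.w1 hζ.toInteger, Kummer11.l1 _ hs⟩
    · exact ⟨Kummer11.w2 hζ.toInteger, Kummer11.l2 _ hs⟩
    · exact ⟨Kummer11.w3 hζ.toInteger, Kummer11.l3 _ hs⟩
    · exact ⟨Kummer11.w4 hζ.toInteger, Kummer11.l4 _ hs⟩

end Fermat.Agent.FLTSmall
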