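import Fermat.Agent.FLTSmall.PIDAux

/-!
# The ring of integers of the 11-th cyclotomic field is a PID

Minkowski bound `< 60`; every prime `q ≤ 59` other than `11` and `23` has `q ^ f > 59`, the prime
above `11` is generated by `ζ - 1`, and `(23, ζ - 4)` is generated by `1 + ζ + ζ ^ 3`.
-/

namespace Fermat.Agent.FLTSmall

open NumberField Polynomial Ideal Module InfinitePlace

/-- A principal prime above `23` in the 11-th cyclotomic field: `(23, ζ - 4) = (1 + ζ + ζ ^ 3)`. -/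
theorem eleven_exists_principal_twentythree (K : Type*) [Field K] [NumberField K]
    [IsCyclotomicExtension {11} ℚ K] (B : ℕ) :
    ∃ P ∈ primesOver (span {((23 : ℕ) : ℤ)}) (𝓞 K),
      B < 23 ^ P.inertiaDeg ℤ ∨ Submodule.IsPrincipal P := by
  have : Fact (Nat.Prime 11) := ⟨by norm_num⟩
  have hsum := toInteger_geom_sum_eq_zero 11 K
  simp only [Finset.sum_range_succ, Finset.sum_range_zero, zero_add, pow_zero, pow_one] at hsum
  set ζ := (IsCyclotomicExtension.zeta_spec 11 ℚ K).toInteger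
  refine exists_principal_of_cert 11 K 23 (by norm_num) B 4 (by decide)
    (1 + ζ + ζ ^ 3)
    (-2 - 14 * ζ - 17 * ζ ^ 2 - 12 * ζ ^ 3 - 5 * ζ ^ 4 - 9 * ζ ^ 5 - 10 * ζ ^ 6 - 16 * ζ ^ 7 - 6 * ζ ^ 8 - 15 * ζ ^ 9)
    (1 + 3 * ζ + 3 * ζ ^ 2 + 2 * ζ ^ 3 + ζ ^ 4 + 2 * ζ ^ 5 + 2 * ζ ^ 6 + 3 * ζ ^ 7 + ζ ^ 8 + 3 * ζ ^ 9)
    3 (17 + 4 * ζ + ζ ^ 2) ?_ ?_ ?_
  · push_cast
    linear_combination (-25 + 9 * ζ - 15 * ζ ^ 2) * hsum
  · push_cast
    linear_combination (5 - 2 * ζ + 3 * ζ ^ 2) * hsum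
  · push_cast
    ring

/-- If `IsCyclotomicExtension {11} ℚ K` then `𝓞 K` is a principal ideal domain. -/
theorem eleven_pid (K : Type*) [Field K] [NumberField K] [IsCyclotomicExtension {11} ℚ K] :
    IsPrincipalIdealRing (𝓞 K) := by
  have : Fact (Nat.Prime 11) := ⟨by norm_num⟩
  have : IsGalois ℚ K := IsCyclotomicExtension.isGalois {11} ℚ K
  refine pid_of_floor_le K 59 ?_ ?_
  · rw [IsCyclotomicExtension.Rat.discr_prime 11 K, IsCyclotomicExtension.finrank (n := 11) K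
      (Polynomial.cyclotomic.irreducible_rat (by simp)),
      IsCyclotomicExtension.Rat.nrComplexPlaces_eq_totient_div_two 11,
      Nat.totient_prime (by norm_num)]
    have hd : |(((-1 : ℤ) ^ ((11 - 1) / 2) * ((11 : ℕ) : ℤ) ^ (11 - 2) : ℤ) : ℝ)| =
        2357947691 := by
      norm_num
    have hfact : (((11 - 1 : ℕ).factorial : ℕ) : ℝ) = 3628800 := by
      norm_num [Nat.factorial]
    have hs : √(2357947691 : ℝ) < 48559 := by
      rw [Real.sqrt_lt' (by norm_num)]
      norm_num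
    have hpi : 4 / Real.pi < 4 / 3.14 :=
      div_lt_div_of_pos_left (by norm_num) (by norm_num) Real.pi_gt_d2
    have hpi0 : (0 : ℝ) ≤ 4 / Real.pi := by positivity
    rw [hd, hfact]
    calc (4 / Real.pi) ^ ((11 - 1) / 2) *
          (3628800 / ((11 - 1 : ℕ) : ℝ) ^ (11 - 1) * √2357947691)
        ≤ (4 / 3.14) ^ ((11 - 1) / 2) *
          (3628800 / ((11 - 1 : ℕ) : ℝ) ^ (11 - 1) * 48559) := by
          gcongr
      _ < ((59 : ℕ) : ℝ) + 1 := by norm_num
  · intro q hq hqp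
    interval_cases q <;>
    first
    | (refine absurd hqp ?_; norm_num; done)
    | exact exists_ramified 11 K 59
    | exact eleven_exists_principal_twentythree K 59
    | (refine exists_of_forall_pow_mod_ne_one 11 K _ hqp ?_ 59 ?_
       · norm_num
       · decide)

end Fermat.Agent.FLTSmall
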