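import Fermat.Agent.FLTSmall.Assembly
import Fermat.Agent.FLTSmall.CaseI
import Fermat.Agent.FLTSmall.CaseII
import Fermat.Agent.FLTSmall.PID11
import Fermat.Agent.FLTSmall.Kummer11

/-!
# Fermat's Last Theorem for the exponent 11

Kummer's proof for a regular prime, specialised to class number one: the first case is Sophie
Germain's theorem, the second case is the descent in the principal ideal domain `ℤ[ζ]` using
Kummer's lemma (proved here by exhibiting explicit units).
-/

set_option autoImplicit false

namespace Fermat.Agent.FLTSmall

open NumberField

/-- Fermat's Last Theorem for the exponent 11. -/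
theorem flt_eleven : FermatLastTheoremFor 11 := by
  have : Fact (Nat.Prime 11) := ⟨by norm_num⟩
  have : IsCyclotomicExtension {11} ℚ (CyclotomicField 11 ℚ) :=
    CyclotomicField.isCyclotomicExtension 11 ℚ
  have : IsPrincipalIdealRing (𝓞 (CyclotomicField 11 ℚ)) := eleven_pid _
  exact flt_of_cases (by norm_num) (by norm_num)
    (fun a b c _ h => caseI_dvd_mul 11 (by norm_num) a b c h)
    (fun a b c hab hc hpc h =>
      caseII 11 (by norm_num) (CyclotomicField 11 ℚ) (kummer_eleven _) hab hc hpc h)

end Fermat.Agent.FLTSmall
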