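import Mathlib
import Fermat.Agent.FLTSmall.KummerGeneric

/-!
# Kummer's lemma for the prime 13

Explicit units of `ℤ[ζ_13]` with leading levels [1, 2, 4, 6, 8, 10] (certificates generated by computer).
-/

set_option autoImplicit false

namespace Fermat.Agent.FLTSmall

open NumberField

namespace Kummer13

variable {R : Type*} [CommRing R]

/-- The unit `η_0`. -/
def v0 (z : R) : R := z

/-- The inverse of `η_0`. -/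
def i0 (z : R) : R := -1 - z - z ^ 2 - z ^ 3 - z ^ 4 - z ^ 5 - z ^ 6 - z ^ 7 - z ^ 8 - z ^ 9 - z ^ 10 - z ^ 11

/-- The cofactor in the level certificate of `η_0`. -/
def w0 (_z : R) : R := 0

theorem u0 (z : R) (h : 1 + z + z ^ 2 + z ^ 3 + z ^ 4 + z ^ 5 + z ^ 6 + z ^ 7 + z ^ 8 + z ^ 9 + z ^ 10 + z ^ 11 + z ^ 12 = 0) : v0 z * i0 z = 1 := by
  unfold v0 i0
  linear_combination (-1) * h

theorem l0 (z : R) (h : 1 + z + z ^ 2 + z ^ 3 + z ^ 4 + z ^ 5 + z ^ 6 + z ^ 7 + z ^ 8 + z ^ 9 + z ^ 10 + z ^ 11 + z ^ 12 = 0) :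
    v0 z - ((1 : ℤ) : R) - ((1 : ℤ) : R) * (z - 1) ^ 1 = (z - 1) ^ (1 + 1) * w0 z := by
  unfold v0 w0
  push_cast
  linear_combination (0) * h

/-- The unit `η_1`. -/
def v1 (z : R) : R := z ^ 6 + z ^ 7

/-- The inverse of `η_1`. -/
def i1 (z : R) : R := 1 + z ^ 2 + z ^ 4 + z ^ 6 + z ^ 7 + z ^ 9 + z ^ 11

/-- The cofactor in the level certificate of `η_1`. -/
def w1 (z : R) : R := 7 + 5 * z + 4 * z ^ 2 + 4 * z ^ 3 + 5 * z ^ 4 + 7 * z ^ 5 + 9 * z ^ 6 + 10 * z ^ 7 + 10 * z ^ 8 + 9 * z ^ 9 + 7 * z ^ 10 + 4 * z ^ 11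

theorem u1 (z : R) (h : 1 + z + z ^ 2 + z ^ 3 + z ^ 4 + z ^ 5 + z ^ 6 + z ^ 7 + z ^ 8 + z ^ 9 + z ^ 10 + z ^ 11 + z ^ 12 = 0) : v1 z * i1 z = 1 := by
  unfold v1 i1
  linear_combination (-1 + z + z ^ 6) * h

theorem l1 (z : R) (h : 1 + z + z ^ 2 + z ^ 3 + z ^ 4 + z ^ 5 + z ^ 6 + z ^ 7 + z ^ 8 + z ^ 9 + z ^ 10 + z ^ 11 + z ^ 12 = 0) :
    v1 z - ((2 : ℤ) : R) - ((10 : ℤ) : R) * (z - 1) ^ 2 = (z - 1) ^ (2 + 1) * w1 z := by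
  unfold v1 w1
  push_cast
  linear_combination (-5 + 9 * z - 4 * z ^ 2) * h

/-- The unit `η_2`. -/
def v2 (z : R) : R := 1 + z ^ 2 + z ^ 4 + z ^ 5 + 2 * z ^ 6 + 2 * z ^ 7 + z ^ 8 + z ^ 9 + z ^ 11

/-- The inverse of `η_2`. -/
def i2 (z : R) : R := 2 - z ^ 2 + 2 * z ^ 3 + z ^ 4 - 2 * z ^ 5 + 2 * z ^ 6 + 2 * z ^ 7 - 2 * z ^ 8 + z ^ 9 + 2 * z ^ 10 - z ^ 11

/-- The cofactor in the level certificate of `η_2`. -/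
def w2 (z : R) : R := 31 + 34 * z + 17 * z ^ 2 - 16 * z ^ 3 - 58 * z ^ 4 - 100 * z ^ 5 - 133 * z ^ 6 - 150 * z ^ 7 - 147 * z ^ 8 - 124 * z ^ 9 - 85 * z ^ 10 - 39 * z ^ 11

theorem u2 (z : R) (h : 1 + z + z ^ 2 + z ^ 3 + z ^ 4 + z ^ 5 + z ^ 6 + z ^ 7 + z ^ 8 + z ^ 9 + z ^ 10 + z ^ 11 + z ^ 12 = 0) : v2 z * i2 z = 1 := by
  unfold v2 i2
  linear_combination (1 - z + z ^ 2 + z ^ 3 + 4 * z ^ 6 - z ^ 7 - 2 * z ^ 8 + 3 * z ^ 9 - z ^ 10) * h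

theorem l2 (z : R) (h : 1 + z + z ^ 2 + z ^ 3 + z ^ 4 + z ^ 5 + z ^ 6 + z ^ 7 + z ^ 8 + z ^ 9 + z ^ 10 + z ^ 11 + z ^ 12 = 0) :
    v2 z - ((11 : ℤ) : R) - ((8 : ℤ) : R) * (z - 1) ^ 4 = (z - 1) ^ (4 + 1) * w2 z := by
  unfold v2 w2
  push_cast
  linear_combination (13 - 102 * z + 199 * z ^ 2 - 149 * z ^ 3 + 39 * z ^ 4) * h

/-- The unit `η_3`. -/
def v3 (z : R) : R := -14 + 45 * z ^ 2 + 124 * z ^ 3 + 228 * z ^ 4 + 330 * z ^ 5 + 394 * z ^ 6 + 394 * z ^ 7 + 330 * z ^ 8 + 228 * z ^ 9 + 124 * z ^ 10 + 45 * z ^ 11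

/-- The inverse of `η_3`. -/
def i3 (z : R) : R := 41 - 7 * z ^ 2 + 33 * z ^ 3 + 20 * z ^ 4 - 21 * z ^ 5 + 30 * z ^ 6 + 30 * z ^ 7 - 21 * z ^ 8 + 20 * z ^ 9 + 33 * z ^ 10 - 7 * z ^ 11

/-- The cofactor in the level certificate of `η_3`. -/
def w3 (z : R) : R := -2120 + 4019 * z + 17037 * z ^ 2 + 33949 * z ^ 3 + 50861 * z ^ 4 + 63879 * z ^ 5 + 70018 * z ^ 6 + 67888 * z ^ 7 + 57998 * z ^ 8 + 42621 * z ^ 9 + 25267 * z ^ 10 + 9890 * z ^ 11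

theorem u3 (z : R) (h : 1 + z + z ^ 2 + z ^ 3 + z ^ 4 + z ^ 5 + z ^ 6 + z ^ 7 + z ^ 8 + z ^ 9 + z ^ 10 + z ^ 11 + z ^ 12 = 0) : v3 z * i3 z = 1 := by
  unfold v3 i3
  linear_combination (-575 + 575 * z + 1943 * z ^ 2 + 2679 * z ^ 3 + 4131 * z ^ 4 + 5688 * z ^ 5 + 4689 * z ^ 6 + 3353 * z ^ 7 + 2779 * z ^ 8 + 932 * z ^ 9 - 315 * z ^ 10) * h

theorem l3 (z : R) (h : 1 + z + z ^ 2 + z ^ 3 + z ^ 4 + z ^ 5 + z ^ 6 + z ^ 7 + z ^ 8 + z ^ 9 + z ^ 10 + z ^ 11 + z ^ 12 = 0) :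
    v3 z - ((5 : ℤ) : R) - ((10 : ℤ) : R) * (z - 1) ^ 6 = (z - 1) ^ (6 + 1) * w3 z := by
  unfold v3 w3
  push_cast
  linear_combination (-2149 + 21068 * z - 74640 * z ^ 2 + 129334 * z ^ 3 - 117405 * z ^ 4 + 53853 * z ^ 5 - 9890 * z ^ 6) * h

/-- The unit `η_4`. -/
def v4 (z : R) : R := -1 + 2 * z ^ 2 + 3 * z ^ 3 + 6 * z ^ 4 + 10 * z ^ 5 + 10 * z ^ 6 + 10 * z ^ 7 + 10 * z ^ 8 + 6 * z ^ 9 + 3 * z ^ 10 + 2 * z ^ 11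

/-- The inverse of `η_4`. -/
def i4 (z : R) : R := 28 - 31 * z ^ 2 - 14 * z ^ 3 + 24 * z ^ 4 + 14 * z ^ 5 - 25 * z ^ 6 - 25 * z ^ 7 + 14 * z ^ 8 + 24 * z ^ 9 - 14 * z ^ 10 - 31 * z ^ 11

/-- The cofactor in the level certificate of `η_4`. -/
def w4 (z : R) : R := -897 - 2806 * z - 5281 * z ^ 2 - 7756 * z ^ 3 - 9665 * z ^ 4 - 10571 * z ^ 5 - 10266 * z ^ 6 - 8819 * z ^ 7 - 6561 * z ^ 8 - 4010 * z ^ 9 - 1752 * z ^ 10 - 305 * z ^ 11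

theorem u4 (z : R) (h : 1 + z + z ^ 2 + z ^ 3 + z ^ 4 + z ^ 5 + z ^ 6 + z ^ 7 + z ^ 8 + z ^ 9 + z ^ 10 + z ^ 11 + z ^ 12 = 0) : v4 z * i4 z = 1 := by
  unfold v4 i4
  linear_combination (-29 + 29 * z + 87 * z ^ 2 + 11 * z ^ 3 - 16 * z ^ 4 + 63 * z ^ 5 - 20 * z ^ 6 - 114 * z ^ 7 - 59 * z ^ 8 - 59 * z ^ 9 - 62 * z ^ 10) * h

theorem l4 (z : R) (h : 1 + z + z ^ 2 + z ^ 3 + z ^ 4 + z ^ 5 + z ^ 6 + z ^ 7 + z ^ 8 + z ^ 9 + z ^ 10 + z ^ 11 + z ^ 12 = 0) :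
    v4 z - ((9 : ℤ) : R) - ((9 : ℤ) : R) * (z - 1) ^ 8 = (z - 1) ^ (8 + 1) * w4 z := by
  unfold v4 w4
  push_cast
  linear_combination (-916 + 6255 * z - 17908 * z ^ 2 + 27181 * z ^ 3 - 22531 * z ^ 4 + 8701 * z ^ 5 + 215 * z ^ 6 - 1298 * z ^ 7 + 305 * z ^ 8) * h

/-- The unit `η_5`. -/
def v5 (z : R) : R := -143 - 81 * z ^ 2 - 112 * z ^ 3 + 24 * z ^ 4 - 141 * z ^ 5 - 35 * z ^ 6 - 35 * z ^ 7 - 141 * z ^ 8 + 24 * z ^ 9 - 112 * z ^ 10 - 81 * z ^ 11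

/-- The inverse of `η_5`. -/
def i5 (z : R) : R := -2 + 29 * z ^ 2 + 60 * z ^ 3 + 106 * z ^ 4 + 141 * z ^ 5 + 165 * z ^ 6 + 165 * z ^ 7 + 141 * z ^ 8 + 106 * z ^ 9 + 60 * z ^ 10 + 29 * z ^ 11

/-- The cofactor in the level certificate of `η_5`. -/
def w5 (z : R) : R := 2200 + 5037 * z + 7874 * z ^ 2 + 10063 * z ^ 3 + 11103 * z ^ 4 + 10753 * z ^ 5 + 9091 * z ^ 6 + 6497 * z ^ 7 + 3566 * z ^ 8 + 972 * z ^ 9 - 690 * z ^ 10 - 1040 * z ^ 11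

theorem u5 (z : R) (h : 1 + z + z ^ 2 + z ^ 3 + z ^ 4 + z ^ 5 + z ^ 6 + z ^ 7 + z ^ 8 + z ^ 9 + z ^ 10 + z ^ 11 + z ^ 12 = 0) : v5 z * i5 z = 1 := by
  unfold v5 i5
  linear_combination (285 - 285 * z - 3985 * z ^ 2 - 4371 * z ^ 3 - 9199 * z ^ 4 - 10434 * z ^ 5 - 10146 * z ^ 6 - 11332 * z ^ 7 - 6502 * z ^ 8 - 5759 * z ^ 9 - 2349 * z ^ 10) * h

theorem l5 (z : R) (h : 1 + z + z ^ 2 + z ^ 3 + z ^ 4 + z ^ 5 + z ^ 6 + z ^ 7 + z ^ 8 + z ^ 9 + z ^ 10 + z ^ 11 + z ^ 12 = 0) :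
    v5 z - ((12 : ℤ) : R) - ((11 : ℤ) : R) * (z - 1) ^ 10 = (z - 1) ^ (10 + 1) * w5 z := by
  unfold v5 w5
  push_cast
  linear_combination (2034 - 21087 * z + 91944 * z ^ 2 - 234199 * z ^ 3 + 387397 * z ^ 4 - 434773 * z ^ 5 + 335143 * z ^ 6 - 175162 * z ^ 7 + 59388 * z ^ 8 - 11790 * z ^ 9 + 1040 * z ^ 10) * h

end Kummer13

/-- **Kummer's lemma** for `p = 13`. -/
theorem kummer_thirteen (K : Type*) [Field K] [NumberField K] [IsCyclotomicExtension {13} ℚ K] :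
    KL 13 K := by
  have : Fact (Nat.Prime 13) := ⟨by norm_num⟩
  have hζ := IsCyclotomicExtension.zeta_spec 13 ℚ K
  have hs : 1 + hζ.toInteger + hζ.toInteger ^ 2 + hζ.toInteger ^ 3 + hζ.toInteger ^ 4 + hζ.toInteger ^ 5 + hζ.toInteger ^ 6 + hζ.toInteger ^ 7 + hζ.toInteger ^ 8 + hζ.toInteger ^ 9 + hζ.toInteger ^ 10 + hζ.toInteger ^ 11 + hζ.toInteger ^ 12 = 0 := by
    simpa [Finset.sum_range_succ] using Kummer.toInteger_geom_sum hζ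
  refine Kummer.kummer_of_levels' hζ (by norm_num) (m := 6) (by norm_num)
    ![Kummer13.v0 hζ.toInteger, Kummer13.v1 hζ.toInteger, Kummer13.v2 hζ.toInteger, Kummer13.v3 hζ.toInteger, Kummer13.v4 hζ.toInteger, Kummer13.v5 hζ.toInteger]
    ![Kummer13.i0 hζ.toInteger, Kummer13.i1 hζ.toInteger, Kummer13.i2 hζ.toInteger, Kummer13.i3 hζ.toInteger, Kummer13.i4 hζ.toInteger, Kummer13.i5 hζ.toInteger]
    ?_ ![1, 2, 11, 5, 9, 12] ![1, 10, 8, 10, 9, 11] ![1, 2, 4, 6, 8, 10]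
    (Fin.strictMono_iff_lt_succ.mpr (by decide)) (by decide) (by decide) (by decide) (by decide) ?_
  · intro k
    fin_cases k
    · exact Kummer13.u0 _ hs
    · exact Kummer13.u1 _ hs
    · exact Kummer13.u2 _ hs
    · exact Kummer13.u3 _ hs
    · exact Kummer13.u4 _ hs
    · exact Kummer13.u5 _ hs
  · intro k
    fin_cases k
    · exact ⟨Kummer13.w0 hζ.toInteger, Kummer13.l0 _ hs⟩
    · exact ⟨Kummer13.w1 hζ.toInteger, Kummer13.l1 _ hs⟩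
    · exact ⟨Kummer13.w2 hζ.toInteger, Kummer13.l2 _ hs⟩
    · exact ⟨Kummer13.w3 hζ.toInteger, Kummer13.l3 _ hs⟩
    · exact ⟨Kummer13.w4 hζ.toInteger, Kummer13.l4 _ hs⟩
    · exact ⟨Kummer13.w5 hζ.toInteger, Kummer13.l5 _ hs⟩

end Fermat.Agent.FLTSmall
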