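import Mathlib

/-!
# The ring of integers of the 13-th cyclotomic field is a PID

Minkowski bound (floor 306) plus explicit principal primes over 3, 13, 53, 79, 131, 157.
-/

namespace Fermat.Agent.FLTSmall

open NumberField Polynomial Ideal

/-- Generic certificate: a principal prime over `q` in a cyclotomic ring of integers. -/
theorem pid13_exists_principal_prime {n : ℕ} [NeZero n] {K : Type*} [Field K] [NumberField K]
    [IsCyclotomicExtension {n} ℚ K] {ζ : K} (hζ : IsPrimitiveRoot ζ n)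
    (q : ℕ) [Fact q.Prime] (g : ℤ[X])
    (hg : Irreducible (g.map (Int.castRingHom (ZMod q))))
    (hΦ : g.map (Int.castRingHom (ZMod q)) ∣ (cyclotomic n ℤ).map (Int.castRingHom (ZMod q)))
    (a : ℤ[X]) (ha : g.map (Int.castRingHom (ZMod q)) ∣ a.map (Int.castRingHom (ZMod q)))
    (β γ : 𝓞 K) (h1 : aeval hζ.toInteger a * β = (q : 𝓞 K))
    (h2 : aeval hζ.toInteger a * γ = aeval hζ.toInteger g) :
    ∃ P ∈ primesOver (span {(q : ℤ)}) (𝓞 K), P.IsPrincipal := by
  classical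
  have : Fact (Irreducible (g.map (Int.castRingHom (ZMod q)))) := ⟨hg⟩
  set gb : (ZMod q)[X] := g.map (Int.castRingHom (ZMod q)) with hgb
  let F := AdjoinRoot gb
  -- the ring hom ψ : ℤ[X] → F
  let ψ : ℤ[X] →+* F := (AdjoinRoot.mk gb).comp (mapRingHom (Int.castRingHom (ZMod q)))
  have hψ : ∀ f : ℤ[X], ψ f = 0 ↔ gb ∣ f.map (Int.castRingHom (ZMod q)) := by
    intro f
    simp only [ψ, RingHom.comp_apply, coe_mapRingHom]
    exact AdjoinRoot.mk_eq_zero
  have hψaeval : ∀ f : ℤ[X], aeval (AdjoinRoot.root gb) f = ψ f := by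
    intro f
    have : ((aeval (AdjoinRoot.root gb) : ℤ[X] →ₐ[ℤ] F) : ℤ[X] →+* F) = ψ := by
      apply Polynomial.ringHom_ext
      · intro z
        simp [ψ]
      · simp [ψ]
    exact congrArg (fun φ : ℤ[X] →+* F => φ f) this
  let pb := hζ.integralPowerBasis
  have hpbgen : pb.gen = hζ.toInteger := hζ.integralPowerBasis_gen
  have hmin : minpoly ℤ pb.gen = cyclotomic n ℤ := by
    rw [hpbgen, ← RingOfIntegers.minpoly_coe]
    exact (cyclotomic_eq_minpoly hζ (NeZero.pos n)).symm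
  have hroot : aeval (AdjoinRoot.root gb) (minpoly ℤ pb.gen) = 0 := by
    rw [hmin, hψaeval, hψ]
    exact hΦ
  let φ : 𝓞 K →ₐ[ℤ] F := pb.lift (AdjoinRoot.root gb) hroot
  have hφ : ∀ f : ℤ[X], φ (aeval hζ.toInteger f) = ψ f := by
    intro f
    rw [← hpbgen, ← hψaeval]
    exact pb.lift_aeval _ hroot f
  let P : Ideal (𝓞 K) := RingHom.ker (φ : 𝓞 K →+* F)
  have hPprime : P.IsPrime := RingHom.ker_isPrime _
  have hPmem : ∀ x : 𝓞 K, x ∈ P ↔ φ x = 0 := fun x => by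
    simp [P, RingHom.mem_ker]
  have hover : P.LiesOver (span {(q : ℤ)}) := by
    refine ⟨?_⟩
    ext m
    rw [Ideal.mem_span_singleton, Ideal.under_def, Ideal.mem_comap, hPmem]
    have h3 : φ (algebraMap ℤ (𝓞 K) m) = algebraMap (ZMod q) F (m : ZMod q) := by
      rw [AlgHom.commutes]
      simp
    rw [h3, map_eq_zero_iff _ (algebraMap (ZMod q) F).injective,
      ZMod.intCast_zmod_eq_zero_iff_dvd]
  refine ⟨P, ⟨hPprime, hover⟩, ⟨aeval hζ.toInteger a, ?_⟩⟩
  apply le_antisymm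
  · intro x hx
    rw [hPmem] at hx
    obtain ⟨f, rfl⟩ := pb.exists_eq_aeval' x
    rw [hpbgen] at hx ⊢
    rw [hφ, hψ] at hx
    obtain ⟨hb, hhb⟩ := hx
    obtain ⟨h, rfl⟩ := Polynomial.map_surjective (Int.castRingHom (ZMod q))
      (ZMod.intCast_surjective) hb
    have h4 : (C (q : ℤ)) ∣ f - g * h := by
      rw [Polynomial.C_dvd_iff_dvd_coeff]
      intro i
      rw [← ZMod.intCast_zmod_eq_zero_iff_dvd]
      have := congrArg (fun t : (ZMod q)[X] => t.coeff i) hhb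
      simp only [coeff_map] at this
      have h5 : ((f - g * h).coeff i : ZMod q) = (f.map (Int.castRingHom (ZMod q))).coeff i
          - ((g * h).map (Int.castRingHom (ZMod q))).coeff i := by
        rw [coeff_map, coeff_map]
        simp
      rw [h5, Polynomial.map_mul, ← hgb, coeff_map, this, sub_self]
    obtain ⟨k, hk⟩ := h4
    have h6 : f = g * h + C (q : ℤ) * k := by rw [← hk]; ring
    rw [h6]
    simp only [map_add, map_mul, aeval_C]
    rw [← h2]
    have h7 : (algebraMap ℤ (𝓞 K)) (q : ℤ) = (q : 𝓞 K) := by simp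
    rw [h7, ← h1]
    rw [Submodule.mem_span_singleton]
    refine ⟨γ * aeval hζ.toInteger h + β * aeval hζ.toInteger k, ?_⟩
    simp only [smul_eq_mul]
    ring
  · rw [Submodule.span_singleton_le_iff_mem, hPmem, hφ, hψ]
    exact ha

/-- Linear case of the certificate: a degree one prime over `q`. -/
theorem pid13_exists_principal_prime_linear {n : ℕ} [NeZero n] {K : Type*} [Field K]
    [NumberField K] [IsCyclotomicExtension {n} ℚ K] {ζ : K} (hζ : IsPrimitiveRoot ζ n)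
    (q : ℕ) [Fact q.Prime] (r : ℤ)
    (hΦ : (q : ℤ) ∣ (cyclotomic n ℤ).eval r)
    (a : ℤ[X]) (ha : (q : ℤ) ∣ a.eval r)
    (β γ : 𝓞 K) (h1 : aeval hζ.toInteger a * β = (q : 𝓞 K))
    (h2 : aeval hζ.toInteger a * γ = hζ.toInteger - (r : 𝓞 K)) :
    ∃ P ∈ primesOver (span {(q : ℤ)}) (𝓞 K), P.IsPrincipal := by
  have hmap : (X - C r : ℤ[X]).map (Int.castRingHom (ZMod q)) = X - C (r : ZMod q) := by
    simp
  have key : ∀ f : ℤ[X], (q : ℤ) ∣ f.eval r →
      (X - C r : ℤ[X]).map (Int.castRingHom (ZMod q)) ∣ f.map (Int.castRingHom (ZMod q)) := by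
    intro f hf
    rw [hmap, dvd_iff_isRoot, IsRoot.def, eval_intCast_map, eq_intCast,
      ZMod.intCast_zmod_eq_zero_iff_dvd]
    exact hf
  refine pid13_exists_principal_prime hζ q (X - C r) ?_ (key _ hΦ) a (key _ ha) β γ h1 ?_
  · rw [hmap]
    exact irreducible_X_sub_C _
  · rw [h2]
    simp

/-- The expanded cyclotomic relation for a primitive 13-th root of unity. -/
theorem pid13_geom {K : Type*} [Field K] [NumberField K] {ζ : K} (hζ : IsPrimitiveRoot ζ 13) :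
    1 + hζ.toInteger + hζ.toInteger ^ 2 + hζ.toInteger ^ 3 + hζ.toInteger ^ 4 + hζ.toInteger ^ 5
      + hζ.toInteger ^ 6 + hζ.toInteger ^ 7 + hζ.toInteger ^ 8 + hζ.toInteger ^ 9
      + hζ.toInteger ^ 10 + hζ.toInteger ^ 11 + hζ.toInteger ^ 12 = 0 := by
  have h := hζ.toInteger_isPrimitiveRoot.geom_sum_eq_zero (by norm_num)
  simpa [Finset.sum_range_succ] using h

theorem pid13_prime_13 {K : Type*} [Field K] [NumberField K] [IsCyclotomicExtension {13} ℚ K] :
    ∃ P ∈ primesOver (span {(((13 : ℕ)) : ℤ)}) (𝓞 K), P.IsPrincipal := by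
  have : Fact (Nat.Prime 13) := ⟨by norm_num⟩
  have hζ := IsCyclotomicExtension.zeta_spec 13 ℚ K
  have hz := pid13_geom hζ
  set z := hζ.toInteger with hzdef
  refine pid13_exists_principal_prime_linear hζ 13 1 ?_ (X - 1) ?_
    (-12 - 11 * z - 10 * z ^ 2 - 9 * z ^ 3 - 8 * z ^ 4 - 7 * z ^ 5 - 6 * z ^ 6 - 5 * z ^ 7
      - 4 * z ^ 8 - 3 * z ^ 9 - 2 * z ^ 10 - z ^ 11)
    1 ?_ ?_
  · rw [cyclotomic_prime]
    simp only [Finset.sum_range_succ, Finset.range_zero, Finset.sum_empty, eval_add, eval_pow,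
      eval_X]
    norm_num
  · simp
  · simp only [map_add, map_sub, map_pow, aeval_X, map_one]
    linear_combination (-1) * hz
  · simp

theorem pid13_prime_53 {K : Type*} [Field K] [NumberField K] [IsCyclotomicExtension {13} ℚ K] :
    ∃ P ∈ primesOver (span {(((53 : ℕ)) : ℤ)}) (𝓞 K), P.IsPrincipal := by
  have : Fact (Nat.Prime 53) := ⟨by norm_num⟩
  have h13 : Fact (Nat.Prime 13) := ⟨by norm_num⟩
  have hζ := IsCyclotomicExtension.zeta_spec 13 ℚ K
  have hz := pid13_geom hζ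
  set z := hζ.toInteger with hzdef
  refine pid13_exists_principal_prime_linear hζ 53 36 ?_ (1 + X + X ^ 3) ?_
    (1 - 24 * z - 35 * z ^ 2 - 25 * z ^ 3 - 10 * z ^ 4 - 14 * z ^ 5 - 20 * z ^ 6 - 29 * z ^ 7 - 16 * z ^ 8 - 23 * z ^ 9 - 7 * z ^ 10 - 36 * z ^ 11)
    (17 * z + 24 * z ^ 2 + 17 * z ^ 3 + 7 * z ^ 4 + 10 * z ^ 5 + 14 * z ^ 6 + 20 * z ^ 7 + 11 * z ^ 8 + 16 * z ^ 9 + 5 * z ^ 10 + 25 * z ^ 11) ?_ ?_
  · rw [cyclotomic_prime]
    simp only [Finset.sum_range_succ, Finset.range_zero, Finset.sum_empty, eval_add, eval_pow,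
      eval_X]
    norm_num
  · simp only [eval_add, eval_sub, eval_pow, eval_X, eval_one]
    norm_num
  · simp only [map_add, map_sub, map_pow, aeval_X, map_one]
    linear_combination (-52 + 29 * z - 36 * z ^ 2) * hz
  · simp only [map_add, map_sub, map_pow, aeval_X, map_one]
    push_cast
    linear_combination (36 - 20 * z + 25 * z ^ 2) * hz

theorem pid13_prime_79 {K : Type*} [Field K] [NumberField K] [IsCyclotomicExtension {13} ℚ K] :
    ∃ P ∈ primesOver (span {(((79 : ℕ)) : ℤ)}) (𝓞 K), P.IsPrincipal := by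
  have : Fact (Nat.Prime 79) := ⟨by norm_num⟩
  have h13 : Fact (Nat.Prime 13) := ⟨by norm_num⟩
  have hζ := IsCyclotomicExtension.zeta_spec 13 ℚ K
  have hz := pid13_geom hζ
  set z := hζ.toInteger with hzdef
  refine pid13_exists_principal_prime_linear hζ 79 64 ?_ (1 + X - X ^ 4) ?_
    (24 - 25 * z - 27 * z ^ 2 + 10 * z ^ 3 - 3 * z ^ 4 - 39 * z ^ 5 - 5 * z ^ 6 - 2 * z ^ 7 - 18 * z ^ 8 - 38 * z ^ 9 + 16 * z ^ 10 - 35 * z ^ 11)
    (-19 + 21 * z + 22 * z ^ 2 - 8 * z ^ 3 + 3 * z ^ 4 + 32 * z ^ 5 + 4 * z ^ 6 + 2 * z ^ 7 + 15 * z ^ 8 + 31 * z ^ 9 - 13 * z ^ 10 + 29 * z ^ 11) ?_ ?_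
  · rw [cyclotomic_prime]
    simp only [Finset.sum_range_succ, Finset.range_zero, Finset.sum_empty, eval_add, eval_pow,
      eval_X]
    norm_num
  · simp only [eval_add, eval_sub, eval_pow, eval_X, eval_one]
    norm_num
  · simp only [map_add, map_sub, map_pow, aeval_X, map_one]
    linear_combination (-55 + 54 * z - 51 * z ^ 2 + 35 * z ^ 3) * hz
  · simp only [map_add, map_sub, map_pow, aeval_X, map_one]
    push_cast
    linear_combination (45 - 44 * z + 42 * z ^ 2 - 29 * z ^ 3) * hz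

theorem pid13_prime_131 {K : Type*} [Field K] [NumberField K] [IsCyclotomicExtension {13} ℚ K] :
    ∃ P ∈ primesOver (span {(((131 : ℕ)) : ℤ)}) (𝓞 K), P.IsPrincipal := by
  have : Fact (Nat.Prime 131) := ⟨by norm_num⟩
  have h13 : Fact (Nat.Prime 13) := ⟨by norm_num⟩
  have hζ := IsCyclotomicExtension.zeta_spec 13 ℚ K
  have hz := pid13_geom hζ
  set z := hζ.toInteger with hzdef
  refine pid13_exists_principal_prime_linear hζ 131 80 ?_ (1 - X - X ^ 3) ?_
    (111 + 78 * z + 17 * z ^ 2 + 67 * z ^ 3 + 84 * z ^ 4 + 40 * z ^ 5 + 46 * z ^ 6 + 69 * z ^ 7 + 48 * z ^ 8 + 33 * z ^ 9 + 41 * z ^ 10 + 28 * z ^ 11)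
    (-68 - 47 * z - 10 * z ^ 2 - 41 * z ^ 3 - 51 * z ^ 4 - 24 * z ^ 5 - 28 * z ^ 6 - 42 * z ^ 7 - 29 * z ^ 8 - 20 * z ^ 9 - 25 * z ^ 10 - 17 * z ^ 11) ?_ ?_
  · rw [cyclotomic_prime]
    simp only [Finset.sum_range_succ, Finset.range_zero, Finset.sum_empty, eval_add, eval_pow,
      eval_X]
    norm_num
  · simp only [eval_add, eval_sub, eval_pow, eval_X, eval_one]
    norm_num
  · simp only [map_add, map_sub, map_pow, aeval_X, map_one]
    linear_combination (-20 - 13 * z - 28 * z ^ 2) * hz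
  · simp only [map_add, map_sub, map_pow, aeval_X, map_one]
    push_cast
    linear_combination (12 + 8 * z + 17 * z ^ 2) * hz

theorem pid13_prime_157 {K : Type*} [Field K] [NumberField K] [IsCyclotomicExtension {13} ℚ K] :
    ∃ P ∈ primesOver (span {(((157 : ℕ)) : ℤ)}) (𝓞 K), P.IsPrincipal := by
  have : Fact (Nat.Prime 157) := ⟨by norm_num⟩
  have h13 : Fact (Nat.Prime 13) := ⟨by norm_num⟩
  have hζ := IsCyclotomicExtension.zeta_spec 13 ℚ K
  have hz := pid13_geom hζ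
  set z := hζ.toInteger with hzdef
  refine pid13_exists_principal_prime_linear hζ 157 75 ?_ (1 - X + X ^ 2 + X ^ 4) ?_
    (89 + 86 * z + 42 * z ^ 2 + 77 * z ^ 3 + 67 * z ^ 4 + 25 * z ^ 5 + 37 * z ^ 6 + 56 * z ^ 7 + 73 * z ^ 8 + 113 * z ^ 9 + 124 * z ^ 10 + 76 * z ^ 11)
    (-43 - 41 * z - 20 * z ^ 2 - 37 * z ^ 3 - 32 * z ^ 4 - 12 * z ^ 5 - 18 * z ^ 6 - 27 * z ^ 7 - 35 * z ^ 8 - 54 * z ^ 9 - 59 * z ^ 10 - 36 * z ^ 11) ?_ ?_
  · rw [cyclotomic_prime]
    simp only [Finset.sum_range_succ, Finset.range_zero, Finset.sum_empty, eval_add, eval_pow,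
      eval_X]
    norm_num
  · simp only [eval_add, eval_sub, eval_pow, eval_X, eval_one]
    norm_num
  · simp only [map_add, map_sub, map_pow, aeval_X, map_one]
    linear_combination (-68 + 65 * z + 48 * z ^ 2 + 76 * z ^ 3) * hz
  · simp only [map_add, map_sub, map_pow, aeval_X, map_one]
    push_cast
    linear_combination (32 - 31 * z - 23 * z ^ 2 - 36 * z ^ 3) * hz

theorem pid13_no_root_three : ∀ x : ZMod 3, ¬ x ^ 3 - x - 1 = 0 := by decide

theorem pid13_prime_3 {K : Type*} [Field K] [NumberField K] [IsCyclotomicExtension {13} ℚ K] :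
    ∃ P ∈ primesOver (span {(((3 : ℕ)) : ℤ)}) (𝓞 K), P.IsPrincipal := by
  have : Fact (Nat.Prime 3) := ⟨by norm_num⟩
  have h13 : Fact (Nat.Prime 13) := ⟨by norm_num⟩
  have hζ := IsCyclotomicExtension.zeta_spec 13 ℚ K
  have hz := pid13_geom hζ
  set z := hζ.toInteger with hzdef
  have hmap : (X ^ 3 - X - 1 : ℤ[X]).map (Int.castRingHom (ZMod 3)) = X ^ 3 - X - 1 := by
    simp
  refine pid13_exists_principal_prime hζ 3 (X ^ 3 - X - 1) ?_ ?_ (1 + X - X ^ 3) ?_
    (-1 - z ^ 2 - z ^ 3 - 2 * z ^ 5 - z ^ 7 - 2 * z ^ 8 + z ^ 9 - 3 * z ^ 10)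
    (-1) ?_ ?_
  · rw [hmap]
    apply irreducible_of_degree_le_three_of_not_isRoot
    · have : (X ^ 3 - X - 1 : (ZMod 3)[X]).natDegree = 3 := by compute_degree!
      rw [this]
      decide
    · intro x
      rw [IsRoot.def]
      simp only [eval_sub, eval_pow, eval_X, eval_one]
      exact pid13_no_root_three x
  · refine ⟨(20 + 15 * X + 11 * X ^ 2 + 8 * X ^ 3 + 6 * X ^ 4 + 4 * X ^ 5 + 3 * X ^ 6
      + 2 * X ^ 7 + X ^ 8 + X ^ 9 : ℤ[X]).map (Int.castRingHom (ZMod 3)), ?_⟩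
    have h3 : cyclotomic 13 ℤ = (X ^ 3 - X - 1) * (20 + 15 * X + 11 * X ^ 2 + 8 * X ^ 3
        + 6 * X ^ 4 + 4 * X ^ 5 + 3 * X ^ 6 + 2 * X ^ 7 + X ^ 8 + X ^ 9)
        + C 3 * (7 + 12 * X + 9 * X ^ 2) := by
      rw [cyclotomic_prime]
      simp only [Finset.sum_range_succ, Finset.range_zero, Finset.sum_empty]
      simp only [map_ofNat]
      ring
    have h0 : (Int.castRingHom (ZMod 3)) 3 = 0 := by
      rw [eq_intCast, ZMod.intCast_zmod_eq_zero_iff_dvd]
      norm_num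
    rw [h3]
    simp only [Polynomial.map_add, Polynomial.map_mul, Polynomial.map_C, h0, map_zero, zero_mul,
      add_zero]
  · refine ⟨-1, ?_⟩
    simp
    ring
  · simp only [map_add, map_sub, map_pow, aeval_X, map_one]
    push_cast
    linear_combination (-4 + 3 * z) * hz
  · simp only [map_add, map_sub, map_pow, aeval_X, map_one]
    ring

/-- Arithmetic: the only prime powers `q ^ f < 307` congruent to `1` mod `13` with `f ∣ 12`. -/
theorem pid13_arith_aux (q f : ℕ) (hq : q.Prime) (hf : f ∣ 12) (h1 : q ^ f % 13 = 1)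
    (hlt : q ^ f < 307) : q = 3 ∨ q = 53 ∨ q = 79 ∨ q = 131 ∨ q = 157 := by
  have hfmem : f ∈ Nat.divisors 12 := Nat.mem_divisors.mpr ⟨hf, by norm_num⟩
  have hdiv : Nat.divisors 12 = {1, 2, 3, 4, 6, 12} := by decide
  rw [hdiv] at hfmem
  simp only [Finset.mem_insert, Finset.mem_singleton] at hfmem
  have hq2 := hq.two_le
  have hkey : ∀ e : ℕ, 2 ≤ e → q ^ e < 307 → q < 18 := by
    intro e he hlt'
    by_contra hcon
    have h18 : 18 ≤ q := by omega
    have h2 : q ^ 2 ≤ q ^ e := Nat.pow_le_pow_right (by omega) he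
    have h3 : 18 ^ 2 ≤ q ^ 2 := Nat.pow_le_pow_left h18 2
    omega
  rcases hfmem with rfl | rfl | rfl | rfl | rfl | rfl
  · rw [pow_one] at h1 hlt
    obtain ⟨k, rfl⟩ : ∃ k, q = 13 * k + 1 := ⟨q / 13, by omega⟩
    have hk : k ≤ 23 := by omega
    interval_cases k <;> first | omega | (exfalso; revert hq; norm_num)
  all_goals
    have hq18 : q < 18 := hkey _ (by norm_num) hlt
    interval_cases q <;> first | omega | (exfalso; revert hq; norm_num)

theorem pid13_arith (q : ℕ) (hq : q.Prime)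
    (hex : ¬ (q = 3 ∨ q = 13 ∨ q = 53 ∨ q = 79 ∨ q = 131 ∨ q = 157)) :
    307 ≤ q ^ orderOf (q : ZMod 13) := by
  have h13 : Fact (Nat.Prime 13) := ⟨by norm_num⟩
  have hq13 : q ≠ 13 := fun h => hex (by simp [h])
  have hne : (q : ZMod 13) ≠ 0 := by
    intro h
    rw [ZMod.natCast_eq_zero_iff] at h
    exact hq13 ((Nat.prime_dvd_prime_iff_eq (by norm_num) hq).mp h).symm
  have h12 : (q : ZMod 13) ^ 12 = 1 := ZMod.pow_card_sub_one_eq_one hne
  have hf : orderOf (q : ZMod 13) ∣ 12 := orderOf_dvd_of_pow_eq_one h12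
  have h1 : q ^ orderOf (q : ZMod 13) % 13 = 1 := by
    have := pow_orderOf_eq_one (q : ZMod 13)
    have h2 : ((q ^ orderOf (q : ZMod 13) : ℕ) : ZMod 13) = ((1 : ℕ) : ZMod 13) := by
      push_cast
      exact this
    rw [ZMod.natCast_eq_natCast_iff'] at h2
    exact h2
  by_contra hcon
  rw [not_le] at hcon
  rcases pid13_arith_aux q _ hq hf h1 hcon with h | h | h | h | h <;> exact hex (by simp [h])

open Real in
/-- The Minkowski bound of the 13-th cyclotomic field is less than `307`. -/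
theorem pid13_minkowski (K : Type*) [Field K] [NumberField K] [IsCyclotomicExtension {13} ℚ K] :
    (4 / π) ^ InfinitePlace.nrComplexPlaces K * ((Module.finrank ℚ K).factorial /
      (Module.finrank ℚ K) ^ (Module.finrank ℚ K) * √|(discr K : ℝ)|) < 307 := by
  have h13 : Fact (Nat.Prime 13) := ⟨by norm_num⟩
  rw [IsCyclotomicExtension.Rat.discr_prime 13 K, IsCyclotomicExtension.finrank (n := 13) K
    (cyclotomic.irreducible_rat (by norm_num)),
    IsCyclotomicExtension.Rat.nrComplexPlaces_eq_totient_div_two 13,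
    Nat.totient_prime (by norm_num)]
  have hsq : √|(((-1 : ℤ) ^ ((13 - 1) / 2) * ((13 : ℕ) : ℤ) ^ (13 - 2) : ℤ) : ℝ)|
      < 371293 * 3.60556 := by
    rw [Real.sqrt_lt' (by norm_num)]
    norm_num
  have hpi : (4 / π) ^ ((13 - 1) / 2) < (4 / 3.1415) ^ ((13 - 1) / 2) := by
    have := Real.pi_gt_d4
    gcongr
  have hfac : ((13 - 1 : ℕ).factorial : ℝ) = 479001600 := by
    norm_num [Nat.factorial]
  rw [hfac]
  calc (4 / π) ^ ((13 - 1) / 2) * (479001600 / ((13 - 1 : ℕ) : ℝ) ^ (13 - 1)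
        * √|(((-1 : ℤ) ^ ((13 - 1) / 2) * ((13 : ℕ) : ℤ) ^ (13 - 2) : ℤ) : ℝ)|)
      < (4 / 3.1415) ^ ((13 - 1) / 2) * (479001600 / ((13 - 1 : ℕ) : ℝ) ^ (13 - 1)
        * (371293 * 3.60556)) := by
        gcongr
    _ < 307 := by norm_num

/-- The ring of integers of the 13-th cyclotomic field is a principal ideal ring. -/
theorem thirteen_pid (K : Type*) [Field K] [NumberField K] [IsCyclotomicExtension {13} ℚ K] :
    IsPrincipalIdealRing (𝓞 K) := by
  have h13 : Fact (Nat.Prime 13) := ⟨by norm_num⟩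
  have hgal : IsGalois ℚ K := IsCyclotomicExtension.isGalois {13} ℚ K
  apply RingOfIntegers.isPrincipalIdealRing_of_isPrincipal_of_lt_or_isPrincipal_of_mem_primesOver_of_mem_Icc
  have hM := pid13_minkowski K
  have hfl : ⌊(4 / Real.pi) ^ InfinitePlace.nrComplexPlaces K *
      ((Module.finrank ℚ K).factorial / (Module.finrank ℚ K) ^ (Module.finrank ℚ K) *
        √|(discr K : ℝ)|)⌋₊ < 307 := by
    rw [Nat.floor_lt (by positivity)]
    exact_mod_cast hM
  intro q hq hqp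
  have : Fact q.Prime := ⟨hqp⟩
  by_cases hex : q = 3 ∨ q = 13 ∨ q = 53 ∨ q = 79 ∨ q = 131 ∨ q = 157
  · rcases hex with rfl | rfl | rfl | rfl | rfl | rfl
    · obtain ⟨P, hP, hprin⟩ := pid13_prime_3 (K := K)
      exact ⟨P, hP, Or.inr hprin⟩
    · obtain ⟨P, hP, hprin⟩ := pid13_prime_13 (K := K)
      exact ⟨P, hP, Or.inr hprin⟩
    · obtain ⟨P, hP, hprin⟩ := pid13_prime_53 (K := K)
      exact ⟨P, hP, Or.inr hprin⟩
    · obtain ⟨P, hP, hprin⟩ := pid13_prime_79 (K := K)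
      exact ⟨P, hP, Or.inr hprin⟩
    · obtain ⟨P, hP, hprin⟩ := pid13_prime_131 (K := K)
      exact ⟨P, hP, Or.inr hprin⟩
    · obtain ⟨P, hP, hprin⟩ := pid13_prime_157 (K := K)
      exact ⟨P, hP, Or.inr hprin⟩
  · obtain ⟨⟨P, hP1, hP2⟩⟩ := (span {(q : ℤ)}).nonempty_primesOver (S := 𝓞 K)
    refine ⟨P, ⟨hP1, hP2⟩, Or.inl ?_⟩
    have hq13 : ¬ q ∣ 13 := by
      intro h
      exact hex (Or.inr (Or.inl ((Nat.prime_dvd_prime_iff_eq hqp (by norm_num)).mp h)))
    rw [IsCyclotomicExtension.Rat.inertiaDeg_eq_of_not_dvd q K P hq13]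
    exact lt_of_lt_of_le hfl (pid13_arith q hqp hex)

end Fermat.Agent.FLTSmall
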