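import Mathlib
import Fermat.Agent.FLTSmall.KummerGeneric

/-!
# Kummer's lemma for the prime 5

Explicit units of `ℤ[ζ_5]` with leading levels [1, 2] (certificates generated by computer).
-/

set_option autoImplicit false

namespace Fermat.Agent.FLTSmall

open NumberField

namespace Kummer5

variable {R : Type*} [CommRing R]

/-- The unit `η_0`. -/
def v0 (z : R) : R := z

/-- The inverse of `η_0`. -/
def i0 (z : R) : R := -1 - z - z ^ 2 - z ^ 3

/-- The cofactor in the level certificate of `η_0`. -/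
def w0 (_z : R) : R := 0

theorem u0 (z : R) (h : 1 + z + z ^ 2 + z ^ 3 + z ^ 4 = 0) : v0 z * i0 z = 1 := by
  unfold v0 i0
  linear_combination (-1) * h

theorem l0 (z : R) (h : 1 + z + z ^ 2 + z ^ 3 + z ^ 4 = 0) :
    v0 z - ((1 : ℤ) : R) - ((1 : ℤ) : R) * (z - 1) ^ 1 = (z - 1) ^ (1 + 1) * w0 z := by
  unfold v0 w0
  push_cast
  linear_combination (0) * h

/-- The unit `η_1`. -/
def v1 (z : R) : R := z ^ 2 + z ^ 3

/-- The inverse of `η_1`. -/
def i1 (z : R) : R := 1 + z ^ 2 + z ^ 3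

/-- The cofactor in the level certificate of `η_1`. -/
def w1 (z : R) : R := 3 + 3 * z + 3 * z ^ 2 + 2 * z ^ 3

theorem u1 (z : R) (h : 1 + z + z ^ 2 + z ^ 3 + z ^ 4 = 0) : v1 z * i1 z = 1 := by
  unfold v1 i1
  linear_combination (-1 + z + z ^ 2) * h

theorem l1 (z : R) (h : 1 + z + z ^ 2 + z ^ 3 + z ^ 4 = 0) :
    v1 z - ((2 : ℤ) : R) - ((4 : ℤ) : R) * (z - 1) ^ 2 = (z - 1) ^ (2 + 1) * w1 z := by
  unfold v1 w1
  push_cast
  linear_combination (-3 + 5 * z - 2 * z ^ 2) * h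

end Kummer5

/-- **Kummer's lemma** for `p = 5`. -/
theorem kummer_five (K : Type*) [Field K] [NumberField K] [IsCyclotomicExtension {5} ℚ K] :
    KL 5 K := by
  have : Fact (Nat.Prime 5) := ⟨by norm_num⟩
  have hζ := IsCyclotomicExtension.zeta_spec 5 ℚ K
  have hs : 1 + hζ.toInteger + hζ.toInteger ^ 2 + hζ.toInteger ^ 3 + hζ.toInteger ^ 4 = 0 := by
    simpa [Finset.sum_range_succ] using Kummer.toInteger_geom_sum hζ
  refine Kummer.kummer_of_levels' hζ (by norm_num) (m := 2) (by norm_num)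
    ![Kummer5.v0 hζ.toInteger, Kummer5.v1 hζ.toInteger]
    ![Kummer5.i0 hζ.toInteger, Kummer5.i1 hζ.toInteger]
    ?_ ![1, 2] ![1, 4] ![1, 2]
    (Fin.strictMono_iff_lt_succ.mpr (by decide)) (by decide) (by decide) (by decide) (by decide) ?_
  · intro k
    fin_cases k
    · exact Kummer5.u0 _ hs
    · exact Kummer5.u1 _ hs
  · intro k
    fin_cases k
    · exact ⟨Kummer5.w0 hζ.toInteger, Kummer5.l0 _ hs⟩
    · exact ⟨Kummer5.w1 hζ.toInteger, Kummer5.l1 _ hs⟩

end Fermat.Agent.FLTSmall
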