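import Mathlib
import Fermat.Agent.FLTSmall.KummerGeneric

/-!
# Kummer's lemma for the prime 7

Explicit units of `ℤ[ζ_7]` with leading levels [1, 2, 4] (certificates generated by computer).
-/

set_option autoImplicit false

namespace Fermat.Agent.FLTSmall

open NumberField

namespace Kummer7

variable {R : Type*} [CommRing R]

/-- The unit `η_0`. -/
def v0 (z : R) : R := z

/-- The inverse of `η_0`. -/
def i0 (z : R) : R := -1 - z - z ^ 2 - z ^ 3 - z ^ 4 - z ^ 5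

/-- The cofactor in the level certificate of `η_0`. -/
def w0 (_z : R) : R := 0

theorem u0 (z : R) (h : 1 + z + z ^ 2 + z ^ 3 + z ^ 4 + z ^ 5 + z ^ 6 = 0) : v0 z * i0 z = 1 := by
  unfold v0 i0
  linear_combination (-1) * h

theorem l0 (z : R) (h : 1 + z + z ^ 2 + z ^ 3 + z ^ 4 + z ^ 5 + z ^ 6 = 0) :
    v0 z - ((1 : ℤ) : R) - ((1 : ℤ) : R) * (z - 1) ^ 1 = (z - 1) ^ (1 + 1) * w0 z := by
  unfold v0 w0
  push_cast
  linear_combination (0) * h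

/-- The unit `η_1`. -/
def v1 (z : R) : R := z ^ 3 + z ^ 4

/-- The inverse of `η_1`. -/
def i1 (z : R) : R := -1 - z ^ 2 - z ^ 5

/-- The cofactor in the level certificate of `η_1`. -/
def w1 (z : R) : R := 1 + z + 2 * z ^ 2 + 3 * z ^ 3 + 3 * z ^ 4 + 2 * z ^ 5

theorem u1 (z : R) (h : 1 + z + z ^ 2 + z ^ 3 + z ^ 4 + z ^ 5 + z ^ 6 = 0) : v1 z * i1 z = 1 := by
  unfold v1 i1
  linear_combination (-1 + z - z ^ 3) * h

theorem l1 (z : R) (h : 1 + z + z ^ 2 + z ^ 3 + z ^ 4 + z ^ 5 + z ^ 6 = 0) :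
    v1 z - ((2 : ℤ) : R) - ((2 : ℤ) : R) * (z - 1) ^ 2 = (z - 1) ^ (2 + 1) * w1 z := by
  unfold v1 w1
  push_cast
  linear_combination (-3 + 5 * z - 2 * z ^ 2) * h

/-- The unit `η_2`. -/
def v2 (z : R) : R := 1 - 2 * z ^ 2 - 3 * z ^ 3 - 3 * z ^ 4 - 2 * z ^ 5

/-- The inverse of `η_2`. -/
def i2 (z : R) : R := -3 - 3 * z ^ 2 - z ^ 3 - z ^ 4 - 3 * z ^ 5

/-- The cofactor in the level certificate of `η_2`. -/
def w2 (z : R) : R := 1 + 2 * z + 3 * z ^ 2 + 3 * z ^ 3 + 2 * z ^ 4 + z ^ 5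

theorem u2 (z : R) (h : 1 + z + z ^ 2 + z ^ 3 + z ^ 4 + z ^ 5 + z ^ 6 = 0) : v2 z * i2 z = 1 := by
  unfold v2 i2
  linear_combination (-4 + 4 * z + 3 * z ^ 2 + 5 * z ^ 3 + 6 * z ^ 4) * h

theorem l2 (z : R) (h : 1 + z + z ^ 2 + z ^ 3 + z ^ 4 + z ^ 5 + z ^ 6 = 0) :
    v2 z - ((5 : ℤ) : R) - ((1 : ℤ) : R) * (z - 1) ^ 4 = (z - 1) ^ (4 + 1) * w2 z := by
  unfold v2 w2
  push_cast
  linear_combination (-4 + 5 * z - 6 * z ^ 2 + 4 * z ^ 3 - z ^ 4) * h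

end Kummer7

/-- **Kummer's lemma** for `p = 7`. -/
theorem kummer_seven (K : Type*) [Field K] [NumberField K] [IsCyclotomicExtension {7} ℚ K] :
    KL 7 K := by
  have : Fact (Nat.Prime 7) := ⟨by norm_num⟩
  have hζ := IsCyclotomicExtension.zeta_spec 7 ℚ K
  have hs : 1 + hζ.toInteger + hζ.toInteger ^ 2 + hζ.toInteger ^ 3 + hζ.toInteger ^ 4 + hζ.toInteger ^ 5 + hζ.toInteger ^ 6 = 0 := by
    simpa [Finset.sum_range_succ] using Kummer.toInteger_geom_sum hζ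
  refine Kummer.kummer_of_levels' hζ (by norm_num) (m := 3) (by norm_num)
    ![Kummer7.v0 hζ.toInteger, Kummer7.v1 hζ.toInteger, Kummer7.v2 hζ.toInteger]
    ![Kummer7.i0 hζ.toInteger, Kummer7.i1 hζ.toInteger, Kummer7.i2 hζ.toInteger]
    ?_ ![1, 2, 5] ![1, 2, 1] ![1, 2, 4]
    (Fin.strictMono_iff_lt_succ.mpr (by decide)) (by decide) (by decide) (by decide) (by decide) ?_
  · intro k
    fin_cases k
    · exact Kummer7.u0 _ hs
    · exact Kummer7.u1 _ hs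
    · exact Kummer7.u2 _ hs
  · intro k
    fin_cases k
    · exact ⟨Kummer7.w0 hζ.toInteger, Kummer7.l0 _ hs⟩
    · exact ⟨Kummer7.w1 hζ.toInteger, Kummer7.l1 _ hs⟩
    · exact ⟨Kummer7.w2 hζ.toInteger, Kummer7.l2 _ hs⟩

end Fermat.Agent.FLTSmall
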