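import Fermat.Agent.FLTSmall.PIDAux

namespace Fermat.Agent.FLTSmall

open NumberField Polynomial Ideal Module InfinitePlace

theorem seven_pid (K : Type*) [Field K] [NumberField K] [IsCyclotomicExtension {7} ℚ K] :
    IsPrincipalIdealRing (𝓞 K) := by
  have : Fact (Nat.Prime 7) := ⟨by norm_num⟩
  have : IsGalois ℚ K := IsCyclotomicExtension.isGalois {7} ℚ K
  refine pid_of_floor_le K 4 ?_ ?_
  · rw [IsCyclotomicExtension.Rat.discr_prime 7 K, IsCyclotomicExtension.finrank (n := 7) K
      (Polynomial.cyclotomic.irreducible_rat (by simp)),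
      IsCyclotomicExtension.Rat.nrComplexPlaces_eq_totient_div_two 7,
      Nat.totient_prime (by norm_num)]
    have hd : |(((-1 : ℤ) ^ ((7 - 1) / 2) * ((7 : ℕ) : ℤ) ^ (7 - 2) : ℤ) : ℝ)| = 16807 := by
      norm_num
    have hfact : (((7 - 1 : ℕ).factorial : ℕ) : ℝ) = 720 := by
      norm_num [Nat.factorial]
    have hs : √(16807 : ℝ) < 130 := by
      rw [Real.sqrt_lt' (by norm_num)]
      norm_num
    have hpi : 4 / Real.pi < 4 / 3.14 :=
      div_lt_div_of_pos_left (by norm_num) (by norm_num) Real.pi_gt_d2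
    have hpi0 : (0 : ℝ) ≤ 4 / Real.pi := by positivity
    rw [hd, hfact]
    calc (4 / Real.pi) ^ ((7 - 1) / 2) * (720 / ((7 - 1 : ℕ) : ℝ) ^ (7 - 1) * √16807)
        ≤ (4 / 3.14) ^ ((7 - 1) / 2) * (720 / ((7 - 1 : ℕ) : ℝ) ^ (7 - 1) * 130) := by
          gcongr
      _ < ((4 : ℕ) : ℝ) + 1 := by norm_num
  · intro q hq hqp
    interval_cases q
    · exact absurd hqp (by norm_num)
    · exact absurd hqp (by norm_num)
    · exact exists_of_forall_pow_mod_ne_one 7 K 2 hqp (by norm_num) 4 (by decide)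
    · exact exists_of_forall_pow_mod_ne_one 7 K 3 hqp (by norm_num) 4 (by decide)
    · exact absurd hqp (by norm_num)

end Fermat.Agent.FLTSmall
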