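import Mathlib

/-!
# Auxiliary lemmas for proving that `ℤ[ζ_p]` is a PID (Minkowski bound method)

For a prime `p` and a `p`-th cyclotomic field `K`, we provide:

* `pid_of_floor_le`: the Galois Minkowski criterion with the floor of the Minkowski bound replaced
  by an upper bound `B`;
* `exists_of_lt_pow_orderOf`: primes `q ≠ p` with `B < q ^ (order of q mod p)` satisfy the
  criterion, with a `decide`-friendly version `exists_of_forall_pow_mod_ne_one`;
* `exists_ramified`: the prime `p` satisfies the criterion;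
* `exists_principal_of_cert`: a prime `q ≠ p` satisfies the criterion if a certificate
  `α * β = q`, `α * γ = ζ - r`, `α = q * u + (ζ - r) * v` is given, with `r` a root of the
  `p`-th cyclotomic polynomial modulo `q`.
-/

namespace Fermat.Agent.FLTSmall

open NumberField Polynomial Ideal Module InfinitePlace

section criterion

variable (K : Type*) [Field K] [NumberField K]

/-- The Galois Minkowski criterion, with the floor of the Minkowski bound replaced by any
upper bound `B`. -/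
theorem pid_of_floor_le [IsGalois ℚ K] (B : ℕ)
    (hB : (4 / Real.pi) ^ nrComplexPlaces K *
      (((finrank ℚ K).factorial : ℝ) / (finrank ℚ K : ℝ) ^ (finrank ℚ K) *
        Real.sqrt |(discr K : ℝ)|) < B + 1)
    (h : ∀ q ≤ B, q.Prime → ∃ P ∈ primesOver (span {(q : ℤ)}) (𝓞 K),
      B < q ^ P.inertiaDeg ℤ ∨ Submodule.IsPrincipal P) :
    IsPrincipalIdealRing (𝓞 K) := by
  have hfl : ⌊(4 / Real.pi) ^ nrComplexPlaces K *
      (((finrank ℚ K).factorial : ℝ) / (finrank ℚ K : ℝ) ^ (finrank ℚ K) *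
        Real.sqrt |(discr K : ℝ)|)⌋₊ ≤ B := by
    rw [← Nat.lt_succ_iff, Nat.floor_lt (by positivity)]
    exact_mod_cast hB
  refine RingOfIntegers.isPrincipalIdealRing_of_isPrincipal_of_lt_or_isPrincipal_of_mem_primesOver_of_mem_Icc
    (fun q hq hqp ↦ ?_)
  obtain ⟨P, hP, hP'⟩ := h q ((Finset.mem_Icc.mp hq).2.trans hfl) hqp
  exact ⟨P, hP, hP'.imp (fun h' ↦ lt_of_le_of_lt hfl h') id⟩

end criterion

section cyclotomic

variable (p : ℕ) [hp : Fact p.Prime] (K : Type*) [Field K] [NumberField K]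
  [hK : IsCyclotomicExtension {p} ℚ K]

/-- An unramified prime `q` with `B < q ^ f`, `f` the order of `q` modulo `p`. -/
theorem exists_of_lt_pow_orderOf (q : ℕ) (hq : q.Prime) (hqp : q ≠ p) (B : ℕ)
    (h : B < q ^ orderOf (q : ZMod p)) :
    ∃ P ∈ primesOver (span {(q : ℤ)}) (𝓞 K),
      B < q ^ P.inertiaDeg ℤ ∨ Submodule.IsPrincipal P := by
  have : Fact q.Prime := ⟨hq⟩
  obtain ⟨⟨P, hP1, hP2⟩⟩ := (span {(q : ℤ)}).nonempty_primesOver (S := 𝓞 K)
  refine ⟨P, ⟨hP1, hP2⟩, Or.inl ?_⟩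
  rwa [IsCyclotomicExtension.Rat.inertiaDeg_eq_of_not_dvd q K P
    (fun hdvd ↦ hqp ((Nat.prime_dvd_prime_iff_eq hq hp.out).mp hdvd))]

omit [NumberField K] hK in
theorem lt_pow_orderOf_of_forall (q : ℕ) (hq : q.Prime) (hqp : q ≠ p) (B : ℕ)
    (h : ∀ j ∈ Finset.range p, 0 < j → q ^ j ≤ B → q ^ j % p ≠ 1) :
    B < q ^ orderOf (q : ZMod p) := by
  by_contra hle
  rw [not_lt] at hle
  have hq0 : (q : ZMod p) ≠ 0 := by
    rw [Ne, ZMod.natCast_eq_zero_iff]
    exact fun hdvd ↦ hqp ((Nat.prime_dvd_prime_iff_eq hp.out hq).mp hdvd).symm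
  have hdvd : orderOf (q : ZMod p) ∣ p - 1 :=
    orderOf_dvd_of_pow_eq_one (ZMod.pow_card_sub_one_eq_one hq0)
  have hp1 : 0 < p - 1 := Nat.sub_pos_of_lt hp.out.one_lt
  have hpos : 0 < orderOf (q : ZMod p) := Nat.pos_of_dvd_of_pos hdvd hp1
  have hlt : orderOf (q : ZMod p) < p :=
    lt_of_le_of_lt (Nat.le_of_dvd hp1 hdvd) (Nat.sub_lt hp.out.pos Nat.one_pos)
  refine h _ (Finset.mem_range.mpr hlt) hpos hle ?_
  have h1 : ((q ^ orderOf (q : ZMod p) : ℕ) : ZMod p) = ((1 : ℕ) : ZMod p) := by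
    rw [Nat.cast_pow, pow_orderOf_eq_one, Nat.cast_one]
  rw [ZMod.natCast_eq_natCast_iff'] at h1
  rw [h1, Nat.mod_eq_of_lt hp.out.one_lt]

/-- A `decide`-friendly version of `exists_of_lt_pow_orderOf`. -/
theorem exists_of_forall_pow_mod_ne_one (q : ℕ) (hq : q.Prime) (hqp : q ≠ p) (B : ℕ)
    (h : ∀ j ∈ Finset.range p, 0 < j → q ^ j ≤ B → q ^ j % p ≠ 1) :
    ∃ P ∈ primesOver (span {(q : ℤ)}) (𝓞 K),
      B < q ^ P.inertiaDeg ℤ ∨ Submodule.IsPrincipal P :=
  exists_of_lt_pow_orderOf p K q hq hqp B (lt_pow_orderOf_of_forall p q hq hqp B h)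

/-- The ramified prime `p`: the unique prime above it is generated by `ζ - 1`. -/
theorem exists_ramified (B : ℕ) :
    ∃ P ∈ primesOver (span {(p : ℤ)}) (𝓞 K),
      B < p ^ P.inertiaDeg ℤ ∨ Submodule.IsPrincipal P := by
  obtain ⟨⟨P, hP1, hP2⟩⟩ := (span {(p : ℤ)}).nonempty_primesOver (S := 𝓞 K)
  refine ⟨P, ⟨hP1, hP2⟩, Or.inr ?_⟩
  rw [IsCyclotomicExtension.Rat.eq_span_zeta_sub_one_of_liesOver' p K
    (IsCyclotomicExtension.zeta_spec p ℚ K) P]
  exact ⟨⟨_, rfl⟩⟩

/-- The sum of the powers of `ζ` vanishes. -/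
theorem toInteger_geom_sum_eq_zero :
    ∑ i ∈ Finset.range p, (IsCyclotomicExtension.zeta_spec p ℚ K).toInteger ^ i = 0 :=
  (IsCyclotomicExtension.zeta_spec p ℚ K).toInteger_isPrimitiveRoot.geom_sum_eq_zero
    hp.out.one_lt

/-- A prime `q ≠ p` of residue degree one, with a principal prime above it given by a
certificate: `r` is a root of the `p`-th cyclotomic polynomial modulo `q` and the ideal
`(q, ζ - r)` is generated by `α`. -/
theorem exists_principal_of_cert (q : ℕ) (hq : q.Prime) (B : ℕ) (r : ℤ)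
    (hr : (∑ i ∈ Finset.range p, (r : ZMod q) ^ i) = 0)
    (α β γ u v : 𝓞 K)
    (h1 : α * β = (q : 𝓞 K))
    (h2 : α * γ = (IsCyclotomicExtension.zeta_spec p ℚ K).toInteger - (r : 𝓞 K))
    (h3 : α = (q : 𝓞 K) * u +
      ((IsCyclotomicExtension.zeta_spec p ℚ K).toInteger - (r : 𝓞 K)) * v) :
    ∃ P ∈ primesOver (span {(q : ℤ)}) (𝓞 K),
      B < q ^ P.inertiaDeg ℤ ∨ Submodule.IsPrincipal P := by
  have : Fact q.Prime := ⟨hq⟩
  set ζ := (IsCyclotomicExtension.zeta_spec p ℚ K).toInteger with hζ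
  have h₁ : ¬ q ∣ RingOfIntegers.exponent ζ := by
    rw [RingOfIntegers.exponent_eq_one_iff.mpr <|
      IsCyclotomicExtension.Rat.adjoin_singleton_eq_top (IsCyclotomicExtension.zeta_spec p ℚ K)]
    exact hq.not_dvd_one
  have hmin : minpoly ℤ ζ = cyclotomic p ℤ := by
    rw [cyclotomic_eq_minpoly (IsCyclotomicExtension.zeta_spec p ℚ K) hp.out.pos,
      ← (IsCyclotomicExtension.zeta_spec p ℚ K).coe_toInteger, ← RingOfIntegers.minpoly_coe ζ]
    rfl
  have hQ : (X - C r : ℤ[X]).map (Int.castRingHom (ZMod q)) ∈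
      RingOfIntegers.monicFactorsMod ζ q := by
    rw [Multiset.mem_toFinset, Polynomial.mem_normalizedFactors_iff
      (map_monic_ne_zero (minpoly.monic ζ.isIntegral))]
    have hmap : (X - C r : ℤ[X]).map (Int.castRingHom (ZMod q)) = X - C (r : ZMod q) := by
      simp
    rw [hmap]
    refine ⟨irreducible_X_sub_C _, monic_X_sub_C _, ?_⟩
    rw [hmin, map_cyclotomic_int, dvd_iff_isRoot, IsRoot.def, cyclotomic_prime, eval_geom_sum]
    exact hr
  have hmem := ((NumberField.Ideal.primesOverSpanEquivMonicFactorsMod h₁).symm ⟨_, hQ⟩).prop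
  rw [NumberField.Ideal.primesOverSpanEquivMonicFactorsMod_symm_apply_eq_span h₁ hQ] at hmem
  refine ⟨_, hmem, Or.inr ?_⟩
  have hspan : span {(q : 𝓞 K), aeval ζ (X - C r : ℤ[X])} = span {α} := by
    have haev : aeval ζ (X - C r : ℤ[X]) = ζ - (r : 𝓞 K) := by simp
    rw [haev]
    apply le_antisymm
    · rw [span_le]
      intro x hx
      rcases hx with rfl | rfl
      · exact mem_span_singleton.mpr ⟨β, h1.symm⟩
      · exact mem_span_singleton.mpr ⟨γ, h2.symm⟩
    · rw [span_le]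
      intro x hx
      rw [Set.mem_singleton_iff] at hx
      rw [hx, h3]
      exact add_mem (Ideal.mul_mem_right _ _ (subset_span (by simp)))
        (Ideal.mul_mem_right _ _ (subset_span (by simp)))
  rw [hspan]
  exact ⟨⟨_, rfl⟩⟩

end cyclotomic

end Fermat.Agent.FLTSmall
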