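import Mathlib

/-!
# Case I of Fermat's Last Theorem for `p = 5, 7, 11, 13` (Sophie Germain's theorem)

If `p` is an odd prime and `q` is an auxiliary prime such that
* `x ^ p + y ^ p + z ^ p = 0` in `ZMod q` forces `x = 0 ∨ y = 0 ∨ z = 0`, and
* `p` is not a `p`-th power in `ZMod q`,
then every primitive integer solution of `a ^ p + b ^ p = c ^ p` has `p ∣ a * b * c`.
-/

set_option autoImplicit false

namespace Fermat.Agent.FLTSmall

namespace SG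

/-- the cofactor `(y ^ p + z ^ p) / (y + z)` -/
def cof (p : ℕ) (y z : ℤ) : ℤ := ∑ i ∈ Finset.range p, y ^ i * (-z) ^ (p - 1 - i)

theorem cof_mul {p : ℕ} (hp : Odd p) (y z : ℤ) : cof p y z * (y + z) = y ^ p + z ^ p := by
  have h := geom_sum₂_mul y (-z) p
  rw [hp.neg_pow, sub_neg_eq_add, sub_neg_eq_add] at h
  exact h

/-- `cof p y z ≡ p * y ^ (p - 1)` modulo `y + z`. -/
theorem dvd_cof_sub (p : ℕ) (y z : ℤ) : y + z ∣ cof p y z - p * y ^ (p - 1) := by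
  have h1 : (p : ℤ) * y ^ (p - 1) = ∑ i ∈ Finset.range p, y ^ i * y ^ (p - 1 - i) := by
    have h2 : ∀ i ∈ Finset.range p, y ^ i * y ^ (p - 1 - i) = y ^ (p - 1) := by
      intro i hi
      rw [← pow_add]
      congr 1
      have := Finset.mem_range.mp hi
      omega
    rw [Finset.sum_congr rfl h2]
    simp
  rw [h1, cof, ← Finset.sum_sub_distrib]
  refine Finset.dvd_sum fun i _ => ?_
  rw [← mul_sub]
  refine Dvd.dvd.mul_left ?_ _
  have h3 := sub_dvd_pow_sub_pow (-z) y (p - 1 - i)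
  have h4 : y + z ∣ -z - y := ⟨-1, by ring⟩
  exact h4.trans h3

/-- `cof p x y ≡ (-y) ^ (p - 1)` modulo `x`. -/
theorem dvd_cof_sub_last {p : ℕ} (hp : 0 < p) (x y : ℤ) : x ∣ cof p x y - (-y) ^ (p - 1) := by
  obtain ⟨n, rfl⟩ : ∃ n, p = n + 1 := ⟨p - 1, by omega⟩
  rw [cof, Finset.sum_range_succ']
  simp only [pow_zero, one_mul, Nat.add_sub_cancel, Nat.sub_zero, add_sub_cancel_right]
  refine Finset.dvd_sum fun i _ => ?_
  exact Dvd.dvd.mul_right (dvd_pow_self x (Nat.succ_ne_zero i)) _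

theorem isCoprime_add_cof {p : ℕ} (hp : p.Prime) {y z : ℤ} (hyz : IsCoprime y z)
    (hpd : ¬ (p : ℤ) ∣ y + z) : IsCoprime (y + z) (cof p y z) := by
  refine isCoprime_of_prime_dvd ?_ fun r hr h1 h2 => ?_
  · rintro ⟨h0, -⟩
    exact hpd (h0 ▸ dvd_zero _)
  · have h3 : r ∣ (p : ℤ) * y ^ (p - 1) := by
      have h4 := h1.trans (dvd_cof_sub p y z)
      have h5 := dvd_sub h2 h4
      simpa using h5
    rcases hr.dvd_or_dvd h3 with h4 | h4
    · have hpp : Prime (p : ℤ) := Nat.prime_iff_prime_int.mp hp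
      have h5 : Associated r (p : ℤ) := hr.associated_of_dvd hpp h4
      exact hpd (h5.symm.dvd.trans h1)
    · have h5 : r ∣ y := hr.dvd_of_dvd_pow h4
      have h6 : r ∣ z := by
        have := dvd_sub h1 h5
        simpa using this
      exact hr.not_isUnit (hyz.isUnit_of_dvd' h5 h6)

/-- key extraction: `y + z` and the cofactor are `p`-th powers -/
theorem exists_pow {p : ℕ} (hp : p.Prime) (hp2 : p ≠ 2) {x y z : ℤ} (hyz : IsCoprime y z)
    (h : x ^ p + y ^ p + z ^ p = 0) (hpx : ¬ (p : ℤ) ∣ x) :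
    ∃ a α : ℤ, y + z = a ^ p ∧ cof p y z = α ^ p := by
  have hodd : Odd p := hp.odd_of_ne_two hp2
  have hpp : Prime (p : ℤ) := Nat.prime_iff_prime_int.mp hp
  have hpd : ¬ (p : ℤ) ∣ y + z := by
    intro hd
    have h1 : (p : ℤ) ∣ y ^ p + z ^ p := hd.trans (hodd.add_dvd_pow_add_pow y z)
    have h2 : (p : ℤ) ∣ x ^ p := by
      have h3 : x ^ p = -(y ^ p + z ^ p) := by linarith
      rw [h3]
      exact (dvd_neg).mpr h1
    exact hpx (hpp.dvd_of_dvd_pow h2)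
  have hcop := isCoprime_add_cof hp hyz hpd
  have hmul : (y + z) * cof p y z = (-x) ^ p := by
    rw [mul_comm, cof_mul hodd, hodd.neg_pow]
    linarith
  obtain ⟨a, ha⟩ := Int.eq_pow_of_mul_eq_pow_odd_left hcop hodd hmul
  obtain ⟨α, hα⟩ := Int.eq_pow_of_mul_eq_pow_odd_right hcop hodd hmul
  exact ⟨a, α, ha, hα⟩

/-- the core of Sophie Germain's argument, when the auxiliary prime divides `x` -/
theorem core {p q : ℕ} (hp : p.Prime) (hq : q.Prime) (hp2 : p ≠ 2)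
    (h1 : ∀ x y z : ZMod q, x ^ p + y ^ p + z ^ p = 0 → x = 0 ∨ y = 0 ∨ z = 0)
    (h2 : ∀ x : ZMod q, x ^ p ≠ (p : ZMod q))
    {x y z : ℤ} (hxy : IsCoprime x y) (hyz : IsCoprime y z) (hzx : IsCoprime z x)
    (h : x ^ p + y ^ p + z ^ p = 0) (hpx : ¬ (p : ℤ) ∣ x) (hpy : ¬ (p : ℤ) ∣ y)
    (hpz : ¬ (p : ℤ) ∣ z) (hqx : (q : ℤ) ∣ x) : False := by
  have : Fact q.Prime := ⟨hq⟩
  have hodd : Odd p := hp.odd_of_ne_two hp2
  have hqq : Prime (q : ℤ) := Nat.prime_iff_prime_int.mp hq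
  obtain ⟨a, α, ha, hα⟩ := exists_pow hp hp2 hyz h hpx
  obtain ⟨b, -, hb, -⟩ := exists_pow hp hp2 hzx (show y ^ p + z ^ p + x ^ p = 0 by linarith) hpy
  obtain ⟨c, γ, hc, hγ⟩ := exists_pow hp hp2 hxy (show z ^ p + x ^ p + y ^ p = 0 by linarith) hpz
  -- `q` does not divide `y` or `z`
  have hqy : ¬ (q : ℤ) ∣ y := fun hd => hqq.not_isUnit (hxy.isUnit_of_dvd' hqx hd)
  have hqz : ¬ (q : ℤ) ∣ z := fun hd => hqq.not_isUnit (hzx.isUnit_of_dvd' hd hqx)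
  -- `q ∣ a`
  have hx0 : ((x : ℤ) : ZMod q) = 0 := (ZMod.intCast_zmod_eq_zero_iff_dvd x q).mpr hqx
  have hsum : ((b : ℤ) : ZMod q) ^ p + (c : ZMod q) ^ p + ((-a : ℤ) : ZMod q) ^ p = 0 := by
    have h3 : b ^ p + c ^ p + (-a) ^ p = 2 * x := by
      rw [hodd.neg_pow, ← ha, ← hb, ← hc]; ring
    have h4 := congrArg (Int.cast : ℤ → ZMod q) h3
    push_cast at h4
    rw [hx0, mul_zero] at h4
    push_cast
    exact h4
  have hqa : (q : ℤ) ∣ y + z := by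
    rcases h1 _ _ _ hsum with h5 | h5 | h5
    · exfalso
      have h6 : (q : ℤ) ∣ b := (ZMod.intCast_zmod_eq_zero_iff_dvd b q).mp h5
      have h7 : (q : ℤ) ∣ z + x := hb ▸ dvd_pow h6 hp.ne_zero
      exact hqz (by simpa using dvd_sub h7 hqx)
    · exfalso
      have h6 : (q : ℤ) ∣ c := (ZMod.intCast_zmod_eq_zero_iff_dvd c q).mp h5
      have h7 : (q : ℤ) ∣ x + y := hc ▸ dvd_pow h6 hp.ne_zero
      exact hqy (by simpa using dvd_sub h7 hqx)
    · have h6 : (q : ℤ) ∣ -a := (ZMod.intCast_zmod_eq_zero_iff_dvd (-a) q).mp h5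
      exact ha ▸ dvd_pow ((dvd_neg).mp h6) hp.ne_zero
  -- the two congruences
  have hα' : ((α : ℤ) : ZMod q) ^ p = (p : ZMod q) * (y : ZMod q) ^ (p - 1) := by
    have h3 : (q : ℤ) ∣ α ^ p - p * y ^ (p - 1) := hα ▸ hqa.trans (dvd_cof_sub p y z)
    have h4 := (ZMod.intCast_zmod_eq_zero_iff_dvd _ q).mpr h3
    push_cast at h4
    exact sub_eq_zero.mp h4
  have hγ' : ((γ : ℤ) : ZMod q) ^ p = (y : ZMod q) ^ (p - 1) := by
    have h3 : (q : ℤ) ∣ γ ^ p - (-y) ^ (p - 1) := hγ ▸ hqx.trans (dvd_cof_sub_last hp.pos x y)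
    have heven : Even (p - 1) := hp.even_sub_one hp2
    rw [heven.neg_pow] at h3
    have h4 := (ZMod.intCast_zmod_eq_zero_iff_dvd _ q).mpr h3
    push_cast at h4
    exact sub_eq_zero.mp h4
  have hy0 : ((y : ℤ) : ZMod q) ≠ 0 := fun h0 =>
    hqy ((ZMod.intCast_zmod_eq_zero_iff_dvd y q).mp h0)
  have hγ0 : ((γ : ℤ) : ZMod q) ^ p ≠ 0 := by
    rw [hγ']
    exact pow_ne_zero _ hy0
  apply h2 ((α : ZMod q) * ((γ : ℤ) : ZMod q)⁻¹)
  rw [mul_pow, inv_pow, hα', ← hγ', mul_assoc, mul_inv_cancel₀ hγ0, mul_one]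

end SG

/-- **Sophie Germain's theorem** (general form with an auxiliary prime `q`). -/
theorem sophie_germain (p q : ℕ) [Fact p.Prime] [Fact q.Prime] (hp2 : p ≠ 2)
    (h1 : ∀ x y z : ZMod q, x ^ p + y ^ p + z ^ p = 0 → x = 0 ∨ y = 0 ∨ z = 0)
    (h2 : ∀ x : ZMod q, x ^ p ≠ (p : ZMod q))
    (a b c : ℤ) (hgcd : ({a, b, c} : Finset ℤ).gcd id = 1) (h : a ^ p + b ^ p = c ^ p) :
    (p : ℤ) ∣ a * b * c := by
  have hp : p.Prime := Fact.out
  have hq : q.Prime := Fact.out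
  have hodd : Odd p := hp.odd_of_ne_two hp2
  have hpp : Prime (p : ℤ) := Nat.prime_iff_prime_int.mp hp
  by_contra hnd
  have hpa : ¬ (p : ℤ) ∣ a := fun hd => hnd (Dvd.dvd.mul_right (Dvd.dvd.mul_right hd b) c)
  have hpb : ¬ (p : ℤ) ∣ b := fun hd => hnd (Dvd.dvd.mul_right (Dvd.dvd.mul_left hd a) c)
  have hpc : ¬ (p : ℤ) ∣ -c := fun hd => hnd (Dvd.dvd.mul_left ((dvd_neg).mp hd) (a * b))
  have hF : a ^ p + b ^ p + (-c) ^ p = 0 := by rw [hodd.neg_pow]; linarith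
  have hg1 : ({a, b, -c} : Finset ℤ).gcd id = 1 := by
    have hd : ({a, b, -c} : Finset ℤ).gcd id ∣ ({a, b, c} : Finset ℤ).gcd id := by
      refine Finset.dvd_gcd fun t ht => ?_
      simp only [Finset.mem_insert, Finset.mem_singleton] at ht
      rcases ht with rfl | rfl | rfl
      · exact Finset.gcd_dvd (f := id) (by simp)
      · exact Finset.gcd_dvd (f := id) (by simp)
      · have h3 := Finset.gcd_dvd (f := id) (s := ({a, b, -t} : Finset ℤ)) (b := -t) (by simp)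
        simpa using h3
    rw [hgcd] at hd
    rw [← Finset.normalize_gcd]
    exact normalize_eq_one.mpr (isUnit_of_dvd_one hd)
  have hg2 : ({b, -c, a} : Finset ℤ).gcd id = 1 := by
    have e : ({b, -c, a} : Finset ℤ) = {a, b, -c} := by
      ext t; simp only [Finset.mem_insert, Finset.mem_singleton]; tauto
    rw [e, hg1]
  have hg3 : ({-c, a, b} : Finset ℤ).gcd id = 1 := by
    have e : ({-c, a, b} : Finset ℤ) = {a, b, -c} := by
      ext t; simp only [Finset.mem_insert, Finset.mem_singleton]; tauto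
    rw [e, hg1]
  have hab : IsCoprime a b := isCoprime_of_gcd_eq_one_of_FLT hg1 hF
  have hbc : IsCoprime b (-c) :=
    isCoprime_of_gcd_eq_one_of_FLT hg2 (show b ^ p + (-c) ^ p + a ^ p = 0 by linarith)
  have hca : IsCoprime (-c) a :=
    isCoprime_of_gcd_eq_one_of_FLT hg3 (show (-c) ^ p + a ^ p + b ^ p = 0 by linarith)
  have hmod : ((a : ℤ) : ZMod q) ^ p + (b : ZMod q) ^ p + ((-c : ℤ) : ZMod q) ^ p = 0 := by
    have h4 := congrArg (Int.cast : ℤ → ZMod q) hF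
    push_cast at h4
    push_cast
    exact h4
  rcases h1 _ _ _ hmod with h5 | h5 | h5
  · exact SG.core hp hq hp2 h1 h2 hab hbc hca hF hpa hpb hpc
      ((ZMod.intCast_zmod_eq_zero_iff_dvd a q).mp h5)
  · exact SG.core hp hq hp2 h1 h2 hbc hca hab (show b ^ p + (-c) ^ p + a ^ p = 0 by linarith)
      hpb hpc hpa ((ZMod.intCast_zmod_eq_zero_iff_dvd b q).mp h5)
  · exact SG.core hp hq hp2 h1 h2 hca hab hbc (show (-c) ^ p + a ^ p + b ^ p = 0 by linarith)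
      hpc hpa hpb ((ZMod.intCast_zmod_eq_zero_iff_dvd (-c) q).mp h5)

namespace SG

/-! ### The four auxiliary primes -/

theorem cond1_5 : ∀ x y z : ZMod 11, x ^ 5 + y ^ 5 + z ^ 5 = 0 → x = 0 ∨ y = 0 ∨ z = 0 := by
  have hS : ∀ x : ZMod 11, x ^ 5 ∈ ([0, 1, -1] : List (ZMod 11)) := by decide
  have h0 : ∀ x : ZMod 11, x ^ 5 = 0 → x = 0 := by decide
  have hT : ∀ u ∈ ([0, 1, -1] : List (ZMod 11)), ∀ v ∈ ([0, 1, -1] : List (ZMod 11)),
      ∀ w ∈ ([0, 1, -1] : List (ZMod 11)), u + v + w = 0 → u = 0 ∨ v = 0 ∨ w = 0 := by decide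
  intro x y z h
  rcases hT _ (hS x) _ (hS y) _ (hS z) h with h1 | h1 | h1
  · exact Or.inl (h0 x h1)
  · exact Or.inr (Or.inl (h0 y h1))
  · exact Or.inr (Or.inr (h0 z h1))

theorem cond2_5 : ∀ x : ZMod 11, x ^ 5 ≠ ((5 : ℕ) : ZMod 11) := by decide

theorem cond1_11 : ∀ x y z : ZMod 23, x ^ 11 + y ^ 11 + z ^ 11 = 0 → x = 0 ∨ y = 0 ∨ z = 0 := by
  have hS : ∀ x : ZMod 23, x ^ 11 ∈ ([0, 1, -1] : List (ZMod 23)) := by decide
  have h0 : ∀ x : ZMod 23, x ^ 11 = 0 → x = 0 := by decide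
  have hT : ∀ u ∈ ([0, 1, -1] : List (ZMod 23)), ∀ v ∈ ([0, 1, -1] : List (ZMod 23)),
      ∀ w ∈ ([0, 1, -1] : List (ZMod 23)), u + v + w = 0 → u = 0 ∨ v = 0 ∨ w = 0 := by decide
  intro x y z h
  rcases hT _ (hS x) _ (hS y) _ (hS z) h with h1 | h1 | h1
  · exact Or.inl (h0 x h1)
  · exact Or.inr (Or.inl (h0 y h1))
  · exact Or.inr (Or.inr (h0 z h1))

theorem cond2_11 : ∀ x : ZMod 23, x ^ 11 ≠ ((11 : ℕ) : ZMod 23) := by decide

set_option maxRecDepth 100000 in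
theorem cond1_7 : ∀ x y z : ZMod 29, x ^ 7 + y ^ 7 + z ^ 7 = 0 → x = 0 ∨ y = 0 ∨ z = 0 := by
  have hS : ∀ x : ZMod 29, x ^ 7 ∈ ([0, 1, -1, 12, -12] : List (ZMod 29)) := by decide
  have h0 : ∀ x : ZMod 29, x ^ 7 = 0 → x = 0 := by decide
  have hT : ∀ u ∈ ([0, 1, -1, 12, -12] : List (ZMod 29)),
      ∀ v ∈ ([0, 1, -1, 12, -12] : List (ZMod 29)),
      ∀ w ∈ ([0, 1, -1, 12, -12] : List (ZMod 29)), u + v + w = 0 → u = 0 ∨ v = 0 ∨ w = 0 := by
    decide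
  intro x y z h
  rcases hT _ (hS x) _ (hS y) _ (hS z) h with h1 | h1 | h1
  · exact Or.inl (h0 x h1)
  · exact Or.inr (Or.inl (h0 y h1))
  · exact Or.inr (Or.inr (h0 z h1))

theorem cond2_7 : ∀ x : ZMod 29, x ^ 7 ≠ ((7 : ℕ) : ZMod 29) := by decide

set_option maxRecDepth 100000 in
theorem cond1_13 : ∀ x y z : ZMod 53, x ^ 13 + y ^ 13 + z ^ 13 = 0 → x = 0 ∨ y = 0 ∨ z = 0 := by
  have hS : ∀ x : ZMod 53, x ^ 13 ∈ ([0, 1, -1, 23, -23] : List (ZMod 53)) := by decide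
  have h0 : ∀ x : ZMod 53, x ^ 13 = 0 → x = 0 := by decide
  have hT : ∀ u ∈ ([0, 1, -1, 23, -23] : List (ZMod 53)),
      ∀ v ∈ ([0, 1, -1, 23, -23] : List (ZMod 53)),
      ∀ w ∈ ([0, 1, -1, 23, -23] : List (ZMod 53)), u + v + w = 0 → u = 0 ∨ v = 0 ∨ w = 0 := by
    decide
  intro x y z h
  rcases hT _ (hS x) _ (hS y) _ (hS z) h with h1 | h1 | h1
  · exact Or.inl (h0 x h1)
  · exact Or.inr (Or.inl (h0 y h1))
  · exact Or.inr (Or.inr (h0 z h1))

theorem cond2_13 : ∀ x : ZMod 53, x ^ 13 ≠ ((13 : ℕ) : ZMod 53) := by decide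

end SG

/-- **Case I of Fermat's Last Theorem** for the exponents `5, 7, 11, 13`: a primitive solution of
`a ^ p + b ^ p = c ^ p` has `p ∣ a * b * c`. -/
theorem caseI {p : ℕ} (hp : p = 5 ∨ p = 7 ∨ p = 11 ∨ p = 13) {a b c : ℤ}
    (hgcd : ({a, b, c} : Finset ℤ).gcd id = 1) (h : a ^ p + b ^ p = c ^ p) :
    (p : ℤ) ∣ a * b * c := by
  rcases hp with rfl | rfl | rfl | rfl
  · have : Fact (Nat.Prime 5) := ⟨by norm_num⟩
    have : Fact (Nat.Prime 11) := ⟨by norm_num⟩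
    exact sophie_germain 5 11 (by norm_num) SG.cond1_5 SG.cond2_5 a b c hgcd h
  · have : Fact (Nat.Prime 7) := ⟨by norm_num⟩
    have : Fact (Nat.Prime 29) := ⟨by norm_num⟩
    exact sophie_germain 7 29 (by norm_num) SG.cond1_7 SG.cond2_7 a b c hgcd h
  · have : Fact (Nat.Prime 11) := ⟨by norm_num⟩
    have : Fact (Nat.Prime 23) := ⟨by norm_num⟩
    exact sophie_germain 11 23 (by norm_num) SG.cond1_11 SG.cond2_11 a b c hgcd h
  · have : Fact (Nat.Prime 13) := ⟨by norm_num⟩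
    have : Fact (Nat.Prime 53) := ⟨by norm_num⟩
    exact sophie_germain 13 53 (by norm_num) SG.cond1_13 SG.cond2_13 a b c hgcd h

end Fermat.Agent.FLTSmall
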